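/-
Programme JAC, work package A2 (fibre curve theory), brick (e): the common SETTING.
Two Dedekind `K`-algebras `B₀`, `B₁` with the same fraction field `F`, glued along
`B₀₁ = B₀[1/t]` with `t⁻¹ = s ∈ B₁`, `B₀` integral over `K[t]`, `B₁` integral over `K[s]`:
the places of `F/K` are covered by the two charts, and the interface `TwoChartPre` of `Core38`
holds.
-/
import Mathlib
import Fermat.Prelude.Def_AlgebraicCurve_Repartitions
import Fermat.Agent.X0.FFDedekind
import Fermat.Agent.JAC.Fibre.Chart38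

set_option autoImplicit false
set_option linter.unusedSectionVars false

open AlgebraicCurve IsDedekindDomain WithZero IsLocalRing Polynomial

namespace Fermat.Agent.JAC.Fibre.Setting38

open Fermat.Agent.JAC.Fibre.RelRank38 Fermat.Agent.JAC.Fibre.Lat38 Fermat.Agent.JAC.Fibre.Core38
  Fermat.Agent.JAC.Fibre.Approx38 Fermat.Agent.JAC.Fibre.Chart38
  Fermat.Agent.X0.FFDedekind Fermat.Agent.X0.FF

universe u v w

variable {K : Type u} {F : Type v} [Field K] [Field F] [Algebra K F]

section OneChart

variable {B : Type w} [CommRing B] [IsDedekindDomain B] [Algebra B F] [IsFractionRing B F]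
  [Algebra K B] [IsScalarTower K B F]

/-- If `B` is integral over `K[t]` and `t` is regular at `v`, then `v` is centred on `B`. -/
theorem mem_chartSet_of_mem (t : B) (hint : (aeval t : K[X] →ₐ[K] B).toRingHom.IsIntegral)
    (v : Place K F) (hv : algebraMap B F t ∈ v.toValuationSubring) :
    v ∈ chartSet (K := K) (F := F) B := by
  intro b
  obtain ⟨p, hmonic, hp⟩ := hint b
  set τ := algebraMap B F t with hτ
  let _ : Algebra K[X] F := (aeval τ : K[X] →ₐ[K] F).toRingHom.toAlgebra
  have halg : ∀ a : K[X], algebraMap K[X] F a = aeval τ a := fun a => rfl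
  have hA : ∀ a : K[X], algebraMap K[X] F a ∈ v.toValuationSubring := by
    intro a
    rw [halg]
    let S : Subalgebra K F :=
      { v.toValuationSubring.toSubring with
        algebraMap_mem' := v.algebraMap_mem' }
    have h1 : Algebra.adjoin K {τ} ≤ S :=
      Algebra.adjoin_le (Set.singleton_subset_iff.mpr hv)
    exact h1 (Polynomial.aeval_mem_adjoin_singleton K τ)
  refine mem_of_isIntegral_of_algebraMap_mem v hA ⟨p, hmonic, ?_⟩
  have h2 := congrArg (algebraMap B F) hp
  rw [map_zero, Polynomial.hom_eval₂] at h2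
  have h3 : (algebraMap B F).comp (aeval t : K[X] →ₐ[K] B).toRingHom = algebraMap K[X] F := by
    apply Polynomial.ringHom_ext
    · intro c
      simp only [AlgHom.toRingHom_eq_coe, RingHom.coe_comp, RingHom.coe_coe, Function.comp_apply,
        aeval_C, halg]
      exact (IsScalarTower.algebraMap_apply K B F c).symm
    · simp [halg, hτ]
  rw [h3] at h2
  exact h2

/-- A nonzero function has finitely many zeros and poles on a chart. -/
theorem finite_ord_ne_zero_chart {f : F} (hf : f ≠ 0) :
    {v : Place K F | v ∈ chartSet (K := K) (F := F) B ∧ v.ord f ≠ 0}.Finite := by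
  have h1 := (HeightOneSpectrum.Support.finite B f).union
    (HeightOneSpectrum.Support.finite B f⁻¹)
  refine (h1.image (Place.ofHeightOneSpectrum (K := K) (F := F))).subset ?_
  rintro v ⟨hv, hord⟩
  refine ⟨centreSpec v hv, ?_, ofHeightOneSpectrum_centreSpec v hv⟩
  have hval : v.adicValuation f = (centreSpec v hv).valuation F f :=
    adicValuation_eq_centreSpec v hv f
  have hvf : v.adicValuation f = exp (-v.ord f) := v.adicValuation_eq_exp_neg_ord hf
  rcases lt_or_gt_of_ne hord with h | h
  · left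
    show 1 < (centreSpec v hv).valuation F f
    rw [← hval, hvf, ← exp_zero, exp_lt_exp]; omega
  · right
    show 1 < (centreSpec v hv).valuation F f⁻¹
    rw [map_inv₀, ← hval, hvf, ← exp_neg, neg_neg, ← exp_zero, exp_lt_exp]; exact h

/-- The `K`-algebra map from `B` to the valuation ring of a place centred on `B`. -/
noncomputable def toRingAlgHom (v : Place K F) (hv : v ∈ chartSet (K := K) (F := F) B) :
    B →ₐ[K] v.toValuationSubring :=
  { toValuationSubringHom v hv with
    commutes' := fun c => by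
      apply Subtype.ext
      show algebraMap B F (algebraMap K B c) = algebraMap K F c
      exact (IsScalarTower.algebraMap_apply K B F c).symm }

theorem coe_toRingAlgHom (v : Place K F) (hv : v ∈ chartSet (K := K) (F := F) B) (b : B) :
    ((toRingAlgHom v hv b : v.toValuationSubring) : F) = algebraMap B F b := rfl

/-- `B` surjects onto the residue field of a place centred on `B`. -/
theorem residue_toRingAlgHom_surjective (v : Place K F)
    (hv : v ∈ chartSet (K := K) (F := F) B) :
    Function.Surjective fun b : B => residue v.toValuationSubring (toRingAlgHom v hv b) := by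
  classical
  intro r
  obtain ⟨a, rfl⟩ := residue_surjective r
  obtain ⟨f, hf1, hf2⟩ := strong_approx_place (B := B) {v}
    (fun v' hv' => by rw [Finset.mem_singleton.mp hv']; exact hv) (fun _ => (a : F))
    (fun _ => -1)
  have hfv : v.adicValuation (f - (a : F)) ≤ exp (-1 : ℤ) := hf1 v (Finset.mem_singleton_self v)
  have hfint : ∀ w : HeightOneSpectrum B, w.valuation F f ≤ 1 := by
    intro w
    rw [← adicValuation_ofHeightOneSpectrum (K := K) w f]
    by_cases hw : Place.ofHeightOneSpectrum (K := K) (F := F) w = v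
    · rw [hw]
      have h3 : f = (f - (a : F)) + (a : F) := by ring
      rw [h3]
      refine (Valuation.map_add _ _ _).trans (max_le (hfv.trans ?_)
        (v.adicValuation_le_one_of_mem a.2))
      rw [← exp_zero, exp_le_exp]; omega
    · exact hf2 _ (ofHeightOneSpectrum_mem_chartSet w) (by simpa using hw)
  obtain ⟨b, hb⟩ := HeightOneSpectrum.mem_integers_of_valuation_le_one F f hfint
  refine ⟨b, ?_⟩
  show residue _ (toRingAlgHom v hv b) = residue _ a
  rw [← sub_eq_zero, ← map_sub, residue_eq_zero_iff, mem_maximalIdeal_iff]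
  have : (((toRingAlgHom v hv b - a : v.toValuationSubring)) : F) = f - (a : F) := by
    rw [AddSubgroupClass.coe_sub, coe_toRingAlgHom, hb]
  rw [this]
  exact hfv

/-- The residue field of a place centred on a finitely generated `K`-algebra `B` is finite over
`K`. -/
theorem finite_residueField_of_mem_chartSet [Algebra.FiniteType K B] (v : Place K F)
    (hv : v ∈ chartSet (K := K) (F := F) B) : Module.Finite K v.ResidueField := by
  let φ : B →ₐ[K] v.ResidueField :=
    (IsScalarTower.toAlgHom K v.toValuationSubring v.ResidueField).comp (toRingAlgHom v hv)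
  have hφ : Function.Surjective φ := residue_toRingAlgHom_surjective v hv
  have : Algebra.FiniteType K v.ResidueField := Algebra.FiniteType.of_surjective φ hφ
  exact finite_of_finite_type_of_isJacobsonRing K v.ResidueField

/-- Sections of `O` over a chart: the ring `B` itself. -/
theorem mem_lat_chartSet_zero_iff {f : F} :
    f ∈ lat (chartSet (K := K) (F := F) B) 0 ↔ ∃ b : B, algebraMap B F b = f := by
  constructor
  · intro hf
    refine HeightOneSpectrum.mem_integers_of_valuation_le_one F f fun w => ?_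
    have := hf _ (ofHeightOneSpectrum_mem_chartSet (K := K) w)
    rwa [adicValuation_ofHeightOneSpectrum, Finsupp.zero_apply, exp_zero] at this
  · rintro ⟨b, rfl⟩ v hv
    rw [Finsupp.zero_apply, exp_zero]
    exact v.adicValuation_le_one_of_mem (hv b)

end OneChart

section TwoCharts

universe w₀ w₁ w₂

variable {B₀ : Type w₀} [CommRing B₀] [IsDedekindDomain B₀] [Algebra B₀ F] [IsFractionRing B₀ F]
  [Algebra K B₀] [IsScalarTower K B₀ F]
  {B₁ : Type w₁} [CommRing B₁] [IsDedekindDomain B₁] [Algebra B₁ F] [IsFractionRing B₁ F]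
  [Algebra K B₁] [IsScalarTower K B₁ F]
  {B₀₁ : Type w₂} [CommRing B₀₁] [IsDedekindDomain B₀₁] [Algebra B₀₁ F] [IsFractionRing B₀₁ F]
  [Algebra K B₀₁] [IsScalarTower K B₀₁ F]
  [Algebra B₀ B₀₁] [Algebra B₁ B₀₁] [IsScalarTower B₀ B₀₁ F] [IsScalarTower B₁ B₀₁ F]

/-- The two charts cover all places. -/
theorem chartSet_union_eq_univ (t : B₀) (s : B₁)
    (hts : algebraMap B₀ F t * algebraMap B₁ F s = 1)
    (hint₀ : (aeval t : K[X] →ₐ[K] B₀).toRingHom.IsIntegral)
    (hint₁ : (aeval s : K[X] →ₐ[K] B₁).toRingHom.IsIntegral) :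
    chartSet (K := K) (F := F) B₀ ∪ chartSet (K := K) (F := F) B₁ = Set.univ := by
  rw [Set.eq_univ_iff_forall]
  intro v
  rcases v.toValuationSubring.mem_or_inv_mem (algebraMap B₀ F t) with h | h
  · exact Or.inl (mem_chartSet_of_mem t hint₀ v h)
  · refine Or.inr (mem_chartSet_of_mem s hint₁ v ?_)
    rwa [eq_inv_of_mul_eq_one_right hts]

/-- The overlap of the two charts is the chart of `B₀₁ = B₀[1/t]`. -/
theorem chartSet_inter_eq (t : B₀) (s : B₁) [IsLocalization.Away t B₀₁]
    (hts : algebraMap B₀ F t * algebraMap B₁ F s = 1) :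
    chartSet (K := K) (F := F) B₀ ∩ chartSet (K := K) (F := F) B₁ =
      chartSet (K := K) (F := F) B₀₁ := by
  ext v
  constructor
  · rintro ⟨h0, h1⟩ z
    obtain ⟨⟨b, ⟨_, n, rfl⟩⟩, hz⟩ := IsLocalization.surj (Submonoid.powers t) z
    have h2 := congrArg (algebraMap B₀₁ F) hz
    simp only [map_mul, map_pow, ← IsScalarTower.algebraMap_apply B₀ B₀₁ F] at h2
    have ht0 : algebraMap B₀ F t ≠ 0 := left_ne_zero_of_mul_eq_one hts
    have h3 : algebraMap B₀₁ F z = algebraMap B₀ F b * algebraMap B₁ F s ^ n := by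
      have hs : algebraMap B₁ F s = (algebraMap B₀ F t)⁻¹ := eq_inv_of_mul_eq_one_right hts
      rw [hs, inv_pow, ← h2]
      field_simp
    rw [h3]
    exact mul_mem (h0 b) (pow_mem (h1 s) n)
  · intro h
    refine ⟨fun b => ?_, fun b => ?_⟩
    · rw [IsScalarTower.algebraMap_apply B₀ B₀₁ F]; exact h _
    · rw [IsScalarTower.algebraMap_apply B₁ B₀₁ F]; exact h _

/-- **The two-chart interface holds in the concrete setting** (without the finiteness of the
cohomology of `O`, which is added in `twoChart`). -/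
theorem twoChartPre [Algebra.FiniteType K B₀] [Algebra.FiniteType K B₁]
    (t : B₀) (s : B₁) [IsLocalization.Away t B₀₁]
    (hts : algebraMap B₀ F t * algebraMap B₁ F s = 1)
    (hint₀ : (aeval t : K[X] →ₐ[K] B₀).toRingHom.IsIntegral)
    (hint₁ : (aeval s : K[X] →ₐ[K] B₁).toRingHom.IsIntegral) :
    TwoChartPre (chartSet (K := K) (F := F) B₀) (chartSet (K := K) (F := F) B₁) := by
  have hcover := chartSet_union_eq_univ (K := K) t s hts hint₀ hint₁
  refine ⟨hcover, isChart_chartSet, isChart_chartSet, ?_, fun P => ?_, fun f hf => ?_⟩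
  · rw [chartSet_inter_eq (K := K) (B₀₁ := B₀₁) t s hts]
    exact isChart_chartSet
  · have hP : P ∈ chartSet (K := K) (F := F) B₀ ∪ chartSet (K := K) (F := F) B₁ := by
      rw [hcover]; trivial
    rcases hP with hP | hP
    · exact finite_residueField_of_mem_chartSet P hP
    · exact finite_residueField_of_mem_chartSet P hP
  · refine ((finite_ord_ne_zero_chart (K := K) (B := B₀) hf).union
      (finite_ord_ne_zero_chart (K := K) (B := B₁) hf)).subset ?_
    intro v hv
    have hv' : v ∈ chartSet (K := K) (F := F) B₀ ∪ chartSet (K := K) (F := F) B₁ := by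
      rw [hcover]; trivial
    rcases hv' with h | h
    · exact Or.inl ⟨h, hv⟩
    · exact Or.inr ⟨h, hv⟩

/-! ### The divisor at infinity -/

section Infinity

variable {U₀ U₁ : Set (Place K F)}

/-- The polar divisor of a nonzero function `τ`. -/
noncomputable def divInfty (T : TwoChartPre U₀ U₁) (τ : F) (hτ : τ ≠ 0) : Divisor K F :=
  Finsupp.ofSupportFinite (fun v => max 0 (-(v.ord τ)))
    ((T.finite_ord_ne_zero τ hτ).subset fun v hv => by
      simp only [Function.mem_support, ne_eq] at hv
      intro h0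
      apply hv
      simp [h0])

theorem divInfty_apply (T : TwoChartPre U₀ U₁) (τ : F) (hτ : τ ≠ 0) (v : Place K F) :
    divInfty T τ hτ v = max 0 (-(v.ord τ)) := rfl

theorem divInfty_eq_zero_of_mem (T : TwoChartPre U₀ U₁) (τ : F) (hτ : τ ≠ 0) {v : Place K F}
    (hv : τ ∈ v.toValuationSubring) : divInfty T τ hτ v = 0 := by
  rw [divInfty_apply]
  have := ffp_ord_nonneg_of_mem v hv
  omega

theorem divInfty_eq_neg_ord_of_inv_mem (T : TwoChartPre U₀ U₁) (τ : F) (hτ : τ ≠ 0)
    {v : Place K F} (hv : τ⁻¹ ∈ v.toValuationSubring) : divInfty T τ hτ v = -(v.ord τ) := by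
  rw [divInfty_apply]
  have := ffp_ord_nonneg_of_mem v hv
  rw [v.ord_inv] at this
  omega

/-- Twisting by the divisor at infinity does not change the lattice of a chart on which `τ` is
regular. -/
theorem lat_add_smul_divInfty_of_mem (T : TwoChartPre U₀ U₁) (τ : F) (hτ : τ ≠ 0)
    {U : Set (Place K F)} (hU : ∀ v ∈ U, τ ∈ v.toValuationSubring) (D : Divisor K F) (m : ℕ) :
    lat U (D + m • divInfty T τ hτ) = lat U D := by
  refine lat_congr fun v hv => ?_
  simp [divInfty_eq_zero_of_mem T τ hτ (hU v hv)]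

/-- On a chart where `τ⁻¹` is regular, twisting by `m` times the divisor at infinity is
multiplication by `τ ^ m`. -/
theorem mem_lat_add_smul_divInfty_iff (T : TwoChartPre U₀ U₁) (τ : F) (hτ : τ ≠ 0)
    {U : Set (Place K F)} (hU : ∀ v ∈ U, τ⁻¹ ∈ v.toValuationSubring) (D : Divisor K F) (m : ℕ)
    (g : F) : g ∈ lat U (D + m • divInfty T τ hτ) ↔ (τ⁻¹) ^ m * g ∈ lat U D := by
  refine (mul_mem_lat_iff U D _ (pow_ne_zero m (inv_ne_zero hτ)) (fun v hv => ?_) g).symm
  rw [Finsupp.smul_apply, divInfty_eq_neg_ord_of_inv_mem T τ hτ (hU v hv), ← zpow_natCast,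
    v.ord_zpow, v.ord_inv]
  simp

end Infinity

/-- **The two-chart interface in the concrete setting**, given the vanishing of
`H¹(O(m·∞))` and the finiteness of `H⁰(O(m·∞))` in module form (as provided by the Frame
chapter). -/
theorem twoChart_and_h1 [Algebra.FiniteType K B₀] [Algebra.FiniteType K B₁]
    (t : B₀) (s : B₁) [IsLocalization.Away t B₀₁]
    (hts : algebraMap B₀ F t * algebraMap B₁ F s = 1)
    (hint₀ : (aeval t : K[X] →ₐ[K] B₀).toRingHom.IsIntegral)
    (hint₁ : (aeval s : K[X] →ₐ[K] B₁).toRingHom.IsIntegral) (m : ℕ)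
    (hH1 : ∀ z : B₀₁, ∃ (x : B₀) (y : B₁),
      algebraMap B₀ B₀₁ x + algebraMap B₀ B₀₁ t ^ m * algebraMap B₁ B₀₁ y = z)
    (W : Type*) [AddCommGroup W] [Module K W] [Module.Finite K W]
    (π : W →ₗ[K] F)
    (hW : ∀ (x : B₀) (y : B₁), algebraMap B₀ F x = algebraMap B₀ F t ^ m * algebraMap B₁ F y →
      ∃ w : W, π w = algebraMap B₀ F x) :
    ∃ T : TwoChart (chartSet (K := K) (F := F) B₀) (chartSet (K := K) (F := F) B₁),
      h1n (chartSet (K := K) (F := F) B₀) (chartSet (K := K) (F := F) B₁)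
        (m • divInfty T.toPre (algebraMap B₀ F t) (left_ne_zero_of_mul_eq_one hts)) = 0 := by
  have Tp := twoChartPre (K := K) (B₀₁ := B₀₁) t s hts hint₀ hint₁
  set U₀ := chartSet (K := K) (F := F) B₀ with hU₀
  set U₁ := chartSet (K := K) (F := F) B₁ with hU₁
  set τ := algebraMap B₀ F t with hτdef
  have hτ : τ ≠ 0 := left_ne_zero_of_mul_eq_one hts
  have hσ : algebraMap B₁ F s = τ⁻¹ := eq_inv_of_mul_eq_one_right hts
  have hreg₀ : ∀ v ∈ U₀, τ ∈ v.toValuationSubring := fun v hv => hv t
  have hreg₁ : ∀ v ∈ U₁, τ⁻¹ ∈ v.toValuationSubring := fun v hv => hσ ▸ hv s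
  have hreg₀₁ : ∀ v ∈ U₀ ∩ U₁, τ ∈ v.toValuationSubring := fun v hv => hreg₀ v hv.1
  set E := m • divInfty Tp τ hτ with hE
  have hL₀ : lat U₀ E = lat U₀ 0 := by
    have := lat_add_smul_divInfty_of_mem Tp τ hτ hreg₀ 0 m
    rwa [zero_add] at this
  have hL₀₁ : lat (U₀ ∩ U₁) E = lat (U₀ ∩ U₁) 0 := by
    have := lat_add_smul_divInfty_of_mem Tp τ hτ hreg₀₁ 0 m
    rwa [zero_add] at this
  have hL₁ : ∀ g : F, g ∈ lat U₁ E ↔ (τ⁻¹) ^ m * g ∈ lat U₁ 0 := by
    intro g
    have := mem_lat_add_smul_divInfty_iff Tp τ hτ hreg₁ 0 m g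
    rwa [zero_add] at this
  -- `H¹(E) = 0`
  have h1E : h1 U₀ U₁ E = 0 := by
    rw [h1_eq_zero_iff, hL₀₁, hL₀]
    intro f hf
    rw [chartSet_inter_eq (K := K) (B₀₁ := B₀₁) t s hts, mem_lat_chartSet_zero_iff] at hf
    obtain ⟨z, rfl⟩ := hf
    obtain ⟨x, y, hxy⟩ := hH1 z
    have h2 := congrArg (algebraMap B₀₁ F) hxy
    simp only [map_add, map_mul, map_pow, ← IsScalarTower.algebraMap_apply B₀ B₀₁ F,
      ← IsScalarTower.algebraMap_apply B₁ B₀₁ F] at h2
    rw [← h2]
    refine Submodule.add_mem_sup (mem_lat_chartSet_zero_iff.mpr ⟨x, rfl⟩) ?_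
    rw [hL₁, ← mul_assoc, ← mul_pow, inv_mul_cancel₀ hτ, one_pow, one_mul]
    exact mem_lat_chartSet_zero_iff.mpr ⟨y, rfl⟩
  -- `H⁰(E)` finite
  have h0E : h0 U₀ U₁ E < Cardinal.aleph0 := by
    rw [h0_eq_rank]
    have hle : lat U₀ E ⊓ lat U₁ E ≤ LinearMap.range π := by
      rintro f ⟨hf0, hf1⟩
      rw [SetLike.mem_coe, hL₀, mem_lat_chartSet_zero_iff] at hf0
      rw [SetLike.mem_coe, hL₁, mem_lat_chartSet_zero_iff] at hf1
      obtain ⟨x, rfl⟩ := hf0
      obtain ⟨y, hy⟩ := hf1
      obtain ⟨w, hw⟩ := hW x y (by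
        rw [hy, ← mul_assoc, ← mul_pow, mul_inv_cancel₀ hτ, one_pow, one_mul])
      exact ⟨w, hw⟩
    have hfin : Module.Finite K ↥(LinearMap.range π) := Module.Finite.range π
    have : Module.Finite K ↥(lat U₀ E ⊓ lat U₁ E) :=
      Module.Finite.of_injective (Submodule.inclusion hle) (Submodule.inclusion_injective hle)
    exact Module.rank_lt_aleph0 K _
  have hfinE : h0 U₀ U₁ E < Cardinal.aleph0 ∧ h1 U₀ U₁ E < Cardinal.aleph0 :=
    ⟨h0E, by rw [h1E]; exact Cardinal.aleph0_pos⟩
  refine ⟨Tp.toTwoChart hfinE, ?_⟩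
  unfold h1n
  show Cardinal.toNat (h1 U₀ U₁ E) = 0
  rw [h1E]; simp

end TwoCharts

end Fermat.Agent.JAC.Fibre.Setting38
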