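/-
Programme JAC, work package A2 (fibre curve theory), brick (f): in the concrete setting, the
finiteness hypotheses of `Setting38.twoChart_and_h1` follow from the Frame chapter (helper65):
if `B₀` is finite free over `K[t]` and `B₁` is finite free over `K[s]`, then the two-chart
interface `TwoChart` holds and `H¹(O(m·∞)) = 0` for all large `m`.
-/
import Mathlib
import Fermat.Prelude.Def_AlgebraicCurve_Repartitions
import Fermat.Agent.JAC.Frame.Diagram65
import Fermat.Agent.JAC.Fibre.Setting38

set_option autoImplicit false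
set_option linter.unusedSectionVars false

open AlgebraicCurve IsDedekindDomain WithZero IsLocalRing Polynomial

namespace Fermat.Agent.JAC.Fibre.SettingFrame38

open Fermat.Agent.JAC.Fibre.RelRank38 Fermat.Agent.JAC.Fibre.Lat38 Fermat.Agent.JAC.Fibre.Core38
  Fermat.Agent.JAC.Fibre.Chart38 Fermat.Agent.JAC.Fibre.Setting38
  Fermat.Agent.JAC.Frame.Diagram65 Fermat.Agent.JAC.Frame.PolyChart65

universe u v w₀ w₁ w₂

variable {K : Type u} {F : Type v} [Field K] [Field F] [Algebra K F]

section OneRing

variable {B : Type w₀} [CommRing B] [Algebra K B]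

/-- A ring with a finite `K[t]`-spanning family is integral over `K[t]`. -/
theorem isIntegral_of_spanning (t : B) {n : ℕ} (b : Fin n → B)
    (hb : Function.Surjective (fun p : Fin n → K[X] => ∑ j, aeval t (p j) * b j)) :
    (aeval t : K[X] →ₐ[K] B).toRingHom.IsIntegral := by
  let _ : Algebra K[X] B := (aeval t : K[X] →ₐ[K] B).toRingHom.toAlgebra
  have hfin : Module.Finite K[X] B := by
    let φ : (Fin n → K[X]) →ₗ[K[X]] B :=
      { toFun := fun p => ∑ j, aeval t (p j) * b j
        map_add' := fun p q => by simp [add_mul, Finset.sum_add_distrib]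
        map_smul' := fun c p => by
          simp only [Pi.smul_apply, smul_eq_mul, map_mul, RingHom.id_apply, Finset.smul_sum]
          refine Finset.sum_congr rfl fun j _ => ?_
          rw [Algebra.smul_def, mul_assoc]; rfl }
    exact Module.Finite.of_surjective φ hb
  have : Algebra.IsIntegral K[X] B := Algebra.IsIntegral.of_finite K[X] B
  exact algebraMap_isIntegral_iff.mpr this

/-- A ring with a finite `K[t]`-spanning family is a finitely generated `K`-algebra. -/
theorem finiteType_of_spanning (t : B) {n : ℕ} (b : Fin n → B)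
    (hb : Function.Surjective (fun p : Fin n → K[X] => ∑ j, aeval t (p j) * b j)) :
    Algebra.FiniteType K B := by
  let _ : Algebra K[X] B := (aeval t : K[X] →ₐ[K] B).toRingHom.toAlgebra
  have : IsScalarTower K K[X] B := IsScalarTower.of_algebraMap_eq fun c => by
    show algebraMap K B c = aeval t (algebraMap K K[X] c)
    rw [Polynomial.algebraMap_eq, aeval_C]
  have hfin : Module.Finite K[X] B := by
    let φ : (Fin n → K[X]) →ₗ[K[X]] B :=
      { toFun := fun p => ∑ j, aeval t (p j) * b j
        map_add' := fun p q => by simp [add_mul, Finset.sum_add_distrib]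
        map_smul' := fun c p => by
          simp only [Pi.smul_apply, smul_eq_mul, map_mul, RingHom.id_apply, Finset.smul_sum]
          refine Finset.sum_congr rfl fun j _ => ?_
          rw [Algebra.smul_def, mul_assoc]; rfl }
    exact Module.Finite.of_surjective φ hb
  have h1 : Algebra.FiniteType K K[X] := inferInstance
  have h2 : Algebra.FiniteType K[X] B := Module.Finite.finiteType B
  exact Algebra.FiniteType.trans h1 h2

end OneRing

section TwoCharts

variable {B₀ : Type w₀} [CommRing B₀] [IsDedekindDomain B₀] [Algebra B₀ F] [IsFractionRing B₀ F]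
  [Algebra K B₀] [IsScalarTower K B₀ F]
  {B₁ : Type w₁} [CommRing B₁] [IsDedekindDomain B₁] [Algebra B₁ F] [IsFractionRing B₁ F]
  [Algebra K B₁] [IsScalarTower K B₁ F]
  {B₀₁ : Type w₂} [CommRing B₀₁] [IsDedekindDomain B₀₁] [Algebra B₀₁ F] [IsFractionRing B₀₁ F]
  [Algebra K B₀₁] [IsScalarTower K B₀₁ F]
  [Algebra B₀ B₀₁] [Algebra B₁ B₀₁] [IsScalarTower B₀ B₀₁ F] [IsScalarTower B₁ B₀₁ F]
  [IsScalarTower K B₀ B₀₁] [IsScalarTower K B₁ B₀₁]

theorem hts_field (t : B₀) (s : B₁)
    (hts : algebraMap B₀ B₀₁ t * algebraMap B₁ B₀₁ s = 1) :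
    algebraMap B₀ F t * algebraMap B₁ F s = 1 := by
  have := congrArg (algebraMap B₀₁ F) hts
  rwa [map_mul, map_one, ← IsScalarTower.algebraMap_apply B₀ B₀₁ F,
    ← IsScalarTower.algebraMap_apply B₁ B₀₁ F] at this

/-- **The two-chart interface from bases.**  If `B₀` is finite free over `K[t]` and `B₁` is
finite free over `K[s]`, the places of `F/K` with the two charts `chartSet B₀`, `chartSet B₁`
satisfy `TwoChart`, and `H¹(O(m·∞)) = 0` for all `m ≥ m₀`. -/
theorem twoChart_of_bases (t : B₀) (s : B₁) [IsLocalization.Away t B₀₁]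
    [IsLocalization.Away s B₀₁] (hts : algebraMap B₀ B₀₁ t * algebraMap B₁ B₀₁ s = 1)
    {n0 n1 : ℕ} (b0 : Fin n0 → B₀)
    (hb0 : Function.Bijective (fun p : Fin n0 → K[X] => ∑ j, aeval t (p j) * b0 j))
    (b1 : Fin n1 → B₁)
    (hb1 : Function.Bijective (fun p : Fin n1 → K[X] => ∑ j, aeval s (p j) * b1 j)) :
    ∃ T : TwoChart (chartSet (K := K) (F := F) B₀) (chartSet (K := K) (F := F) B₁),
      ∃ m₀ : ℕ, ∀ m : ℕ, m₀ ≤ m →
        h1n (chartSet (K := K) (F := F) B₀) (chartSet (K := K) (F := F) B₁)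
          (m • divInfty T.toPre (algebraMap B₀ F t)
            (left_ne_zero_of_mul_eq_one (hts_field (F := F) t s hts))) = 0 := by
  have htsF := hts_field (F := F) t s hts
  have hint₀ := isIntegral_of_spanning (K := K) t b0 hb0.2
  have hint₁ := isIntegral_of_spanning (K := K) s b1 hb1.2
  have hft₀ : Algebra.FiniteType K B₀ := finiteType_of_spanning (K := K) t b0 hb0.2
  have hft₁ : Algebra.FiniteType K B₁ := finiteType_of_spanning (K := K) s b1 hb1.2
  obtain ⟨m₀, hm₀⟩ := exists_forall_twist (B := K) (M0 := B₀) (M1 := B₁) (M01 := B₀₁) t s hts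
    b0 hb0 b1 hb1 (Algebra.linearMap B₀ B₀₁) (Algebra.linearMap B₁ B₀₁)
  -- the statement for a single `m`
  have key : ∀ m : ℕ, m₀ ≤ m →
      ∃ T : TwoChart (chartSet (K := K) (F := F) B₀) (chartSet (K := K) (F := F) B₁),
        h1n (chartSet (K := K) (F := F) B₀) (chartSet (K := K) (F := F) B₁)
          (m • divInfty T.toPre (algebraMap B₀ F t) (left_ne_zero_of_mul_eq_one htsF)) = 0 := by
    intro m hm
    obtain ⟨h1, h2, -⟩ := hm₀ m hm
    set φ : (B₀ × B₁) →ₗ[K] B₀₁ := ((Algebra.linearMap B₀ B₀₁).restrictScalars K).coprod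
      (-(smulEnd (B := K) B₀₁ (t ^ m) ∘ₗ (Algebra.linearMap B₁ B₀₁).restrictScalars K)) with hφ
    have hφ_apply : ∀ x y, φ (x, y) =
        algebraMap B₀ B₀₁ x - algebraMap B₀ B₀₁ t ^ m * algebraMap B₁ B₀₁ y := by
      intro x y
      simp only [hφ, LinearMap.coprod_apply, LinearMap.restrictScalars_apply,
        Algebra.linearMap_apply, LinearMap.neg_apply, LinearMap.comp_apply, smulEnd_apply,
        Algebra.smul_def, map_pow]
      ring
    refine twoChart_and_h1 (K := K) (B₀₁ := B₀₁) t s htsF hint₀ hint₁ m ?_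
      (↥(LinearMap.ker φ))
      (((Algebra.linearMap B₀ F).restrictScalars K) ∘ₗ (LinearMap.fst K B₀ B₁) ∘ₗ
        (LinearMap.ker φ).subtype) ?_
    · intro z
      obtain ⟨x, y, hxy⟩ := h1 z
      refine ⟨x, y, ?_⟩
      rw [← hxy]
      simp only [Algebra.linearMap_apply, Algebra.smul_def, map_pow]
    · intro x y hxy
      have hmem : (x, y) ∈ LinearMap.ker φ := by
        rw [LinearMap.mem_ker, hφ_apply, sub_eq_zero]
        apply IsFractionRing.injective B₀₁ F
        rw [map_mul, map_pow, ← IsScalarTower.algebraMap_apply B₀ B₀₁ F,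
          ← IsScalarTower.algebraMap_apply B₀ B₀₁ F, ← IsScalarTower.algebraMap_apply B₁ B₀₁ F]
        exact hxy
      exact ⟨⟨(x, y), hmem⟩, rfl⟩
  obtain ⟨T, -⟩ := key m₀ le_rfl
  refine ⟨T, m₀, fun m hm => ?_⟩
  obtain ⟨T', hT'⟩ := key m hm
  exact hT'

end TwoCharts

end Fermat.Agent.JAC.Fibre.SettingFrame38
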