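/-
Programme JAC (S25), chapter Fibre (helper37): instantiation of the common setting
`Fibre/Setting38` for the constant extension of CURVE data.

For CURVE data `(A0 → A01 ← A1; t, s)` over a field `k`, a field extension `K/k` and the
geometric hypothesis `K ⊗[k] A_i` Dedekind (`hgeom`), the three rings
`B₀ := K ⊗[k] A0`, `B₁ := K ⊗[k] A1`, `B₀₁ := K ⊗[k] A01` with `F := Frac (K ⊗[k] A01)` satisfy
all hypotheses of `Setting38`/`SettingFrame38`.  So every theorem proved in that abstract block
applies verbatim to the geometric fibres of the curve.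
-/
import Fermat.Agent.JAC.Core.ConstFamily36
import Fermat.Agent.JAC.Frame.CurveInput65
import Fermat.Agent.JAC.Fibre.SettingFrame38

set_option autoImplicit false
set_option linter.unusedSectionVars false
set_option linter.style.haveILetI false

open scoped TensorProduct
open scoped Fermat.Agent.JAC.Core.ConstFamily36
open Polynomial

namespace Fermat.Agent.JAC.Fibre.ConstExt37

open Fermat.Agent.JAC.Fibre.Core38 Fermat.Agent.JAC.Fibre.Chart38
  Fermat.Agent.JAC.Fibre.Setting38 Fermat.Agent.JAC.Fibre.SettingFrame38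

universe u

section General

/-- If `S = R[1/t]` and `T` is the fraction field of `S`, then `T` is the fraction field of the
domain `R`. -/
theorem isFractionRing_of_away {R S T : Type*} [CommRing R] [IsDomain R] [CommRing S] [Field T]
    [Algebra R S] [Algebra S T] [Algebra R T] [IsScalarTower R S T] (t : R)
    [IsLocalization.Away t S] [IsFractionRing S T] : IsFractionRing R T := by
  have hunit : IsUnit (algebraMap R T t) := by
    rw [IsScalarTower.algebraMap_apply R S T]
    exact (IsLocalization.Away.algebraMap_isUnit (S := S) t).map _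
  have ht : t ≠ 0 := by
    rintro rfl
    rw [map_zero] at hunit
    exact not_isUnit_zero hunit
  have hτ : algebraMap R T t ≠ 0 := hunit.ne_zero
  haveI : IsDomain S := IsLocalization.isDomain_of_le_nonZeroDivisors (M := Submonoid.powers t) S
    (powers_le_nonZeroDivisors_of_noZeroDivisors ht)
  have hinjRS : Function.Injective (algebraMap R S) :=
    IsLocalization.injective S (powers_le_nonZeroDivisors_of_noZeroDivisors ht)
  have hinj : Function.Injective (algebraMap R T) := by
    rw [IsScalarTower.algebraMap_eq R S T]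
    exact (IsFractionRing.injective S T).comp hinjRS
  haveI : FaithfulSMul R T := (faithfulSMul_iff_algebraMap_injective R T).mpr hinj
  refine IsFractionRing.of_field R T fun z => ?_
  obtain ⟨a, b, hb, rfl⟩ := IsFractionRing.div_surjective (A := S) z
  obtain ⟨⟨a', ⟨_, n, rfl⟩⟩, ha⟩ := IsLocalization.surj (Submonoid.powers t) a
  obtain ⟨⟨b', ⟨_, m, rfl⟩⟩, hb'⟩ := IsLocalization.surj (Submonoid.powers t) b
  simp only at ha hb'
  have ha2 := congrArg (algebraMap S T) ha
  have hb2 := congrArg (algebraMap S T) hb'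
  rw [map_mul, ← IsScalarTower.algebraMap_apply R S T, ← IsScalarTower.algebraMap_apply R S T,
    map_pow] at ha2 hb2
  have hb0 : algebraMap S T b ≠ 0 := by
    intro h0
    have : b = 0 := IsFractionRing.injective S T (by rw [h0, map_zero])
    exact (mem_nonZeroDivisors_iff_ne_zero.mp hb) this
  refine ⟨a' * t ^ m, b' * t ^ n, ?_⟩
  rw [map_mul, map_mul, map_pow, map_pow, ← ha2, ← hb2]
  field_simp

end General

variable {k : Type u} [Field k] {A0 A1 A01 : Type u} [CommRing A0] [CommRing A1] [CommRing A01]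
  [Algebra k A0] [Algebra k A1] [Algebra k A01] [Algebra A0 A01] [Algebra A1 A01]
  [IsScalarTower k A0 A01] [IsScalarTower k A1 A01] (t : A0) (s : A1)
  [IsLocalization.Away t A01] [IsLocalization.Away s A01]
  (K : Type u) [Field K] [Algebra k K]

variable (k A01) in
/-- The function field of the fibre of the curve over `K`. -/
abbrev FF : Type u := FractionRing (K ⊗[k] A01)

section Towers

variable (A : Type u) [CommRing A] [Algebra k A] [Algebra A A01] [IsScalarTower k A A01]

/-- `K → K ⊗[k] A → FF` is the structure map of `FF` (the algebra structure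
`Algebra (K ⊗[k] A) FF` is Mathlib's, through `K ⊗[k] A → K ⊗[k] A01`). -/
instance isScalarTower_K_FF : IsScalarTower K (K ⊗[k] A) (FF k A01 K) :=
  IsScalarTower.of_algebraMap_eq fun c => by
    rw [IsScalarTower.algebraMap_apply (K ⊗[k] A) (K ⊗[k] A01) (FF k A01 K),
      ← IsScalarTower.algebraMap_apply K (K ⊗[k] A) (K ⊗[k] A01),
      ← IsScalarTower.algebraMap_apply K (K ⊗[k] A01) (FF k A01 K)]

/-- the chart ring `K ⊗[k] A` has fraction field `FF` as soon as `A01 = A[1/a]`. -/
theorem isFractionRing_chart [IsDomain (K ⊗[k] A)] [IsDomain (K ⊗[k] A01)] (a : A)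
    [IsLocalization.Away a A01] : IsFractionRing (K ⊗[k] A) (FF k A01 K) :=
  isFractionRing_of_away (S := K ⊗[k] A01) ((1 : K) ⊗ₜ[k] a)

end Towers

section Main

variable [IsDedekindDomain (K ⊗[k] A0)] [IsDedekindDomain (K ⊗[k] A1)]
  [IsDedekindDomain (K ⊗[k] A01)]

include t in
/-- `Frac (K ⊗[k] A0) = FF`. -/
theorem isFractionRing₀ : IsFractionRing (K ⊗[k] A0) (FF k A01 K) :=
  isFractionRing_chart K A0 t

include s in
/-- `Frac (K ⊗[k] A1) = FF`. -/
theorem isFractionRing₁ : IsFractionRing (K ⊗[k] A1) (FF k A01 K) :=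
  isFractionRing_chart K A1 s

omit [IsLocalization.Away t A01] [IsLocalization.Away s A01] [IsDedekindDomain (K ⊗[k] A0)]
  [IsDedekindDomain (K ⊗[k] A1)] [IsDedekindDomain (K ⊗[k] A01)] in
/-- `ts = 1` over `K`. -/
theorem hts_tensor (hts : algebraMap A0 A01 t * algebraMap A1 A01 s = 1) :
    algebraMap (K ⊗[k] A0) (K ⊗[k] A01) ((1 : K) ⊗ₜ[k] t) *
      algebraMap (K ⊗[k] A1) (K ⊗[k] A01) ((1 : K) ⊗ₜ[k] s) = 1 := by
  rw [Core.ConstFamily36.algebraMap_tensor_tmul, Core.ConstFamily36.algebraMap_tensor_tmul,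
    Algebra.TensorProduct.tmul_mul_tmul, one_mul, hts]
  rfl

omit [IsLocalization.Away t A01] [IsLocalization.Away s A01] [IsDedekindDomain (K ⊗[k] A0)]
  [IsDedekindDomain (K ⊗[k] A1)] [IsDedekindDomain (K ⊗[k] A01)] in
/-- `ts = 1` in the function field. -/
theorem hts_FF (hts : algebraMap A0 A01 t * algebraMap A1 A01 s = 1) :
    algebraMap (K ⊗[k] A0) (FF k A01 K) ((1 : K) ⊗ₜ[k] t) *
      algebraMap (K ⊗[k] A1) (FF k A01 K) ((1 : K) ⊗ₜ[k] s) = 1 := by
  rw [IsScalarTower.algebraMap_apply (K ⊗[k] A0) (K ⊗[k] A01) (FF k A01 K),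
    IsScalarTower.algebraMap_apply (K ⊗[k] A1) (K ⊗[k] A01) (FF k A01 K), ← map_mul,
    hts_tensor t s K hts, map_one]

section Coordinates

variable {A : Type u} [CommRing A] [Algebra k A] {a : A} {n : ℕ} {b : Fin n → A}

/-- coordinates of `K ⊗[k] A` over `K[X]` from coordinates of `A` over `k[X]` -/
theorem bijective_coords
    (hb : Function.Bijective (fun p : Fin n → k[X] => ∑ j, aeval a (p j) * b j)) :
    Function.Bijective (fun p : Fin n → K[X] =>
      ∑ j, aeval ((1 : K) ⊗ₜ[k] a) (p j) * ((1 : K) ⊗ₜ[k] b j)) :=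
  Frame.BaseChange65.bijective_baseChange K hb

/-- `K ⊗[k] A` is integral over `K[1 ⊗ a]`. -/
theorem isIntegral_aeval
    (hb : Function.Bijective (fun p : Fin n → k[X] => ∑ j, aeval a (p j) * b j)) :
    (aeval ((1 : K) ⊗ₜ[k] a) : K[X] →ₐ[K] K ⊗[k] A).toRingHom.IsIntegral :=
  isIntegral_of_spanning (K := K) _ _ (bijective_coords K hb).2

/-- `K ⊗[k] A` is a finitely generated `K`-algebra. -/
theorem finiteType_tensor
    (hb : Function.Bijective (fun p : Fin n → k[X] => ∑ j, aeval a (p j) * b j)) :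
    Algebra.FiniteType K (K ⊗[k] A) :=
  finiteType_of_spanning (K := K) _ _ (bijective_coords K hb).2

end Coordinates

variable (hts : algebraMap A0 A01 t * algebraMap A1 A01 s = 1)
  {n0 n1 : ℕ} {a0 : Fin n0 → A0} {a1 : Fin n1 → A1}
  (ha0 : Function.Bijective (fun p : Fin n0 → k[X] => ∑ j, aeval t (p j) * a0 j))
  (ha1 : Function.Bijective (fun p : Fin n1 → k[X] => ∑ j, aeval s (p j) * a1 j))

include hts in
/-- The overlap of the two charts of the fibre is the chart of `K ⊗[k] A01`. -/
theorem chartSet_inter_eq :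
    haveI := isFractionRing₀ (k := k) (A01 := A01) t K
    haveI := isFractionRing₁ (k := k) (A01 := A01) s K
    chartSet (K := K) (F := FF k A01 K) (K ⊗[k] A0) ∩
        chartSet (K := K) (F := FF k A01 K) (K ⊗[k] A1) =
      chartSet (K := K) (F := FF k A01 K) (K ⊗[k] A01) := by
  haveI := isFractionRing₀ (k := k) (A01 := A01) t K
  haveI := isFractionRing₁ (k := k) (A01 := A01) s K
  exact Setting38.chartSet_inter_eq (K := K) (B₀₁ := K ⊗[k] A01) ((1 : K) ⊗ₜ[k] t)
    ((1 : K) ⊗ₜ[k] s) (hts_FF t s K hts)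

include hts ha0 ha1 in
/-- **The fibre of the curve over `K` satisfies the two-chart interface** of the place-language
fibre theory, and `H¹(O(m·∞)) = 0` for `m ≫ 0`. -/
theorem exists_twoChart :
    haveI := isFractionRing₀ (k := k) (A01 := A01) t K
    haveI := isFractionRing₁ (k := k) (A01 := A01) s K
    ∃ T : TwoChart (chartSet (K := K) (F := FF k A01 K) (K ⊗[k] A0))
        (chartSet (K := K) (F := FF k A01 K) (K ⊗[k] A1)),
      ∃ m₀ : ℕ, ∀ m : ℕ, m₀ ≤ m →
        h1n (chartSet (K := K) (F := FF k A01 K) (K ⊗[k] A0))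
          (chartSet (K := K) (F := FF k A01 K) (K ⊗[k] A1))
          (m • divInfty T.toPre (algebraMap (K ⊗[k] A0) (FF k A01 K) ((1 : K) ⊗ₜ[k] t))
            (left_ne_zero_of_mul_eq_one (hts_FF t s K hts))) = 0 := by
  haveI := isFractionRing₀ (k := k) (A01 := A01) t K
  haveI := isFractionRing₁ (k := k) (A01 := A01) s K
  exact twoChart_of_bases (K := K) (F := FF k A01 K) (B₀₁ := K ⊗[k] A01) ((1 : K) ⊗ₜ[k] t)
    ((1 : K) ⊗ₜ[k] s) (hts_tensor t s K hts) _ (bijective_coords K ha0) _
    (bijective_coords K ha1)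

end Main

end Fermat.Agent.JAC.Fibre.ConstExt37
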