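/-
Programme JAC, work package A2 (fibre curve theory), the ADAPTER, part 1: in the common setting
of `Setting38` (two Dedekind charts `B₀`, `B₁` glued along `B₀₁ = B₀[1/t] = B₁[1/s]`, all with
fraction field `F`), every divisor `D` of `F/K` gives a line diagram
`O(D) = (lat U₀ D → lat U₀₁ D ← lat U₁ D)` in the sense of `Core.Defs36.LineDiag`.
(General-ring version of helper9's `FF/LineDiagDiv9`.)
-/
import Mathlib
import Fermat.Prelude.Def_AlgebraicCurve_Repartitions
import Fermat.Agent.JAC.FF.LineDiagDiv9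
import Fermat.Agent.JAC.Core.Defs36
import Fermat.Agent.JAC.Fibre.Setting38

set_option autoImplicit false
set_option linter.unusedSectionVars false

open AlgebraicCurve IsDedekindDomain WithZero Polynomial nonZeroDivisors

namespace Fermat.Agent.JAC.Fibre.DiagOfDiv38

open Fermat.Agent.JAC.Fibre.Lat38 Fermat.Agent.JAC.Fibre.Core38 Fermat.Agent.JAC.Fibre.Chart38
  Fermat.Agent.JAC.Fibre.Setting38 Fermat.Agent.JAC.Core.Defs36
  Fermat.Agent.X0.FFDedekind Fermat.Agent.X0.FF

universe u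

variable {K : Type u} {F : Type u} [Field K] [Field F] [Algebra K F]

/-! ### The lattice of a chart as a module over the chart ring -/

section OneChart

variable (B : Type u) [CommRing B] [IsDedekindDomain B] [Algebra B F] [IsFractionRing B F]
  [Algebra K B] [IsScalarTower K B F]

/-- `lat (chartSet B) D` as a `B`-submodule of `F`: the fractional ideal `∏ w ^ (-D w)`. -/
noncomputable def latMod (D : Divisor K F) : Submodule B F :=
  ((Fermat.Agent.JAC.FF.LatIdeal9.idealOfDiv B D : FractionalIdeal B⁰ F) : Submodule B F)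

variable {B}

theorem mem_latMod_iff {D : Divisor K F} {f : F} :
    f ∈ latMod B D ↔ f ∈ lat (chartSet (K := K) (F := F) B) D := by
  unfold latMod
  rw [FractionalIdeal.mem_coe, Fermat.Agent.JAC.FF.ChartAlg9.mem_idealOfDiv_iff_chart]
  rfl

instance invertible_latMod (D : Divisor K F) : Module.Invertible B ↥(latMod B D) :=
  Fermat.Agent.JAC.FF.LineDiagDiv9.invertible_of_fractionalIdeal
    (Fermat.Agent.JAC.FF.LatIdeal9.idealOfDiv_ne_zero B D)

end OneChart

/-! ### Pole-clearing: `lat U₀₁ D = lat U₀ D [1/τ]` -/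

section Clear

theorem ord_pow (v : Place K F) (f : F) (n : ℕ) : v.ord (f ^ n) = n * v.ord f := by
  rw [← zpow_natCast, v.ord_zpow]

/-- If `τ` is regular on `U`, a unit on `U' ⊆ U` and vanishes at all points of `U \ U'`, then the
poles of `f ∈ lat U' D` on `U` can be cleared by a power of `τ`. -/
theorem exists_pow_mul_mem_lat {U U' : Set (Place K F)} {τ : F} (hτ : τ ≠ 0)
    (hunit : ∀ v ∈ U', v.ord τ = 0)
    (hzero : ∀ v ∈ U, v ∉ U' → 0 < v.ord τ)
    (hfin : ∀ f : F, f ≠ 0 → {v : Place K F | v ∈ U ∧ v.ord f ≠ 0}.Finite)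
    (D : Divisor K F) {f : F} (hf : f ∈ lat U' D) : ∃ n : ℕ, τ ^ n * f ∈ lat U D := by
  classical
  rcases eq_or_ne f 0 with rfl | hf0
  · exact ⟨0, by rw [mul_zero]; exact zero_mem _⟩
  have hbad : {v : Place K F | v ∈ U ∧ v.ord f < -D v}.Finite := by
    refine ((hfin f hf0).union D.support.finite_toSet).subset ?_
    rintro v ⟨hvU, hv⟩
    by_cases h0 : v.ord f = 0
    · right
      simp only [Finset.mem_coe, Finsupp.mem_support_iff]
      intro hD
      rw [hD, h0] at hv
      exact absurd hv (by norm_num)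
    · exact Or.inl ⟨hvU, h0⟩
  set S := hbad.toFinset with hS
  set n : ℕ := ∑ v ∈ S, (-D v - v.ord f).toNat with hn
  refine ⟨n, ?_⟩
  rw [mem_lat_iff_ord]
  intro v hv
  right
  rw [v.ord_mul (pow_ne_zero n hτ) hf0, ord_pow]
  by_cases hv' : v ∈ U'
  · have := (mem_lat_iff_ord.mp hf v hv').resolve_left hf0
    rw [hunit v hv', mul_zero, zero_add]
    exact this
  · have hpos := hzero v hv hv'
    by_cases hvS : v ∈ S
    · have h1 : (-D v - v.ord f).toNat ≤ n := by
        rw [hn]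
        exact Finset.single_le_sum (f := fun v => (-D v - v.ord f).toNat)
          (fun _ _ => Nat.zero_le _) hvS
      have h2 : -D v - v.ord f ≤ ((-D v - v.ord f).toNat : ℤ) := Int.self_le_toNat _
      have h3 : ((-D v - v.ord f).toNat : ℤ) ≤ (n : ℤ) := by exact_mod_cast h1
      have h4 : (n : ℤ) ≤ (n : ℤ) * v.ord τ := by
        have : (0 : ℤ) ≤ (n : ℤ) := Int.natCast_nonneg n
        nlinarith
      omega
    · have h1 : ¬ v.ord f < -D v := by
        intro h
        exact hvS (hbad.mem_toFinset.mpr ⟨hv, h⟩)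
      have h4 : (0 : ℤ) ≤ (n : ℤ) * v.ord τ := by
        have : (0 : ℤ) ≤ (n : ℤ) := Int.natCast_nonneg n
        positivity
      omega

end Clear

/-! ### The two-chart setting -/

section TwoCharts

variable {B₀ : Type u} [CommRing B₀] [IsDedekindDomain B₀] [Algebra B₀ F] [IsFractionRing B₀ F]
  [Algebra K B₀] [IsScalarTower K B₀ F]
  {B₁ : Type u} [CommRing B₁] [IsDedekindDomain B₁] [Algebra B₁ F] [IsFractionRing B₁ F]
  [Algebra K B₁] [IsScalarTower K B₁ F]
  {B₀₁ : Type u} [CommRing B₀₁] [IsDedekindDomain B₀₁] [Algebra B₀₁ F] [IsFractionRing B₀₁ F]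
  [Algebra K B₀₁] [IsScalarTower K B₀₁ F]
  [Algebra B₀ B₀₁] [Algebra B₁ B₀₁] [IsScalarTower B₀ B₀₁ F] [IsScalarTower B₁ B₀₁ F]

variable (K F) in
/-- The hypotheses of the common setting (see `Setting38`), bundled. -/
structure IsSetting (t : B₀) (s : B₁) (B₀₁ : Type u) [CommRing B₀₁] [Algebra B₀₁ F]
    [Algebra B₀ B₀₁] [Algebra B₁ B₀₁] : Prop where
  away₀ : IsLocalization.Away t B₀₁
  away₁ : IsLocalization.Away s B₀₁
  hts : algebraMap B₀ F t * algebraMap B₁ F s = 1
  hint₀ : (aeval t : K[X] →ₐ[K] B₀).toRingHom.IsIntegral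
  hint₁ : (aeval s : K[X] →ₐ[K] B₁).toRingHom.IsIntegral

variable {t : B₀} {s : B₁}

theorem IsSetting.tau_ne_zero (S : IsSetting K F t s B₀₁) : algebraMap B₀ F t ≠ 0 :=
  left_ne_zero_of_mul_eq_one S.hts

theorem IsSetting.sigma_eq (S : IsSetting K F t s B₀₁) :
    algebraMap B₁ F s = (algebraMap B₀ F t)⁻¹ := eq_inv_of_mul_eq_one_right S.hts

theorem IsSetting.inter_eq (S : IsSetting K F t s B₀₁) :
    chartSet (K := K) (F := F) B₀ ∩ chartSet (K := K) (F := F) B₁ =
      chartSet (K := K) (F := F) B₀₁ :=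
  haveI := S.away₀
  chartSet_inter_eq (K := K) (B₀₁ := B₀₁) t s S.hts

theorem IsSetting.symm (S : IsSetting K F t s B₀₁) : IsSetting K F s t B₀₁ :=
  ⟨S.away₁, S.away₀, by rw [mul_comm]; exact S.hts, S.hint₁, S.hint₀⟩

/-- On the overlap `τ` is a unit. -/
theorem IsSetting.ord_tau_eq_zero (S : IsSetting K F t s B₀₁) {v : Place K F}
    (hv : v ∈ chartSet (K := K) (F := F) B₀₁) : v.ord (algebraMap B₀ F t) = 0 := by
  rw [← S.inter_eq] at hv
  have h0 := ffp_ord_nonneg_of_mem v (hv.1 t)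
  have h1 := ffp_ord_nonneg_of_mem v (hv.2 s)
  rw [S.sigma_eq, v.ord_inv] at h1
  omega

/-- Outside the overlap `τ` vanishes on `U₀`. -/
theorem IsSetting.ord_tau_pos (S : IsSetting K F t s B₀₁) {v : Place K F}
    (hv : v ∈ chartSet (K := K) (F := F) B₀) (hv' : v ∉ chartSet (K := K) (F := F) B₀₁) :
    0 < v.ord (algebraMap B₀ F t) := by
  have h0 := ffp_ord_nonneg_of_mem v (hv t)
  rcases h0.lt_or_eq with h | h
  · exact h
  · exfalso
    apply hv'
    rw [← S.inter_eq]
    refine ⟨hv, mem_chartSet_of_mem s S.hint₁ v ?_⟩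
    rw [S.sigma_eq]
    apply ffp_mem_of_ord_nonneg
    rw [v.ord_inv, ← h]; simp

theorem chartSet_subset_left : chartSet (K := K) (F := F) B₀₁ ⊆ chartSet (K := K) (F := F) B₀ :=
  fun v hv b => by rw [IsScalarTower.algebraMap_apply B₀ B₀₁ F]; exact hv _

/-- Pole clearing on the chart `U₀`. -/
theorem IsSetting.exists_pow_mul_mem (S : IsSetting K F t s B₀₁) (D : Divisor K F) {f : F}
    (hf : f ∈ lat (chartSet (K := K) (F := F) B₀₁) D) :
    ∃ n : ℕ, algebraMap B₀ F t ^ n * f ∈ lat (chartSet (K := K) (F := F) B₀) D :=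
  exists_pow_mul_mem_lat S.tau_ne_zero (fun _ hv => S.ord_tau_eq_zero hv)
    (fun _ hv hv' => S.ord_tau_pos hv hv')
    (fun _ hg => finite_ord_ne_zero_chart (K := K) (B := B₀) hg) D hf

/-- The restriction map `lat U₀ D → lat U₀₁ D`, as a `B₀`-linear map. -/
noncomputable def rho (D : Divisor K F) : ↥(latMod B₀ D) →ₗ[B₀] ↥(latMod B₀₁ D) where
  toFun f := ⟨(f : F), mem_latMod_iff.mpr
    (lat_anti_set chartSet_subset_left D (mem_latMod_iff.mp f.2))⟩
  map_add' _ _ := rfl
  map_smul' b f := by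
    apply Subtype.ext
    show b • (f : F) = (b • (⟨(f : F), _⟩ : ↥(latMod B₀₁ D)) : ↥(latMod B₀₁ D))
    rfl

@[simp] theorem coe_rho (D : Divisor K F) (f : ↥(latMod B₀ D)) :
    ((rho (B₀₁ := B₀₁) D f : ↥(latMod B₀₁ D)) : F) = (f : F) := rfl

theorem IsSetting.isLocalizedModule_rho (S : IsSetting K F t s B₀₁) (D : Divisor K F) :
    IsLocalizedModule (Submonoid.powers t) (rho (B₀ := B₀) (B₀₁ := B₀₁) D) where
  map_units := by
    rintro ⟨y, n, rfl⟩
    rw [Module.End.isUnit_iff]
    have hτ := S.tau_ne_zero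
    have hcoe : ∀ m : ↥(latMod B₀₁ D), (((t ^ n : B₀) • m : ↥(latMod B₀₁ D)) : F) =
        algebraMap B₀ F t ^ n * (m : F) := by
      intro m
      show (t ^ n : B₀) • (m : F) = _
      rw [Algebra.smul_def, map_pow]
    constructor
    · intro m m' h
      apply Subtype.ext
      have := congrArg (Subtype.val : ↥(latMod B₀₁ D) → F) h
      simp only [Module.algebraMap_end_apply] at this
      rw [hcoe, hcoe] at this
      exact mul_left_cancel₀ (pow_ne_zero n hτ) this
    · intro m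
      refine ⟨(algebraMap B₁ B₀₁ s ^ n) • m, ?_⟩
      apply Subtype.ext
      simp only [Module.algebraMap_end_apply]
      rw [hcoe]
      show algebraMap B₀ F t ^ n * ((algebraMap B₁ B₀₁ s ^ n) • (m : F)) = (m : F)
      rw [Algebra.smul_def, map_pow, ← IsScalarTower.algebraMap_apply B₁ B₀₁ F, ← mul_assoc,
        ← mul_pow, S.hts, one_pow, one_mul]
  surj := by
    intro y
    obtain ⟨n, hn⟩ := S.exists_pow_mul_mem D (mem_latMod_iff.mp y.2)
    refine ⟨(⟨algebraMap B₀ F t ^ n * (y : F), mem_latMod_iff.mpr hn⟩, ⟨t ^ n, n, rfl⟩), ?_⟩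
    apply Subtype.ext
    show (t ^ n : B₀) • (y : F) = algebraMap B₀ F t ^ n * (y : F)
    rw [Algebra.smul_def, map_pow]
  exists_of_eq := by
    intro a b hab
    refine ⟨1, ?_⟩
    have : (a : F) = (b : F) := congrArg (Subtype.val : ↥(latMod B₀₁ D) → F) hab
    rw [Subtype.ext this]

/-- **The line diagram `O(D)`** of a divisor, in the common setting. -/
noncomputable def lineDiagOfDiv (S : IsSetting K F t s B₀₁) (D : Divisor K F) :
    LineDiag t s B₀₁ where
  M0 := ↥(latMod B₀ D)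
  M1 := ↥(latMod B₁ D)
  M01 := ↥(latMod B₀₁ D)
  rho0 := rho D
  rho1 := rho D
  isLocalizedModule0 := S.isLocalizedModule_rho D
  isLocalizedModule1 := S.symm.isLocalizedModule_rho D

end TwoCharts

end Fermat.Agent.JAC.Fibre.DiagOfDiv38
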