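/-
Programme JAC, work package A2 (fibre curve theory), the ADAPTER, part 2: the Euler
characteristic `Core.Degree36.chi` of the line diagram `O(D)` equals the Euler characteristic
`Core38.chi` of the divisor `D`; hence `deg O(D) = deg D` (Riemann).
-/
import Mathlib
import Fermat.Prelude.Def_AlgebraicCurve_Repartitions
import Fermat.Agent.JAC.Core.Degree36
import Fermat.Agent.JAC.Fibre.DiagOfDiv38

set_option autoImplicit false
set_option linter.unusedSectionVars false

open AlgebraicCurve IsDedekindDomain WithZero Polynomial nonZeroDivisors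

namespace Fermat.Agent.JAC.Fibre.DiagChi38

open Fermat.Agent.JAC.Fibre.RelRank38 Fermat.Agent.JAC.Fibre.Lat38 Fermat.Agent.JAC.Fibre.Core38
  Fermat.Agent.JAC.Fibre.Chart38 Fermat.Agent.JAC.Fibre.Setting38
  Fermat.Agent.JAC.Fibre.DiagOfDiv38 Fermat.Agent.JAC.Core.Defs36 Fermat.Agent.JAC.Core.Degree36
  Fermat.Agent.JAC.Cech Fermat.Agent.JAC.Frame.ChiCongr65

universe u

/-! ### Čech cohomology of a pair of inclusions of subspaces -/

section Inclusions

variable {K : Type u} [Field K] {V : Type u} [AddCommGroup V] [Module K V]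
  {A B C : Submodule K V} (hA : A ≤ C) (hB : B ≤ C)

/-- `H⁰` of the Čech pair of inclusions `A → C ← B` is `A ⊓ B`. -/
noncomputable def h0InclusionEquiv :
    H0 (Submodule.inclusion hA) (Submodule.inclusion hB) ≃ₗ[K] ↥(A ⊓ B) where
  toFun z := ⟨(z.1.1 : V), z.1.1.2, by
    have := (mem_H0 _ _ z.1).mp z.2
    have h2 : (z.1.1 : V) = (z.1.2 : V) := congrArg (Subtype.val : ↥C → V) this
    rw [h2]; exact z.1.2.2⟩
  invFun x := ⟨(⟨x.1, x.2.1⟩, ⟨x.1, x.2.2⟩), (mem_H0 _ _ _).mpr rfl⟩
  map_add' _ _ := rfl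
  map_smul' _ _ := rfl
  left_inv z := by
    apply Subtype.ext
    apply Prod.ext
    · rfl
    · apply Subtype.ext
      have := (mem_H0 _ _ z.1).mp z.2
      exact congrArg (Subtype.val : ↥C → V) this
  right_inv _ := rfl

theorem range_cechD_inclusion :
    LinearMap.range (cechD (Submodule.inclusion hA) (Submodule.inclusion hB)) =
      (A ⊔ B).submoduleOf C := by
  ext z
  simp only [LinearMap.mem_range, Submodule.submoduleOf, Submodule.mem_comap,
    Submodule.coe_subtype, Submodule.mem_sup]
  constructor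
  · rintro ⟨⟨x, y⟩, rfl⟩
    refine ⟨x.1, x.2, -y.1, B.neg_mem y.2, ?_⟩
    rw [cechD_apply]
    simp [sub_eq_add_neg]
  · rintro ⟨x, hx, y, hy, hxy⟩
    refine ⟨(⟨x, hx⟩, ⟨-y, B.neg_mem hy⟩), ?_⟩
    apply Subtype.ext
    rw [cechD_apply]
    simp [hxy]

theorem finrank_h0_inclusion :
    Module.finrank K (H0 (Submodule.inclusion hA) (Submodule.inclusion hB)) =
      Module.finrank K ↥(A ⊓ B) :=
  (h0InclusionEquiv hA hB).finrank_eq

theorem finrank_h1_inclusion :
    Module.finrank K (H1 (Submodule.inclusion hA) (Submodule.inclusion hB)) =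
      Cardinal.toNat (relrank (A ⊔ B) C) := by
  unfold relrank
  rw [← range_cechD_inclusion hA hB]
  rfl

theorem chiPair_inclusion :
    chiPair (Submodule.inclusion hA) (Submodule.inclusion hB) =
      (Module.finrank K ↥(A ⊓ B) : ℤ) - (Cardinal.toNat (relrank (A ⊔ B) C) : ℤ) := by
  unfold chiPair
  rw [finrank_h0_inclusion, finrank_h1_inclusion]

end Inclusions

/-! ### The Euler characteristic of `O(D)` -/

section TwoCharts

variable {K : Type u} {F : Type u} [Field K] [Field F] [Algebra K F]
  {B₀ : Type u} [CommRing B₀] [IsDedekindDomain B₀] [Algebra B₀ F] [IsFractionRing B₀ F]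
  [Algebra K B₀] [IsScalarTower K B₀ F]
  {B₁ : Type u} [CommRing B₁] [IsDedekindDomain B₁] [Algebra B₁ F] [IsFractionRing B₁ F]
  [Algebra K B₁] [IsScalarTower K B₁ F]
  {B₀₁ : Type u} [CommRing B₀₁] [IsDedekindDomain B₀₁] [Algebra B₀₁ F] [IsFractionRing B₀₁ F]
  [Algebra K B₀₁] [IsScalarTower K B₀₁ F]
  [Algebra B₀ B₀₁] [Algebra B₁ B₀₁] [IsScalarTower B₀ B₀₁ F] [IsScalarTower B₁ B₀₁ F]
  [IsScalarTower K B₀ B₀₁] [IsScalarTower K B₁ B₀₁]
  {t : B₀} {s : B₁}

theorem chartSet_subset_right :
    chartSet (K := K) (F := F) B₀₁ ⊆ chartSet (K := K) (F := F) B₁ :=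
  fun v hv b => by rw [IsScalarTower.algebraMap_apply B₁ B₀₁ F]; exact hv _

/-- The `K`-linear identification of `latMod B D` (with the `K`-structure through `K → B`) with
`lat (chartSet B) D`. -/
noncomputable def latModEquiv (B : Type u) [CommRing B] [IsDedekindDomain B] [Algebra B F]
    [IsFractionRing B F] [Algebra K B] [IsScalarTower K B F] (D : Divisor K F) :
    letI : Module K ↥(latMod B D) := Module.compHom _ (algebraMap K B)
    ↥(latMod B D) ≃ₗ[K] ↥(lat (chartSet (K := K) (F := F) B) D) :=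
  letI : Module K ↥(latMod B D) := Module.compHom _ (algebraMap K B)
  { toFun := fun f => ⟨(f : F), mem_latMod_iff.mp f.2⟩
    invFun := fun f => ⟨(f : F), mem_latMod_iff.mpr f.2⟩
    map_add' := fun _ _ => rfl
    map_smul' := fun c f => by
      apply Subtype.ext
      show ((algebraMap K B c) • (f : F)) = c • (f : F)
      rw [algebraMap_smul]
    left_inv := fun _ => rfl
    right_inv := fun _ => rfl }

/-- **The Euler characteristic of the line diagram `O(D)` is the Euler characteristic of `D`.** -/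
theorem chi_lineDiagOfDiv (S : IsSetting K F t s B₀₁) (D : Divisor K F) :
    Fermat.Agent.JAC.Core.Degree36.chi K (lineDiagOfDiv S D) =
      Fermat.Agent.JAC.Fibre.Core38.chi (chartSet (K := K) (F := F) B₀) (chartSet (K := K) (F := F) B₁) D := by
  set N := lineDiagOfDiv S D with hN
  let _ := module0 K N; let _ := module1 K N; let _ := module01 K N
  have hA : lat (chartSet (K := K) (F := F) B₀) D ≤ lat (chartSet (K := K) (F := F) B₀₁) D :=
    lat_anti_set chartSet_subset_left D
  have hB : lat (chartSet (K := K) (F := F) B₁) D ≤ lat (chartSet (K := K) (F := F) B₀₁) D :=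
    lat_anti_set chartSet_subset_right D
  have hchi : Fermat.Agent.JAC.Core.Degree36.chi K N =
      chiPair (Submodule.inclusion hA) (Submodule.inclusion hB) := by
    unfold Fermat.Agent.JAC.Core.Degree36.chi
    exact chiPair_congr (latModEquiv B₀ D) (latModEquiv B₁ D) (latModEquiv B₀₁ D)
      (fun x => rfl) (fun y => rfl)
  rw [hchi, chiPair_inclusion]
  unfold Fermat.Agent.JAC.Fibre.Core38.chi h0n h1n h0 h1
  rw [relrank_bot, S.inter_eq]
  rfl

/-- `B ≃ latMod B 0`. -/
noncomputable def ringEquivLatModZero (B : Type u) [CommRing B] [IsDedekindDomain B]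
    [Algebra B F] [IsFractionRing B F] [Algebra K B] [IsScalarTower K B F] :
    B ≃ₗ[B] ↥(latMod (K := K) B (0 : Divisor K F)) :=
  LinearEquiv.ofBijective
    { toFun := fun b => ⟨algebraMap B F b,
        mem_latMod_iff.mpr (mem_lat_chartSet_zero_iff.mpr ⟨b, rfl⟩)⟩
      map_add' := fun a b => by apply Subtype.ext; simp
      map_smul' := fun a b => by
        apply Subtype.ext
        simp only [smul_eq_mul, map_mul, RingHom.id_apply]
        show _ = a • algebraMap B F b
        rw [Algebra.smul_def] }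
    ⟨fun a b h => IsFractionRing.injective B F (congrArg Subtype.val h), fun f => by
      obtain ⟨b, hb⟩ := mem_lat_chartSet_zero_iff.mp (mem_latMod_iff.mp f.2)
      exact ⟨b, Subtype.ext hb⟩⟩

@[simp] theorem coe_ringEquivLatModZero (B : Type u) [CommRing B] [IsDedekindDomain B]
    [Algebra B F] [IsFractionRing B F] [Algebra K B] [IsScalarTower K B F] (b : B) :
    ((ringEquivLatModZero (K := K) (F := F) B b : ↥(latMod (K := K) B (0 : Divisor K F))) : F) =
      algebraMap B F b := rfl

/-- The trivial line diagram is `O(0)`. -/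
noncomputable def unitIso [IsLocalization.Away t B₀₁] [IsLocalization.Away s B₀₁]
    (S : IsSetting K F t s B₀₁) :
    LineDiag.Iso (LineDiag.unit t s B₀₁) (lineDiagOfDiv S (0 : Divisor K F)) where
  e0 := ringEquivLatModZero (K := K) (F := F) B₀
  e1 := ringEquivLatModZero (K := K) (F := F) B₁
  e01 := ringEquivLatModZero (K := K) (F := F) B₀₁
  comm0 x := by
    apply Subtype.ext
    exact (IsScalarTower.algebraMap_apply B₀ B₀₁ F (x : B₀)).symm
  comm1 y := by
    apply Subtype.ext
    exact (IsScalarTower.algebraMap_apply B₁ B₀₁ F (y : B₁)).symm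

/-- **`deg O(D) = deg D`** (degree in the sense of `Core.Degree36`). -/
theorem deg_lineDiagOfDiv [IsLocalization.Away t B₀₁] [IsLocalization.Away s B₀₁]
    (S : IsSetting K F t s B₀₁)
    (T : TwoChart (chartSet (K := K) (F := F) B₀) (chartSet (K := K) (F := F) B₁))
    (D : Divisor K F) :
    Fermat.Agent.JAC.Core.Degree36.deg K (lineDiagOfDiv S D) = Divisor.degree D := by
  unfold Fermat.Agent.JAC.Core.Degree36.deg
  rw [chi_congr K (unitIso S), chi_lineDiagOfDiv, chi_lineDiagOfDiv, T.riemann D]
  ring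

end TwoCharts

end Fermat.Agent.JAC.Fibre.DiagChi38
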