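/-
Programme JAC, work package A2 (fibre curve theory), the ADAPTER, part 3: in the common setting
of `DiagOfDiv38` EVERY line diagram is isomorphic to `O(D)` for some divisor `D` of `F/K`
(essential surjectivity of `D ↦ lineDiagOfDiv S D`).
-/
import Mathlib
import Fermat.Prelude.Def_AlgebraicCurve_Repartitions
import Fermat.Agent.JAC.Fibre.DiagChi38

set_option autoImplicit false
set_option linter.unusedSectionVars false

open AlgebraicCurve IsDedekindDomain WithZero Polynomial nonZeroDivisors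

namespace Fermat.Agent.JAC.Fibre.DiagExists38

open Fermat.Agent.JAC.Fibre.Lat38 Fermat.Agent.JAC.Fibre.Core38 Fermat.Agent.JAC.Fibre.Chart38
  Fermat.Agent.JAC.Fibre.Setting38 Fermat.Agent.JAC.Fibre.DiagOfDiv38
  Fermat.Agent.JAC.Core.Defs36
  Fermat.Agent.X0.FFDedekind Fermat.Agent.X0.FF Fermat.Agent.JAC.FF.LatIdeal9

universe u

variable {K : Type u} {F : Type u} [Field K] [Field F] [Algebra K F]

/-! ### One chart: nonzero finitely generated submodules of `F` are lattices -/

section OneChart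

variable (B : Type u) [CommRing B] [IsDedekindDomain B] [Algebra B F] [IsFractionRing B F]
  [Algebra K B] [IsScalarTower K B F]

/-- Every nonzero finitely generated `B`-submodule of `F` is `lat (chartSet B) D` for some `D`. -/
theorem exists_latMod_eq {L : Submodule B F} (hfg : L.FG) (hne : L ≠ ⊥) :
    ∃ D : Divisor K F, latMod B D = L := by
  let I : FractionalIdeal B⁰ F := ⟨L, FractionalIdeal.isFractional_of_fg hfg⟩
  have hI : I ≠ 0 := by
    intro h
    apply hne
    have h2 : (I : Submodule B F) = ((0 : FractionalIdeal B⁰ F) : Submodule B F) := by rw [h]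
    rw [FractionalIdeal.coe_zero] at h2
    exact h2
  refine ⟨divOfIdeal K I, ?_⟩
  unfold latMod
  rw [idealOfDiv_divOfIdeal hI]
  rfl

variable {B}

/-- Two divisors with the same lattice on the chart of `B` agree on this chart. -/
theorem eq_of_latMod_eq {D D' : Divisor K F} (h : latMod B D = latMod B D') {v : Place K F}
    (hv : v ∈ chartSet (K := K) (F := F) B) : D v = D' v := by
  have h' : idealOfDiv B D = idealOfDiv B D' := FractionalIdeal.coeToSubmodule_injective h
  have h2 := (idealOfDiv_eq_iff D D').mp h' (centreSpec v hv)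
  have e := ofHeightOneSpectrum_centreSpec (K := K) (F := F) (B := B) v hv
  rw [e] at h2
  exact h2

theorem latMod_congr {D D' : Divisor K F}
    (h : ∀ v ∈ chartSet (K := K) (F := F) B, D v = D' v) : latMod B D = latMod B D' := by
  ext f
  rw [mem_latMod_iff, mem_latMod_iff, lat_congr h]

end OneChart

/-! ### Two charts -/

section TwoCharts

variable {B₀ : Type u} [CommRing B₀] [IsDedekindDomain B₀] [Algebra B₀ F] [IsFractionRing B₀ F]
  [Algebra K B₀] [IsScalarTower K B₀ F]
  {B₁ : Type u} [CommRing B₁] [IsDedekindDomain B₁] [Algebra B₁ F] [IsFractionRing B₁ F]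
  [Algebra K B₁] [IsScalarTower K B₁ F]
  {B₀₁ : Type u} [CommRing B₀₁] [IsDedekindDomain B₀₁] [Algebra B₀₁ F] [IsFractionRing B₀₁ F]
  [Algebra K B₀₁] [IsScalarTower K B₀₁ F]
  [Algebra B₀ B₀₁] [Algebra B₁ B₀₁] [IsScalarTower B₀ B₀₁ F] [IsScalarTower B₁ B₀₁ F]
  {t : B₀} {s : B₁}

/-- If a `B₀₁`-submodule `L` of `F` is the localisation of `lat U₀ D` then `L = lat U₀₁ D`. -/
theorem latMod_overlap_eq (S : IsSetting K F t s B₀₁) (D : Divisor K F)
    (L : Submodule B₀₁ F) (h1 : ∀ f ∈ latMod B₀ D, f ∈ L)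
    (h2 : ∀ f ∈ L, ∃ n : ℕ, algebraMap B₀ F t ^ n * f ∈ latMod B₀ D) :
    latMod B₀₁ D = L := by
  ext f
  rw [mem_latMod_iff]
  constructor
  · intro hf
    obtain ⟨n, hn⟩ := S.exists_pow_mul_mem D hf
    have h3 : algebraMap B₀ F t ^ n * f ∈ L := h1 _ (mem_latMod_iff.mpr hn)
    have h4 : (algebraMap B₁ B₀₁ s ^ n) • (algebraMap B₀ F t ^ n * f) ∈ L := L.smul_mem _ h3
    have h5 : (algebraMap B₁ B₀₁ s ^ n) • (algebraMap B₀ F t ^ n * f) = f := by
      rw [Algebra.smul_def, map_pow, ← IsScalarTower.algebraMap_apply B₁ B₀₁ F, ← mul_assoc,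
        ← mul_pow, mul_comm (algebraMap B₁ F s), S.hts, one_pow, one_mul]
    rwa [h5] at h4
  · intro hf
    obtain ⟨n, hn⟩ := h2 f hf
    have h3 := lat_anti_set (chartSet_subset_left (K := K) (F := F) (B₀ := B₀) (B₀₁ := B₀₁)) D
      (mem_latMod_iff.mp hn)
    rw [mem_lat_iff_ord] at h3 ⊢
    intro v hv
    rcases eq_or_ne f 0 with hf0 | hf0
    · exact Or.inl hf0
    right
    have h4 := (h3 v hv).resolve_left (mul_ne_zero (pow_ne_zero n S.tau_ne_zero) hf0)
    rwa [v.ord_mul (pow_ne_zero n S.tau_ne_zero) hf0, Fermat.Agent.JAC.Fibre.DiagOfDiv38.ord_pow, S.ord_tau_eq_zero hv, mul_zero,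
      zero_add] at h4

/-- An invertible module over a domain with fraction field `F` embeds into `F`. -/
theorem exists_embedding (B : Type u) [CommRing B] [IsDomain B] [Algebra B F] [IsFractionRing B F]
    (M : Type u) [AddCommGroup M] [Module B M] [Module.Invertible B M] :
    ∃ j : M →ₗ[B] F, Function.Injective j := by
  have : FaithfulSMul B F := (faithfulSMul_iff_algebraMap_injective B F).mpr
    (IsFractionRing.injective B F)
  obtain ⟨e⟩ := (Module.Invertible.free_iff_linearEquiv (R := F)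
    (M := TensorProduct B F M)).mp inferInstance
  exact ⟨Module.Flat.toAlgebra e, Module.Flat.toAlgebra_injective e⟩

/-- **Essential surjectivity of `D ↦ O(D)`**: in the common setting every line diagram is
isomorphic to the line diagram of a divisor. -/
theorem exists_iso_lineDiagOfDiv (S : IsSetting K F t s B₀₁) (N : LineDiag t s B₀₁) :
    ∃ D : Divisor K F, Nonempty (LineDiag.Iso N (lineDiagOfDiv S D)) := by
  classical
  have := S.away₀
  have := S.away₁
  have : Module.Invertible B₀₁ N.M01 :=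
    Module.Invertible.of_isLocalization (Submonoid.powers t) N.rho0
  obtain ⟨j, hj⟩ := exists_embedding (F := F) B₀₁ N.M01
  have ht0 : t ≠ 0 := fun h => S.tau_ne_zero (by rw [h, map_zero])
  have hs0 : s ≠ 0 := fun h => S.symm.tau_ne_zero (by rw [h, map_zero])
  -- injectivity of the localisation maps
  have hρ0 : Function.Injective N.rho0 := by
    rw [injective_iff_map_eq_zero]
    intro x hx
    obtain ⟨⟨_, n, rfl⟩, hc⟩ := (IsLocalizedModule.eq_zero_iff (Submonoid.powers t) N.rho0).mp hx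
    exact (smul_eq_zero_iff_right (pow_ne_zero n ht0)).mp hc
  have hρ1 : Function.Injective N.rho1 := by
    rw [injective_iff_map_eq_zero]
    intro x hx
    obtain ⟨⟨_, n, rfl⟩, hc⟩ := (IsLocalizedModule.eq_zero_iff (Submonoid.powers s) N.rho1).mp hx
    exact (smul_eq_zero_iff_right (pow_ne_zero n hs0)).mp hc
  let φ0 : N.M0 →ₗ[B₀] F := (j.restrictScalars B₀).comp N.rho0
  let φ1 : N.M1 →ₗ[B₁] F := (j.restrictScalars B₁).comp N.rho1
  have hφ0 : Function.Injective φ0 := hj.comp hρ0
  have hφ1 : Function.Injective φ1 := hj.comp hρ1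
  have hfg0 : (LinearMap.range φ0).FG := by
    rw [LinearMap.range_eq_map]
    exact Module.Finite.fg_top.map φ0
  have hfg1 : (LinearMap.range φ1).FG := by
    rw [LinearMap.range_eq_map]
    exact Module.Finite.fg_top.map φ1
  have hne0 : LinearMap.range φ0 ≠ ⊥ := by
    intro h
    have hsub : ∀ x : N.M0, x = 0 := fun x => hφ0 (by
      rw [map_zero]
      exact (LinearMap.range_eq_bot.mp h) ▸ rfl)
    have h10 : (1 : B₀) = 0 := FaithfulSMul.eq_of_smul_eq_smul (M := B₀) (α := N.M0)
      (fun x => by rw [hsub ((1 : B₀) • x), hsub ((0 : B₀) • x)])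
    exact one_ne_zero h10
  have hne1 : LinearMap.range φ1 ≠ ⊥ := by
    intro h
    have hsub : ∀ x : N.M1, x = 0 := fun x => hφ1 (by
      rw [map_zero]
      exact (LinearMap.range_eq_bot.mp h) ▸ rfl)
    have h10 : (1 : B₁) = 0 := FaithfulSMul.eq_of_smul_eq_smul (M := B₁) (α := N.M1)
      (fun x => by rw [hsub ((1 : B₁) • x), hsub ((0 : B₁) • x)])
    exact one_ne_zero h10
  obtain ⟨D₀, h0⟩ := exists_latMod_eq (K := K) B₀ hfg0 hne0
  obtain ⟨D₁, h1⟩ := exists_latMod_eq (K := K) B₁ hfg1 hne1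
  -- the overlap
  have hov0 : latMod B₀₁ D₀ = LinearMap.range j := by
    apply latMod_overlap_eq S D₀
    · rw [h0]
      rintro _ ⟨x, rfl⟩
      exact ⟨N.rho0 x, rfl⟩
    · rintro _ ⟨m, rfl⟩
      obtain ⟨⟨x, ⟨_, n, rfl⟩⟩, hx⟩ := IsLocalizedModule.surj (Submonoid.powers t) N.rho0 m
      refine ⟨n, ?_⟩
      rw [h0]
      refine ⟨x, ?_⟩
      show j (N.rho0 x) = algebraMap B₀ F t ^ n * j m
      rw [← hx]
      show j ((t ^ n : B₀) • m) = _
      rw [← algebraMap_smul B₀₁ (t ^ n : B₀) m, map_smul, Algebra.smul_def,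
        ← IsScalarTower.algebraMap_apply B₀ B₀₁ F, map_pow]
  have hov1 : latMod B₀₁ D₁ = LinearMap.range j := by
    apply latMod_overlap_eq S.symm D₁
    · rw [h1]
      rintro _ ⟨x, rfl⟩
      exact ⟨N.rho1 x, rfl⟩
    · rintro _ ⟨m, rfl⟩
      obtain ⟨⟨x, ⟨_, n, rfl⟩⟩, hx⟩ := IsLocalizedModule.surj (Submonoid.powers s) N.rho1 m
      refine ⟨n, ?_⟩
      rw [h1]
      refine ⟨x, ?_⟩
      show j (N.rho1 x) = algebraMap B₁ F s ^ n * j m
      rw [← hx]
      show j ((s ^ n : B₁) • m) = _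
      rw [← algebraMap_smul B₀₁ (s ^ n : B₁) m, map_smul, Algebra.smul_def,
        ← IsScalarTower.algebraMap_apply B₁ B₀₁ F, map_pow]
  have hagree : ∀ v ∈ chartSet (K := K) (F := F) B₀₁, D₀ v = D₁ v := fun v hv =>
    eq_of_latMod_eq (hov0.trans hov1.symm) hv
  -- gluing the two divisors
  set D : Divisor K F :=
    D₀ + Finsupp.filter (fun v => v ∉ chartSet (K := K) (F := F) B₀) (D₁ - D₀) with hD
  have hD0 : ∀ v ∈ chartSet (K := K) (F := F) B₀, D v = D₀ v := by
    intro v hv
    rw [hD, Finsupp.add_apply, Finsupp.filter_apply_neg (fun v => v ∉ chartSet (K := K) (F := F) B₀) _ (not_not.mpr hv), add_zero]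
  have hD1 : ∀ v ∈ chartSet (K := K) (F := F) B₁, D v = D₁ v := by
    intro v hv
    by_cases hv0 : v ∈ chartSet (K := K) (F := F) B₀
    · rw [hD0 v hv0]
      exact hagree v (S.inter_eq ▸ ⟨hv0, hv⟩)
    · rw [hD, Finsupp.add_apply, Finsupp.filter_apply_pos (fun v => v ∉ chartSet (K := K) (F := F) B₀) _ hv0, Finsupp.sub_apply]
      ring
  have g0 : latMod B₀ D = LinearMap.range φ0 := (latMod_congr hD0).trans h0
  have g1 : latMod B₁ D = LinearMap.range φ1 := (latMod_congr hD1).trans h1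
  have g01 : latMod B₀₁ D = LinearMap.range j :=
    (latMod_congr (fun v hv => hD0 v (chartSet_subset_left hv))).trans hov0
  refine ⟨D, ⟨?_⟩⟩
  exact
    { e0 := (LinearEquiv.ofInjective φ0 hφ0).trans (LinearEquiv.ofEq _ _ g0.symm)
      e1 := (LinearEquiv.ofInjective φ1 hφ1).trans (LinearEquiv.ofEq _ _ g1.symm)
      e01 := (LinearEquiv.ofInjective j hj).trans (LinearEquiv.ofEq _ _ g01.symm)
      comm0 := fun x => Subtype.ext rfl
      comm1 := fun y => Subtype.ext rfl }

end TwoCharts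

end Fermat.Agent.JAC.Fibre.DiagExists38
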