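/-
Programme JAC, work package A2 (fibre curve theory), the ADAPTER, part 4: the map
`D ↦ cls (O(D))` is a group homomorphism from divisors to classes of line diagrams:
`O(D) ⊗ O(D') ≅ O(D + D')`, `O(-D) ≅ O(D)ᵛ`.
-/
import Mathlib
import Fermat.Prelude.Def_AlgebraicCurve_Repartitions
import Fermat.Agent.JAC.Grp.Diag33
import Fermat.Agent.JAC.Fibre.DiagExists38

set_option autoImplicit false
set_option linter.unusedSectionVars false

open AlgebraicCurve IsDedekindDomain WithZero Polynomial nonZeroDivisors TensorProduct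

namespace Fermat.Agent.JAC.Fibre.DiagOps38

open Fermat.Agent.JAC.Fibre.Lat38 Fermat.Agent.JAC.Fibre.Core38 Fermat.Agent.JAC.Fibre.Chart38
  Fermat.Agent.JAC.Fibre.Setting38 Fermat.Agent.JAC.Fibre.DiagOfDiv38
  Fermat.Agent.JAC.Fibre.DiagChi38 Fermat.Agent.JAC.Fibre.DiagExists38
  Fermat.Agent.JAC.Core.Defs36 Fermat.Agent.JAC.Grp.Diag33 Fermat.Agent.JAC.Grp.LocTensor33
  Fermat.Agent.X0.FFDedekind Fermat.Agent.X0.FF Fermat.Agent.JAC.FF.LatIdeal9

universe u

variable {K : Type u} {F : Type u} [Field K] [Field F] [Algebra K F]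

/-! ### One chart -/

section OneChart

variable (B : Type u) [CommRing B] [IsDedekindDomain B] [Algebra B F] [IsFractionRing B F]
  [Algebra K B] [IsScalarTower K B F]

theorem latMod_add (D D' : Divisor K F) : latMod B (D + D') = latMod B D * latMod B D' := by
  unfold latMod
  rw [idealOfDiv_add, FractionalIdeal.coe_mul]

theorem latMod_zero : latMod B (0 : Divisor K F) = 1 := by
  unfold latMod
  rw [idealOfDiv_zero, FractionalIdeal.coe_one]

/-- `latMod B D` as a unit of the monoid of submodules of `F`. -/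
noncomputable def latUnit (D : Divisor K F) : (Submodule B F)ˣ where
  val := latMod B D
  inv := latMod B (-D)
  val_inv := by rw [← latMod_add, add_neg_cancel, latMod_zero]
  inv_val := by rw [← latMod_add, neg_add_cancel, latMod_zero]

/-- Multiplication `lat U D ⊗ lat U D' ≃ lat U (D + D')`. -/
noncomputable def latModMulEquiv (D D' : Divisor K F) :
    ↥(latMod B D) ⊗[B] ↥(latMod B D') ≃ₗ[B] ↥(latMod B (D + D')) :=
  (Submodule.tensorEquivMul (latUnit B D) (latUnit B D')).trans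
    (LinearEquiv.ofEq _ _ (latMod_add B D D').symm)

@[simp] theorem coe_latModMulEquiv_tmul (D D' : Divisor K F) (f : ↥(latMod B D))
    (g : ↥(latMod B D')) :
    ((latModMulEquiv B D D' (f ⊗ₜ[B] g) : ↥(latMod B (D + D'))) : F) = (f : F) * (g : F) := rfl

end OneChart

/-! ### Two charts -/

section TwoCharts

variable {B₀ : Type u} [CommRing B₀] [IsDedekindDomain B₀] [Algebra B₀ F] [IsFractionRing B₀ F]
  [Algebra K B₀] [IsScalarTower K B₀ F]
  {B₁ : Type u} [CommRing B₁] [IsDedekindDomain B₁] [Algebra B₁ F] [IsFractionRing B₁ F]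
  [Algebra K B₁] [IsScalarTower K B₁ F]
  {B₀₁ : Type u} [CommRing B₀₁] [IsDedekindDomain B₀₁] [Algebra B₀₁ F] [IsFractionRing B₀₁ F]
  [Algebra K B₀₁] [IsScalarTower K B₀₁ F]
  [Algebra B₀ B₀₁] [Algebra B₁ B₀₁] [IsScalarTower B₀ B₀₁ F] [IsScalarTower B₁ B₀₁ F]
  {t : B₀} {s : B₁} [IsLocalization.Away t B₀₁] [IsLocalization.Away s B₀₁]

omit [IsLocalization.Away t B₀₁] [IsLocalization.Away s B₀₁] in
theorem latModMulEquiv_comm (D D' : Divisor K F)
    (x : ↥(latMod B₀ D) ⊗[B₀] ↥(latMod B₀ D')) :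
    latModMulEquiv B₀₁ D D' (tensorMap B₀₁ (rho (B₀₁ := B₀₁) D) (rho (B₀₁ := B₀₁) D') x) =
      rho (B₀₁ := B₀₁) (D + D') (latModMulEquiv B₀ D D' x) := by
  induction x using TensorProduct.induction_on with
  | zero => rw [map_zero, map_zero, map_zero, map_zero]
  | tmul f g => exact Subtype.ext rfl
  | add x y hx hy => rw [map_add, map_add, hx, hy, map_add, map_add]

/-- **`O(D) ⊗ O(D') ≅ O(D + D')`.** -/
noncomputable def mulIso (S : IsSetting K F t s B₀₁) (D D' : Divisor K F) :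
    LineDiag.Iso (tensor (lineDiagOfDiv S D) (lineDiagOfDiv S D')) (lineDiagOfDiv S (D + D')) where
  e0 := latModMulEquiv B₀ D D'
  e1 := latModMulEquiv B₁ D D'
  e01 := latModMulEquiv B₀₁ D D'
  comm0 := latModMulEquiv_comm (B₀ := B₀) (B₀₁ := B₀₁) D D'
  comm1 := latModMulEquiv_comm (B₀ := B₁) (B₀₁ := B₀₁) D D'

theorem cls_mul_lineDiagOfDiv (S : IsSetting K F t s B₀₁) (D D' : Divisor K F) :
    cls (lineDiagOfDiv S D) * cls (lineDiagOfDiv S D') = cls (lineDiagOfDiv S (D + D')) := by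
  rw [cls_mul]
  exact cls_eq_iff.mpr ⟨mulIso S D D'⟩

theorem cls_lineDiagOfDiv_zero (S : IsSetting K F t s B₀₁) :
    cls (lineDiagOfDiv S (0 : Divisor K F)) = 1 := by
  rw [cls_one]
  exact (cls_eq_iff.mpr ⟨unitIso S⟩).symm

/-- **`D ↦ [O(D)]` as a group homomorphism** from divisors to classes of line diagrams. -/
noncomputable def clsOfDiv (S : IsSetting K F t s B₀₁) :
    Multiplicative (Divisor K F) →* LineDiag.Classes t s B₀₁ where
  toFun D := cls (lineDiagOfDiv S (Multiplicative.toAdd D))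
  map_one' := cls_lineDiagOfDiv_zero S
  map_mul' _ _ := (cls_mul_lineDiagOfDiv S _ _).symm

@[simp] theorem clsOfDiv_apply (S : IsSetting K F t s B₀₁) (D : Divisor K F) :
    clsOfDiv S (Multiplicative.ofAdd D) = cls (lineDiagOfDiv S D) := rfl

theorem cls_lineDiagOfDiv_neg (S : IsSetting K F t s B₀₁) (D : Divisor K F) :
    cls (lineDiagOfDiv S (-D)) = (cls (lineDiagOfDiv S D))⁻¹ := by
  rw [eq_inv_iff_mul_eq_one, cls_mul_lineDiagOfDiv, neg_add_cancel, cls_lineDiagOfDiv_zero]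

theorem cls_lineDiagOfDiv_sub (S : IsSetting K F t s B₀₁) (D D' : Divisor K F) :
    cls (lineDiagOfDiv S (D - D')) = cls (lineDiagOfDiv S D) / cls (lineDiagOfDiv S D') := by
  rw [sub_eq_add_neg, ← cls_mul_lineDiagOfDiv, cls_lineDiagOfDiv_neg, div_eq_mul_inv]

/-- The homomorphism `clsOfDiv` is surjective. -/
theorem clsOfDiv_surjective (S : IsSetting K F t s B₀₁) : Function.Surjective (clsOfDiv S) := by
  intro ξ
  induction ξ using Quotient.inductionOn with
  | h N =>
    obtain ⟨D, ⟨e⟩⟩ := exists_iso_lineDiagOfDiv S N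
    exact ⟨Multiplicative.ofAdd D, (cls_eq_iff.mpr ⟨e⟩).symm⟩

/-- The dual of `O(D)` is `O(-D)`. -/
theorem nonempty_iso_dual (S : IsSetting K F t s B₀₁) (D : Divisor K F) :
    Nonempty (LineDiag.Iso (dual (lineDiagOfDiv S D)) (lineDiagOfDiv S (-D))) := by
  rw [← cls_eq_iff, ← cls_inv, cls_lineDiagOfDiv_neg]

end TwoCharts

end Fermat.Agent.JAC.Fibre.DiagOps38
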