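/-
Programme JAC, work package A2 (fibre curve theory), the ADAPTER, part 5: `O(D') ≅ O(D)` iff
`D' - D` is principal; hence `Pic K F ≃ LineDiag.Classes` (divisor classes = classes of line
diagrams), and an isomorphism criterion for a line diagram embedded in `F`.
-/
import Mathlib
import Fermat.Prelude.Def_AlgebraicCurve_Repartitions
import Fermat.Agent.JAC.Fibre.DiagOps38

set_option autoImplicit false
set_option linter.unusedSectionVars false

open AlgebraicCurve IsDedekindDomain WithZero Polynomial nonZeroDivisors TensorProduct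

namespace Fermat.Agent.JAC.Fibre.DiagPrin38

open Fermat.Agent.JAC.Fibre.Lat38 Fermat.Agent.JAC.Fibre.Core38 Fermat.Agent.JAC.Fibre.Chart38
  Fermat.Agent.JAC.Fibre.Setting38 Fermat.Agent.JAC.Fibre.DiagOfDiv38
  Fermat.Agent.JAC.Fibre.DiagChi38 Fermat.Agent.JAC.Fibre.DiagExists38
  Fermat.Agent.JAC.Fibre.DiagOps38
  Fermat.Agent.JAC.Core.Defs36 Fermat.Agent.JAC.Grp.Diag33 Fermat.Agent.JAC.Grp.LocTensor33
  Fermat.Agent.X0.FFDedekind Fermat.Agent.X0.FF Fermat.Agent.JAC.FF.LatIdeal9

universe u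

variable {K : Type u} {F : Type u} [Field K] [Field F] [Algebra K F]

/-! ### Linear maps between submodules of the fraction field are multiplications -/

theorem exists_mul_of_linearMap {B : Type*} [CommRing B] [IsDomain B] [Algebra B F]
    [IsFractionRing B F] {L L' : Submodule B F} (φ : ↥L →ₗ[B] ↥L') :
    ∃ g : F, ∀ x : ↥L, ((φ x : ↥L') : F) = g * (x : F) := by
  by_cases h : ∀ x : ↥L, (x : F) = 0
  · refine ⟨0, fun x => ?_⟩
    have hx : x = 0 := Subtype.ext (h x)
    rw [hx, map_zero, zero_mul]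
    rfl
  · push Not at h
    obtain ⟨x₀, hx₀⟩ := h
    refine ⟨((φ x₀ : ↥L') : F) / (x₀ : F), fun x => ?_⟩
    obtain ⟨a, b, hb, hab⟩ := IsFractionRing.div_surjective (A := B) ((x : F) / (x₀ : F))
    have hb0 : algebraMap B F b ≠ 0 := by
      intro h0
      have : b = 0 := IsFractionRing.injective B F (by rw [h0, map_zero])
      exact nonZeroDivisors.ne_zero hb this
    have hab' : algebraMap B F a * (x₀ : F) = (x : F) * algebraMap B F b :=
      (div_eq_div_iff hb0 hx₀).mp hab
    have h1 : b • x = a • x₀ := by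
      apply Subtype.ext
      show b • (x : F) = a • (x₀ : F)
      rw [Algebra.smul_def, Algebra.smul_def, hab', mul_comm]
    have h2 := congrArg φ h1
    rw [map_smul, map_smul] at h2
    have h3 : algebraMap B F b * ((φ x : ↥L') : F) = algebraMap B F a * ((φ x₀ : ↥L') : F) := by
      have := congrArg (Subtype.val : ↥L' → F) h2
      simpa [Algebra.smul_def] using this
    have h6 : algebraMap B F b * (((φ x : ↥L') : F) * (x₀ : F)) =
        algebraMap B F b * (((φ x₀ : ↥L') : F) * (x : F)) := by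
      calc algebraMap B F b * (((φ x : ↥L') : F) * (x₀ : F))
          = (algebraMap B F b * ((φ x : ↥L') : F)) * (x₀ : F) := by ring
        _ = (algebraMap B F a * ((φ x₀ : ↥L') : F)) * (x₀ : F) := by rw [h3]
        _ = ((φ x₀ : ↥L') : F) * (algebraMap B F a * (x₀ : F)) := by ring
        _ = ((φ x₀ : ↥L') : F) * ((x : F) * algebraMap B F b) := by rw [hab']
        _ = algebraMap B F b * (((φ x₀ : ↥L') : F) * (x : F)) := by ring
    have h7 := mul_left_cancel₀ hb0 h6
    rw [div_mul_eq_mul_div, eq_div_iff hx₀]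
    exact h7

/-! ### One chart -/

section OneChart

variable {B : Type u} [CommRing B] [IsDedekindDomain B] [Algebra B F] [IsFractionRing B F]
  [Algebra K B] [IsScalarTower K B F]

theorem latMod_ne_bot (D : Divisor K F) : latMod B D ≠ ⊥ := by
  unfold latMod
  intro h
  exact idealOfDiv_ne_zero B D (FractionalIdeal.coeToSubmodule_eq_bot.mp h)

theorem exists_ne_zero_mem_latMod (D : Divisor K F) : ∃ x : ↥(latMod B D), (x : F) ≠ 0 := by
  obtain ⟨x, hx, hx0⟩ := Submodule.exists_mem_ne_zero_of_ne_bot (latMod_ne_bot (B := B) D)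
  exact ⟨⟨x, hx⟩, hx0⟩

/-- Multiplication by `g` maps `lat U D'` into `lat U D` when `D' = D + div g` on `U`. -/
theorem mul_mem_latMod {D D' : Divisor K F} {g : F}
    (h : ∀ v ∈ chartSet (K := K) (F := F) B, D' v = D v + v.ord g) {f : F}
    (hf : f ∈ latMod B D') : g * f ∈ latMod B D := by
  rw [mem_latMod_iff, mem_lat_iff_ord] at hf ⊢
  intro v hv
  rcases eq_or_ne g 0 with hg | hg
  · left; rw [hg, zero_mul]
  rcases hf v hv with hf0 | hf0
  · left; rw [hf0, mul_zero]
  rcases eq_or_ne f 0 with hf1 | hf1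
  · left; rw [hf1, mul_zero]
  right
  rw [v.ord_mul hg hf1]
  have := h v hv
  omega

/-- If multiplication by `g ≠ 0` identifies `lat U D'` with `lat U D` then `D' = D + div g` on
`U`. -/
theorem eq_add_ord_of_mul {D D' : Divisor K F} {g : F} (hg : g ≠ 0)
    (h : ∀ x : F, x ∈ latMod B D' ↔ g * x ∈ latMod B D) {v : Place K F}
    (hv : v ∈ chartSet (K := K) (F := F) B) : D' v = D v + v.ord g := by
  classical
  set E : Divisor K F := Finsupp.ofSupportFinite
    (fun v => if v ∈ chartSet (K := K) (F := F) B then v.ord g else 0) (by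
      refine (finite_ord_ne_zero_chart (K := K) (B := B) hg).subset ?_
      intro v hv
      rw [Function.mem_support] at hv
      by_cases hvB : v ∈ chartSet (K := K) (F := F) B
      · rw [if_pos hvB] at hv
        exact ⟨hvB, hv⟩
      · rw [if_neg hvB] at hv
        exact absurd rfl hv) with hE
  have hEv : ∀ v ∈ chartSet (K := K) (F := F) B, E v = v.ord g := by
    intro v hv
    rw [hE, Finsupp.ofSupportFinite_coe, if_pos hv]
  have h1 : latMod B D' = latMod B (D + E) := by
    ext x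
    rw [h x, mem_latMod_iff, mem_latMod_iff]
    exact mul_mem_lat_iff _ D E hg hEv x
  have h2 := eq_of_latMod_eq h1 hv
  rw [h2, Finsupp.add_apply, hEv v hv]

end OneChart

/-! ### Two charts -/

section TwoCharts

variable {B₀ : Type u} [CommRing B₀] [IsDedekindDomain B₀] [Algebra B₀ F] [IsFractionRing B₀ F]
  [Algebra K B₀] [IsScalarTower K B₀ F]
  {B₁ : Type u} [CommRing B₁] [IsDedekindDomain B₁] [Algebra B₁ F] [IsFractionRing B₁ F]
  [Algebra K B₁] [IsScalarTower K B₁ F]
  {B₀₁ : Type u} [CommRing B₀₁] [IsDedekindDomain B₀₁] [Algebra B₀₁ F] [IsFractionRing B₀₁ F]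
  [Algebra K B₀₁] [IsScalarTower K B₀₁ F]
  [Algebra B₀ B₀₁] [Algebra B₁ B₀₁] [IsScalarTower B₀ B₀₁ F] [IsScalarTower B₁ B₀₁ F]
  {t : B₀} {s : B₁}

theorem IsSetting_union_eq_univ (S : IsSetting K F t s B₀₁) :
    chartSet (K := K) (F := F) B₀ ∪ chartSet (K := K) (F := F) B₁ = Set.univ :=
  chartSet_union_eq_univ (K := K) t s S.hts S.hint₀ S.hint₁

/-- **Multiplication by `g`** as an isomorphism `O(D') ≅ O(D)` when `D' = D + div g`. -/
noncomputable def isoOfMul (S : IsSetting K F t s B₀₁) {D D' : Divisor K F} {g : F} (hg : g ≠ 0)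
    (h : ∀ v : Place K F, D' v = D v + v.ord g) :
    LineDiag.Iso (lineDiagOfDiv S D') (lineDiagOfDiv S D) :=
  have h' : ∀ v : Place K F, D v = D' v + v.ord g⁻¹ := fun v => by
    rw [h v, v.ord_inv]; ring
  { e0 := Fermat.Agent.JAC.FF.LineDiagDiv9.mulEquivOfMem (latMod B₀ D') (latMod B₀ D) g hg
      (fun _ hf => mul_mem_latMod (fun v _ => h v) hf)
      (fun _ hf => mul_mem_latMod (fun v _ => h' v) hf)
    e1 := Fermat.Agent.JAC.FF.LineDiagDiv9.mulEquivOfMem (latMod B₁ D') (latMod B₁ D) g hg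
      (fun _ hf => mul_mem_latMod (fun v _ => h v) hf)
      (fun _ hf => mul_mem_latMod (fun v _ => h' v) hf)
    e01 := Fermat.Agent.JAC.FF.LineDiagDiv9.mulEquivOfMem (latMod B₀₁ D') (latMod B₀₁ D) g hg
      (fun _ hf => mul_mem_latMod (fun v _ => h v) hf)
      (fun _ hf => mul_mem_latMod (fun v _ => h' v) hf)
    comm0 := fun _ => Subtype.ext rfl
    comm1 := fun _ => Subtype.ext rfl }

/-- The components of an isomorphism `O(D') ≅ O(D)`, with explicit types. -/
def isoE01 (S : IsSetting K F t s B₀₁) {D D' : Divisor K F}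
    (e : LineDiag.Iso (lineDiagOfDiv S D') (lineDiagOfDiv S D)) :
    ↥(latMod B₀₁ D') ≃ₗ[B₀₁] ↥(latMod B₀₁ D) := e.e01

/-- The components of an isomorphism `O(D') ≅ O(D)`, with explicit types. -/
def isoE0 (S : IsSetting K F t s B₀₁) {D D' : Divisor K F}
    (e : LineDiag.Iso (lineDiagOfDiv S D') (lineDiagOfDiv S D)) :
    ↥(latMod B₀ D') ≃ₗ[B₀] ↥(latMod B₀ D) := e.e0

/-- The components of an isomorphism `O(D') ≅ O(D)`, with explicit types. -/
def isoE1 (S : IsSetting K F t s B₀₁) {D D' : Divisor K F}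
    (e : LineDiag.Iso (lineDiagOfDiv S D') (lineDiagOfDiv S D)) :
    ↥(latMod B₁ D') ≃ₗ[B₁] ↥(latMod B₁ D) := e.e1

theorem isoE01_rho (S : IsSetting K F t s B₀₁) {D D' : Divisor K F}
    (e : LineDiag.Iso (lineDiagOfDiv S D') (lineDiagOfDiv S D)) (x : ↥(latMod B₀ D')) :
    isoE01 S e (rho (B₀₁ := B₀₁) D' x) = rho (B₀₁ := B₀₁) D (isoE0 S e x) := e.comm0 x

theorem isoE01_rho' (S : IsSetting K F t s B₀₁) {D D' : Divisor K F}
    (e : LineDiag.Iso (lineDiagOfDiv S D') (lineDiagOfDiv S D)) (x : ↥(latMod B₁ D')) :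
    isoE01 S e (rho (B₀₁ := B₀₁) D' x) = rho (B₀₁ := B₀₁) D (isoE1 S e x) := e.comm1 x

/-- Every isomorphism `O(D') ≅ O(D)` is multiplication by a nonzero function. -/
theorem exists_mul_of_iso (S : IsSetting K F t s B₀₁) {D D' : Divisor K F}
    (e : LineDiag.Iso (lineDiagOfDiv S D') (lineDiagOfDiv S D)) :
    ∃ g : F, g ≠ 0 ∧
      (∀ x : ↥(latMod B₀₁ D'), ((isoE01 S e x : ↥(latMod B₀₁ D)) : F) = g * (x : F)) ∧
      (∀ x : ↥(latMod B₀ D'), ((isoE0 S e x : ↥(latMod B₀ D)) : F) = g * (x : F)) ∧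
      (∀ x : ↥(latMod B₁ D'), ((isoE1 S e x : ↥(latMod B₁ D)) : F) = g * (x : F)) := by
  obtain ⟨g, hg⟩ := exists_mul_of_linearMap (F := F) (isoE01 S e).toLinearMap
  have hg' : ∀ x : ↥(latMod B₀₁ D'), ((isoE01 S e x : ↥(latMod B₀₁ D)) : F) = g * (x : F) := hg
  refine ⟨g, ?_, hg', ?_, ?_⟩
  · rintro rfl
    obtain ⟨x, hx⟩ := exists_ne_zero_mem_latMod (B := B₀₁) D'
    have h0 : isoE01 S e x = 0 := by
      apply Subtype.ext
      have := hg' x
      rw [zero_mul] at this
      exact this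
    have hx0 : x = 0 := (isoE01 S e).injective (h0.trans (map_zero _).symm)
    exact hx (by rw [hx0]; rfl)
  · intro x
    have h1 := isoE01_rho S e x
    have h2 := hg' (rho (B₀₁ := B₀₁) D' x)
    have h3 := congrArg (Subtype.val : ↥(latMod B₀₁ D) → F) h1
    exact h3.symm.trans h2
  · intro x
    have h1 := isoE01_rho' S e x
    have h2 := hg' (rho (B₀₁ := B₀₁) D' x)
    have h3 := congrArg (Subtype.val : ↥(latMod B₀₁ D) → F) h1
    exact h3.symm.trans h2

/-- **`O(D') ≅ O(D)` iff `D' = D + div g` for some `g ≠ 0`.** -/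
theorem nonempty_iso_iff (S : IsSetting K F t s B₀₁) (D D' : Divisor K F) :
    Nonempty (LineDiag.Iso (lineDiagOfDiv S D') (lineDiagOfDiv S D)) ↔
      ∃ g : F, g ≠ 0 ∧ ∀ v : Place K F, D' v = D v + v.ord g := by
  constructor
  · rintro ⟨e⟩
    obtain ⟨g, hg0, -, h0, h1⟩ := exists_mul_of_iso S e
    refine ⟨g, hg0, fun v => ?_⟩
    have hv : v ∈ chartSet (K := K) (F := F) B₀ ∪ chartSet (K := K) (F := F) B₁ := by
      rw [IsSetting_union_eq_univ S]; trivial
    rcases hv with hv | hv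
    · refine eq_add_ord_of_mul (B := B₀) hg0 (fun x => ⟨fun hx => ?_, fun hx => ?_⟩) hv
      · rw [← h0 ⟨x, hx⟩]
        exact Subtype.property _
      · have h2 := h0 ((isoE0 S e).symm ⟨g * x, hx⟩)
        rw [LinearEquiv.apply_symm_apply] at h2
        have h3 : x = (((isoE0 S e).symm ⟨g * x, hx⟩ : ↥(latMod B₀ D')) : F) :=
          mul_left_cancel₀ hg0 h2
        rw [h3]
        exact Subtype.property _
    · refine eq_add_ord_of_mul (B := B₁) hg0 (fun x => ⟨fun hx => ?_, fun hx => ?_⟩) hv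
      · rw [← h1 ⟨x, hx⟩]
        exact Subtype.property _
      · have h2 := h1 ((isoE1 S e).symm ⟨g * x, hx⟩)
        rw [LinearEquiv.apply_symm_apply] at h2
        have h3 : x = (((isoE1 S e).symm ⟨g * x, hx⟩ : ↥(latMod B₁ D')) : F) :=
          mul_left_cancel₀ hg0 h2
        rw [h3]
        exact Subtype.property _
  · rintro ⟨g, hg, h⟩
    exact ⟨isoOfMul S hg h⟩

/-- **`[O(D)] = [O(D')]` iff `D - D'` is principal.** -/
theorem cls_eq_iff_principal (S : IsSetting K F t s B₀₁) (D D' : Divisor K F) :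
    cls (lineDiagOfDiv S D) = cls (lineDiagOfDiv S D') ↔
      D - D' ∈ Divisor.principal (K := K) (F := F) := by
  rw [cls_eq_iff, nonempty_iso_iff]
  constructor
  · rintro ⟨g, hg, h⟩
    exact ⟨g, hg, fun v => by rw [Finsupp.sub_apply, h v]; ring⟩
  · rintro ⟨g, hg, h⟩
    refine ⟨g, hg, fun v => ?_⟩
    have := h v
    rw [Finsupp.sub_apply] at this
    omega

/-! ### Isomorphism criterion for a line diagram embedded in `F` -/

/-- If a line diagram `N` is embedded in `F` through `j : N.M01 → F` and the images of `N.M0`,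
`N.M1` are the lattices of `D` on the two charts, then `N ≅ O(D)`. -/
theorem nonempty_iso_of_embedding (S : IsSetting K F t s B₀₁) (N : LineDiag t s B₀₁)
    (j : N.M01 →ₗ[B₀₁] F) (hj : Function.Injective j) (D : Divisor K F)
    (h0 : ∀ f : F, f ∈ latMod B₀ D ↔ ∃ x : N.M0, j (N.rho0 x) = f)
    (h1 : ∀ f : F, f ∈ latMod B₁ D ↔ ∃ y : N.M1, j (N.rho1 y) = f) :
    Nonempty (LineDiag.Iso N (lineDiagOfDiv S D)) := by
  have ht0 : t ≠ 0 := fun h => S.tau_ne_zero (by rw [h, map_zero])
  have hs0 : s ≠ 0 := fun h => S.symm.tau_ne_zero (by rw [h, map_zero])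
  have hρ0 : Function.Injective N.rho0 := by
    rw [injective_iff_map_eq_zero]
    intro x hx
    obtain ⟨⟨_, n, rfl⟩, hc⟩ := (IsLocalizedModule.eq_zero_iff (Submonoid.powers t) N.rho0).mp hx
    exact (smul_eq_zero_iff_right (pow_ne_zero n ht0)).mp hc
  have hρ1 : Function.Injective N.rho1 := by
    rw [injective_iff_map_eq_zero]
    intro x hx
    obtain ⟨⟨_, n, rfl⟩, hc⟩ := (IsLocalizedModule.eq_zero_iff (Submonoid.powers s) N.rho1).mp hx
    exact (smul_eq_zero_iff_right (pow_ne_zero n hs0)).mp hc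
  let φ0 : N.M0 →ₗ[B₀] F := (j.restrictScalars B₀).comp N.rho0
  let φ1 : N.M1 →ₗ[B₁] F := (j.restrictScalars B₁).comp N.rho1
  have hφ0 : Function.Injective φ0 := hj.comp hρ0
  have hφ1 : Function.Injective φ1 := hj.comp hρ1
  have g0 : latMod B₀ D = LinearMap.range φ0 := by
    ext f
    rw [h0 f]
    rfl
  have g1 : latMod B₁ D = LinearMap.range φ1 := by
    ext f
    rw [h1 f]
    rfl
  have g01 : latMod B₀₁ D = LinearMap.range j := by
    apply latMod_overlap_eq S D
    · rw [g0]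
      rintro _ ⟨x, rfl⟩
      exact ⟨N.rho0 x, rfl⟩
    · rintro _ ⟨m, rfl⟩
      obtain ⟨⟨x, ⟨_, n, rfl⟩⟩, hx⟩ := IsLocalizedModule.surj (Submonoid.powers t) N.rho0 m
      refine ⟨n, ?_⟩
      rw [g0]
      refine ⟨x, ?_⟩
      show j (N.rho0 x) = algebraMap B₀ F t ^ n * j m
      rw [← hx]
      show j ((t ^ n : B₀) • m) = _
      rw [← algebraMap_smul B₀₁ (t ^ n : B₀) m, map_smul, Algebra.smul_def,
        ← IsScalarTower.algebraMap_apply B₀ B₀₁ F, map_pow]
  exact ⟨
    { e0 := (LinearEquiv.ofInjective φ0 hφ0).trans (LinearEquiv.ofEq _ _ g0.symm)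
      e1 := (LinearEquiv.ofInjective φ1 hφ1).trans (LinearEquiv.ofEq _ _ g1.symm)
      e01 := (LinearEquiv.ofInjective j hj).trans (LinearEquiv.ofEq _ _ g01.symm)
      comm0 := fun x => Subtype.ext rfl
      comm1 := fun y => Subtype.ext rfl }⟩

/-! ### The divisor class group is the group of classes of line diagrams -/

section Pic

variable [IsLocalization.Away t B₀₁] [IsLocalization.Away s B₀₁]

/-- `D ↦ [O(D)]`, additively. -/
noncomputable def clsOfDivAdd (S : IsSetting K F t s B₀₁) :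
    Divisor K F →+ Additive (LineDiag.Classes t s B₀₁) :=
  MonoidHom.toAdditiveRight (clsOfDiv S)

theorem clsOfDivAdd_apply (S : IsSetting K F t s B₀₁) (D : Divisor K F) :
    clsOfDivAdd S D = Additive.ofMul (cls (lineDiagOfDiv S D)) := rfl

theorem clsOfDivAdd_surjective (S : IsSetting K F t s B₀₁) :
    Function.Surjective (clsOfDivAdd S) := by
  intro ξ
  obtain ⟨D, hD⟩ := clsOfDiv_surjective S (Additive.toMul ξ)
  exact ⟨Multiplicative.toAdd D, congrArg Additive.ofMul hD⟩

theorem ker_clsOfDivAdd (S : IsSetting K F t s B₀₁) :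
    Divisor.principal (K := K) (F := F) = (clsOfDivAdd S).ker := by
  ext D
  rw [AddMonoidHom.mem_ker, clsOfDivAdd_apply]
  have h : Additive.ofMul (cls (lineDiagOfDiv S D)) = 0 ↔
      cls (lineDiagOfDiv S D) = cls (lineDiagOfDiv S (0 : Divisor K F)) := by
    rw [cls_lineDiagOfDiv_zero]
    exact Iff.rfl
  rw [h, cls_eq_iff_principal, sub_zero]

/-- **The divisor class group of `F/K` is the group of classes of line diagrams.** -/
noncomputable def picEquiv (S : IsSetting K F t s B₀₁) :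
    AlgebraicCurve.Pic K F ≃+ Additive (LineDiag.Classes t s B₀₁) :=
  QuotientAddGroup.liftEquiv _ (clsOfDivAdd_surjective S) (ker_clsOfDivAdd S)

@[simp] theorem picEquiv_mk (S : IsSetting K F t s B₀₁) (D : Divisor K F) :
    picEquiv S (QuotientAddGroup.mk D) = Additive.ofMul (cls (lineDiagOfDiv S D)) := rfl

/-- The degree of the class of `O(D)` is the degree of `D`. -/
theorem degClass_cls_lineDiagOfDiv [IsScalarTower K B₀ B₀₁] [IsScalarTower K B₁ B₀₁]
    (S : IsSetting K F t s B₀₁)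
    (T : TwoChart (chartSet (K := K) (F := F) B₀) (chartSet (K := K) (F := F) B₁))
    (D : Divisor K F) :
    Fermat.Agent.JAC.Core.Degree36.degClass K (cls (lineDiagOfDiv S D)) = Divisor.degree D :=
  deg_lineDiagOfDiv S T D

end Pic

end TwoCharts

end Fermat.Agent.JAC.Fibre.DiagPrin38
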