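/-
Programme JAC, work package A2 (fibre curve theory): ADDITIVITY OF THE DEGREE (`hadd` of
COORD #6): over a field, `degClass (x * y) = degClass x + degClass y` for classes of line
diagrams.  First in the abstract setting of `DiagOfDiv38`, then for the constant extension
`K ⊗[k] A_i` of CURVE data (`ConstExt37`).
-/
import Mathlib
import Fermat.Prelude.Def_AlgebraicCurve_Repartitions
import Fermat.Agent.JAC.Fibre.DiagPrin38
import Fermat.Agent.JAC.Fibre.ConstExt37
import Fermat.Agent.JAC.Core.AlgAtlas36

set_option autoImplicit false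
set_option linter.unusedSectionVars false
set_option linter.style.haveILetI false

open AlgebraicCurve IsDedekindDomain WithZero Polynomial nonZeroDivisors TensorProduct

namespace Fermat.Agent.JAC.Fibre.DegAdd38

open Fermat.Agent.JAC.Fibre.Lat38 Fermat.Agent.JAC.Fibre.Core38 Fermat.Agent.JAC.Fibre.Chart38
  Fermat.Agent.JAC.Fibre.Setting38 Fermat.Agent.JAC.Fibre.DiagOfDiv38
  Fermat.Agent.JAC.Fibre.DiagChi38 Fermat.Agent.JAC.Fibre.DiagExists38
  Fermat.Agent.JAC.Fibre.DiagOps38 Fermat.Agent.JAC.Fibre.DiagPrin38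
  Fermat.Agent.JAC.Core.Defs36 Fermat.Agent.JAC.Grp.Diag33 Fermat.Agent.JAC.Core.Degree36

universe u

/-! ### Abstract setting -/

section Abstract

variable {K : Type u} {F : Type u} [Field K] [Field F] [Algebra K F]
  {B₀ : Type u} [CommRing B₀] [IsDedekindDomain B₀] [Algebra B₀ F] [IsFractionRing B₀ F]
  [Algebra K B₀] [IsScalarTower K B₀ F]
  {B₁ : Type u} [CommRing B₁] [IsDedekindDomain B₁] [Algebra B₁ F] [IsFractionRing B₁ F]
  [Algebra K B₁] [IsScalarTower K B₁ F]
  {B₀₁ : Type u} [CommRing B₀₁] [IsDedekindDomain B₀₁] [Algebra B₀₁ F] [IsFractionRing B₀₁ F]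
  [Algebra K B₀₁] [IsScalarTower K B₀₁ F]
  [Algebra B₀ B₀₁] [Algebra B₁ B₀₁] [IsScalarTower B₀ B₀₁ F] [IsScalarTower B₁ B₀₁ F]
  [IsScalarTower K B₀ B₀₁] [IsScalarTower K B₁ B₀₁]
  {t : B₀} {s : B₁} [IsLocalization.Away t B₀₁] [IsLocalization.Away s B₀₁]

/-- Every class is the class of some `O(D)`, and its degree is the degree of `D`. -/
theorem exists_divisor_of_class (S : IsSetting K F t s B₀₁)
    (T : TwoChart (chartSet (K := K) (F := F) B₀) (chartSet (K := K) (F := F) B₁))
    (x : LineDiag.Classes t s B₀₁) :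
    ∃ D : Divisor K F, x = cls (lineDiagOfDiv S D) ∧ degClass K x = Divisor.degree D := by
  obtain ⟨D, hD⟩ := clsOfDiv_surjective S x
  refine ⟨Multiplicative.toAdd D, hD.symm, ?_⟩
  rw [← hD]
  exact degClass_cls_lineDiagOfDiv S T _

/-- **The degree is additive.** -/
theorem degClass_mul (S : IsSetting K F t s B₀₁)
    (T : TwoChart (chartSet (K := K) (F := F) B₀) (chartSet (K := K) (F := F) B₁))
    (x y : LineDiag.Classes t s B₀₁) :
    degClass K (x * y) = degClass K x + degClass K y := by
  obtain ⟨D, rfl, hD⟩ := exists_divisor_of_class S T x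
  obtain ⟨D', rfl, hD'⟩ := exists_divisor_of_class S T y
  rw [hD, hD', cls_mul_lineDiagOfDiv, degClass_cls_lineDiagOfDiv S T, map_add]

theorem degClass_one (S : IsSetting K F t s B₀₁)
    (T : TwoChart (chartSet (K := K) (F := F) B₀) (chartSet (K := K) (F := F) B₁)) :
    degClass K (1 : LineDiag.Classes t s B₀₁) = 0 := by
  rw [← cls_lineDiagOfDiv_zero S, degClass_cls_lineDiagOfDiv S T, map_zero]

theorem degClass_inv (S : IsSetting K F t s B₀₁)
    (T : TwoChart (chartSet (K := K) (F := F) B₀) (chartSet (K := K) (F := F) B₁))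
    (x : LineDiag.Classes t s B₀₁) : degClass K x⁻¹ = -degClass K x := by
  have h := degClass_mul S T x x⁻¹
  rw [mul_inv_cancel, degClass_one S T] at h
  omega

/-- The degree as a group homomorphism. -/
noncomputable def degHom (S : IsSetting K F t s B₀₁)
    (T : TwoChart (chartSet (K := K) (F := F) B₀) (chartSet (K := K) (F := F) B₁)) :
    LineDiag.Classes t s B₀₁ →* Multiplicative ℤ where
  toFun x := Multiplicative.ofAdd (degClass K x)
  map_one' := by rw [degClass_one S T]; rfl
  map_mul' x y := by rw [degClass_mul S T]; rfl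

end Abstract

/-! ### The constant extension of CURVE data -/

section ConstExt

open scoped Fermat.Agent.JAC.Core.ConstFamily36
open Fermat.Agent.JAC.Fibre.ConstExt37 Fermat.Agent.JAC.Core.AlgAtlas36

variable {k : Type u} [Field k] {A0 A1 A01 : Type u} [CommRing A0] [CommRing A1] [CommRing A01]
  [Algebra k A0] [Algebra k A1] [Algebra k A01] [Algebra A0 A01] [Algebra A1 A01]
  [IsScalarTower k A0 A01] [IsScalarTower k A1 A01] (t : A0) (s : A1)
  [IsLocalization.Away t A01] [IsLocalization.Away s A01]
  (K : Type u) [Field K] [Algebra k K]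
  [IsDedekindDomain (K ⊗[k] A0)] [IsDedekindDomain (K ⊗[k] A1)] [IsDedekindDomain (K ⊗[k] A01)]
  (hts : algebraMap A0 A01 t * algebraMap A1 A01 s = 1)
  {n0 n1 : ℕ} {a0 : Fin n0 → A0} {a1 : Fin n1 → A1}
  (ha0 : Function.Bijective (fun p : Fin n0 → k[X] => ∑ j, aeval t (p j) * a0 j))
  (ha1 : Function.Bijective (fun p : Fin n1 → k[X] => ∑ j, aeval s (p j) * a1 j))

include hts ha0 ha1 in
/-- The constant extension of CURVE data is an instance of the common setting. -/
theorem isSetting_constExt :
    haveI := isFractionRing₀ (k := k) (A01 := A01) t K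
    haveI := isFractionRing₁ (k := k) (A01 := A01) s K
    IsSetting K (FF k A01 K) ((1 : K) ⊗ₜ[k] t) ((1 : K) ⊗ₜ[k] s) (K ⊗[k] A01) :=
  haveI := isFractionRing₀ (k := k) (A01 := A01) t K
  haveI := isFractionRing₁ (k := k) (A01 := A01) s K
  ⟨inferInstance, inferInstance, hts_FF t s K hts, isIntegral_aeval K ha0, isIntegral_aeval K ha1⟩

include hts ha0 ha1 in
/-- **`hadd`**: the degree of classes of line diagrams over the constant extension `K ⊗[k] A_i`
is additive (for every field `K` over `k`). -/
theorem degClass_mul_constExt (x y : Cl k A0 A1 A01 t s K) :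
    degClass K (x * y) = degClass K x + degClass K y := by
  haveI := isFractionRing₀ (k := k) (A01 := A01) t K
  haveI := isFractionRing₁ (k := k) (A01 := A01) s K
  obtain ⟨T, -⟩ := exists_twoChart t s K hts ha0 ha1
  exact degClass_mul (isSetting_constExt t s K hts ha0 ha1) T x y

include hts ha0 ha1 in
theorem degClass_one_constExt : degClass K (1 : Cl k A0 A1 A01 t s K) = 0 := by
  haveI := isFractionRing₀ (k := k) (A01 := A01) t K
  haveI := isFractionRing₁ (k := k) (A01 := A01) s K
  obtain ⟨T, -⟩ := exists_twoChart t s K hts ha0 ha1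
  exact degClass_one (isSetting_constExt t s K hts ha0 ha1) T

include hts ha0 ha1 in
theorem degClass_inv_constExt (x : Cl k A0 A1 A01 t s K) : degClass K x⁻¹ = -degClass K x := by
  haveI := isFractionRing₀ (k := k) (A01 := A01) t K
  haveI := isFractionRing₁ (k := k) (A01 := A01) s K
  obtain ⟨T, -⟩ := exists_twoChart t s K hts ha0 ha1
  exact degClass_inv (isSetting_constExt t s K hts ha0 ha1) T x

end ConstExt

end Fermat.Agent.JAC.Fibre.DegAdd38
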