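/-
Programme JAC, S27 track, brick C5 (algebra half): in the common setting of `DiagOfDiv38`,
`Pic0 K F` is the group of classes of line diagrams of degree zero, and the `n`-torsion counts
agree.  Then the same for the constant extension `K ⊗[k] A_i` of CURVE data.
-/
import Mathlib
import Fermat.Prelude.Def_AlgebraicCurve_Repartitions
import Fermat.Agent.JAC.Fibre.DegAdd38

set_option autoImplicit false
set_option linter.unusedSectionVars false
set_option linter.style.haveILetI false

open AlgebraicCurve IsDedekindDomain WithZero Polynomial nonZeroDivisors TensorProduct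

namespace Fermat.Agent.JAC.Fibre.PicZero38

open Fermat.Agent.JAC.Fibre.Lat38 Fermat.Agent.JAC.Fibre.Core38 Fermat.Agent.JAC.Fibre.Chart38
  Fermat.Agent.JAC.Fibre.Setting38 Fermat.Agent.JAC.Fibre.DiagOfDiv38
  Fermat.Agent.JAC.Fibre.DiagChi38 Fermat.Agent.JAC.Fibre.DiagExists38
  Fermat.Agent.JAC.Fibre.DiagOps38 Fermat.Agent.JAC.Fibre.DiagPrin38
  Fermat.Agent.JAC.Fibre.DegAdd38
  Fermat.Agent.JAC.Core.Defs36 Fermat.Agent.JAC.Grp.Diag33 Fermat.Agent.JAC.Core.Degree36

universe u

/-! ### Torsion counts along an additive equivalence -/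

theorem natCard_torsion_eq_of_addEquiv {G : Type*} [AddCommGroup G] {H : Type*} [CommGroup H]
    (e : G ≃+ Additive H) (n : ℕ) :
    Nat.card ((Submodule.torsionBy ℤ G (n : ℤ)).toAddSubgroup) = Nat.card {h : H // h ^ n = 1} := by
  refine Nat.card_congr ((e.toEquiv.trans Additive.toMul).subtypeEquiv fun x => ?_)
  show x ∈ Submodule.torsionBy ℤ G (n : ℤ) ↔ (Additive.toMul (e x)) ^ n = 1
  rw [Submodule.mem_torsionBy_iff, natCast_zsmul]
  constructor
  · intro h
    have h1 : e (n • x) = 0 := by rw [h, map_zero]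
    rw [map_nsmul] at h1
    exact h1
  · intro h
    apply e.injective
    rw [map_nsmul, map_zero]
    exact h

/-! ### Abstract setting -/

section Abstract

variable {K : Type u} {F : Type u} [Field K] [Field F] [Algebra K F]
  {B₀ : Type u} [CommRing B₀] [IsDedekindDomain B₀] [Algebra B₀ F] [IsFractionRing B₀ F]
  [Algebra K B₀] [IsScalarTower K B₀ F]
  {B₁ : Type u} [CommRing B₁] [IsDedekindDomain B₁] [Algebra B₁ F] [IsFractionRing B₁ F]
  [Algebra K B₁] [IsScalarTower K B₁ F]
  {B₀₁ : Type u} [CommRing B₀₁] [IsDedekindDomain B₀₁] [Algebra B₀₁ F] [IsFractionRing B₀₁ F]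
  [Algebra K B₀₁] [IsScalarTower K B₀₁ F]
  [Algebra B₀ B₀₁] [Algebra B₁ B₀₁] [IsScalarTower B₀ B₀₁ F] [IsScalarTower B₁ B₀₁ F]
  [IsScalarTower K B₀ B₀₁] [IsScalarTower K B₁ B₀₁]
  {t : B₀} {s : B₁} [IsLocalization.Away t B₀₁] [IsLocalization.Away s B₀₁]

theorem mem_ker_degHom (S : IsSetting K F t s B₀₁)
    (T : TwoChart (chartSet (K := K) (F := F) B₀) (chartSet (K := K) (F := F) B₁))
    (x : LineDiag.Classes t s B₀₁) : x ∈ (degHom S T).ker ↔ degClass K x = 0 := by
  rw [MonoidHom.mem_ker]
  exact Iff.rfl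

/-- `D ↦ [O(D)]` on divisors of degree zero. -/
noncomputable def clsOfDegZero (S : IsSetting K F t s B₀₁)
    (T : TwoChart (chartSet (K := K) (F := F) B₀) (chartSet (K := K) (F := F) B₁)) :
    ↥(Divisor.degZero (K := K) (F := F)) →+ Additive ↥(degHom S T).ker where
  toFun D := Additive.ofMul ⟨cls (lineDiagOfDiv S D.1), by
    rw [mem_ker_degHom, degClass_cls_lineDiagOfDiv S T]
    exact D.2⟩
  map_zero' := by
    apply Additive.toMul.injective
    apply Subtype.ext
    exact cls_lineDiagOfDiv_zero S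
  map_add' D D' := by
    apply Additive.toMul.injective
    apply Subtype.ext
    exact (cls_mul_lineDiagOfDiv S D.1 D'.1).symm

theorem clsOfDegZero_coe (S : IsSetting K F t s B₀₁)
    (T : TwoChart (chartSet (K := K) (F := F) B₀) (chartSet (K := K) (F := F) B₁))
    (D : ↥(Divisor.degZero (K := K) (F := F))) :
    ((Additive.toMul (clsOfDegZero S T D) : ↥(degHom S T).ker) : LineDiag.Classes t s B₀₁) =
      cls (lineDiagOfDiv S D.1) := rfl

theorem clsOfDegZero_surjective (S : IsSetting K F t s B₀₁)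
    (T : TwoChart (chartSet (K := K) (F := F) B₀) (chartSet (K := K) (F := F) B₁)) :
    Function.Surjective (clsOfDegZero S T) := by
  intro ξ
  obtain ⟨D, hD, hdeg⟩ := exists_divisor_of_class S T (Additive.toMul ξ).1
  have h0 : degClass K (Additive.toMul ξ).1 = 0 := (mem_ker_degHom S T _).mp (Additive.toMul ξ).2
  refine ⟨⟨D, ?_⟩, ?_⟩
  · rw [Divisor.mem_degZero, ← hdeg, h0]
  · apply Additive.toMul.injective
    apply Subtype.ext
    exact hD.symm

theorem ker_clsOfDegZero (S : IsSetting K F t s B₀₁)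
    (T : TwoChart (chartSet (K := K) (F := F) B₀) (chartSet (K := K) (F := F) B₁)) :
    (Divisor.principal (K := K) (F := F)).addSubgroupOf (Divisor.degZero (K := K) (F := F)) =
      (clsOfDegZero S T).ker := by
  ext D
  rw [AddSubgroup.mem_addSubgroupOf, AddMonoidHom.mem_ker]
  have h1 : clsOfDegZero S T D = 0 ↔
      cls (lineDiagOfDiv S D.1) = cls (lineDiagOfDiv S (0 : Divisor K F)) := by
    rw [cls_lineDiagOfDiv_zero]
    constructor
    · intro h
      have := congrArg (fun x => ((Additive.toMul x : ↥(degHom S T).ker) :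
        LineDiag.Classes t s B₀₁)) h
      exact this
    · intro h
      apply Additive.toMul.injective
      apply Subtype.ext
      exact h
  rw [h1, cls_eq_iff_principal, sub_zero]

/-- **`Pic0 K F` is the group of classes of line diagrams of degree zero.** -/
noncomputable def pic0Equiv (S : IsSetting K F t s B₀₁)
    (T : TwoChart (chartSet (K := K) (F := F) B₀) (chartSet (K := K) (F := F) B₁)) :
    AlgebraicCurve.Pic0 K F ≃+ Additive ↥(degHom S T).ker :=
  QuotientAddGroup.liftEquiv _ (clsOfDegZero_surjective S T) (ker_clsOfDegZero S T)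

theorem pic0Equiv_mk (S : IsSetting K F t s B₀₁)
    (T : TwoChart (chartSet (K := K) (F := F) B₀) (chartSet (K := K) (F := F) B₁))
    (D : ↥(Divisor.degZero (K := K) (F := F))) :
    pic0Equiv S T (Pic0.mk D) = clsOfDegZero S T D := rfl

/-- **The `n`-torsion of `Pic0 K F` and of the degree-zero classes have the same cardinality.** -/
theorem natCard_torsion_eq (S : IsSetting K F t s B₀₁)
    (T : TwoChart (chartSet (K := K) (F := F) B₀) (chartSet (K := K) (F := F) B₁)) (n : ℕ) :
    Nat.card (Pic0.torsion K F n) = Nat.card {x : ↥(degHom S T).ker // x ^ n = 1} :=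
  natCard_torsion_eq_of_addEquiv (pic0Equiv S T) n

/-- `Pic0 K F` is `n`-divisible iff the group of degree-zero classes is. -/
theorem pic0_divisible_iff (S : IsSetting K F t s B₀₁)
    (T : TwoChart (chartSet (K := K) (F := F) B₀) (chartSet (K := K) (F := F) B₁)) (n : ℕ) :
    (∀ x : AlgebraicCurve.Pic0 K F, ∃ y : AlgebraicCurve.Pic0 K F, n • y = x) ↔
      ∀ x : ↥(degHom S T).ker, ∃ y : ↥(degHom S T).ker, y ^ n = x := by
  constructor
  · intro h x
    obtain ⟨y, hy⟩ := h ((pic0Equiv S T).symm (Additive.ofMul x))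
    refine ⟨Additive.toMul (pic0Equiv S T y), ?_⟩
    have := congrArg (pic0Equiv S T) hy
    rw [map_nsmul, AddEquiv.apply_symm_apply] at this
    exact this
  · intro h x
    obtain ⟨y, hy⟩ := h (Additive.toMul (pic0Equiv S T x))
    refine ⟨(pic0Equiv S T).symm (Additive.ofMul y), ?_⟩
    apply (pic0Equiv S T).injective
    rw [map_nsmul, AddEquiv.apply_symm_apply]
    exact hy

end Abstract

/-! ### The constant extension of CURVE data -/

section ConstExt

open scoped Fermat.Agent.JAC.Core.ConstFamily36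
open Fermat.Agent.JAC.Fibre.ConstExt37 Fermat.Agent.JAC.Core.AlgAtlas36

variable {k : Type u} [Field k] {A0 A1 A01 : Type u} [CommRing A0] [CommRing A1] [CommRing A01]
  [Algebra k A0] [Algebra k A1] [Algebra k A01] [Algebra A0 A01] [Algebra A1 A01]
  [IsScalarTower k A0 A01] [IsScalarTower k A1 A01] (t : A0) (s : A1)
  [IsLocalization.Away t A01] [IsLocalization.Away s A01]
  (K : Type u) [Field K] [Algebra k K]
  [IsDedekindDomain (K ⊗[k] A0)] [IsDedekindDomain (K ⊗[k] A1)] [IsDedekindDomain (K ⊗[k] A01)]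
  (hts : algebraMap A0 A01 t * algebraMap A1 A01 s = 1)
  {n0 n1 : ℕ} {a0 : Fin n0 → A0} {a1 : Fin n1 → A1}
  (ha0 : Function.Bijective (fun p : Fin n0 → k[X] => ∑ j, aeval t (p j) * a0 j))
  (ha1 : Function.Bijective (fun p : Fin n1 → k[X] => ∑ j, aeval s (p j) * a1 j))

/-- The classes of degree zero over the constant extension, as a subgroup. -/
def degZeroSubgroup
    (hmul : ∀ x y : Cl k A0 A1 A01 t s K, degClass K (x * y) = degClass K x + degClass K y)
    (hone : degClass K (1 : Cl k A0 A1 A01 t s K) = 0)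
    (hinv : ∀ x : Cl k A0 A1 A01 t s K, degClass K x⁻¹ = -degClass K x) :
    Subgroup (Cl k A0 A1 A01 t s K) where
  carrier := {x | degClass K x = 0}
  one_mem' := hone
  mul_mem' {x y} hx hy := by
    show degClass K (x * y) = 0
    rw [hmul, hx, hy, add_zero]
  inv_mem' {x} hx := by
    show degClass K x⁻¹ = 0
    rw [hinv, hx, neg_zero]

include hts ha0 ha1 in
/-- **C5 (algebra half)** for the constant extension: for any subgroup `H` of classes over
`K ⊗[k] A_i` whose elements are exactly the classes of degree zero,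
`Pic0 K (Frac (K ⊗[k] A01)) ≃+ H`. -/
theorem nonempty_pic0_addEquiv (H : Subgroup (Cl k A0 A1 A01 t s K))
    (hH : ∀ x, x ∈ H ↔ degClass K x = 0) :
    haveI := isFractionRing₀ (k := k) (A01 := A01) t K
    haveI := isFractionRing₁ (k := k) (A01 := A01) s K
    Nonempty (AlgebraicCurve.Pic0 K (FF k A01 K) ≃+ Additive ↥H) := by
  haveI := isFractionRing₀ (k := k) (A01 := A01) t K
  haveI := isFractionRing₁ (k := k) (A01 := A01) s K
  obtain ⟨T, -⟩ := exists_twoChart t s K hts ha0 ha1
  have S := isSetting_constExt t s K hts ha0 ha1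
  have hEq : H = (degHom S T).ker := by
    ext x
    rw [hH, mem_ker_degHom]
  subst hEq
  exact ⟨pic0Equiv S T⟩

include hts ha0 ha1 in
/-- **Torsion count** for the constant extension. -/
theorem natCard_torsion_constExt (H : Subgroup (Cl k A0 A1 A01 t s K))
    (hH : ∀ x, x ∈ H ↔ degClass K x = 0) (n : ℕ) :
    haveI := isFractionRing₀ (k := k) (A01 := A01) t K
    haveI := isFractionRing₁ (k := k) (A01 := A01) s K
    Nat.card (Pic0.torsion K (FF k A01 K) n) = Nat.card {x : ↥H // x ^ n = 1} := by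
  haveI := isFractionRing₀ (k := k) (A01 := A01) t K
  haveI := isFractionRing₁ (k := k) (A01 := A01) s K
  obtain ⟨e⟩ := nonempty_pic0_addEquiv t s K hts ha0 ha1 H hH
  exact natCard_torsion_eq_of_addEquiv e n

include hts ha0 ha1 in
/-- **Divisibility** for the constant extension. -/
theorem pic0_divisible_constExt (H : Subgroup (Cl k A0 A1 A01 t s K))
    (hH : ∀ x, x ∈ H ↔ degClass K x = 0) (n : ℕ)
    (hdiv : ∀ x : ↥H, ∃ y : ↥H, y ^ n = x) :
    haveI := isFractionRing₀ (k := k) (A01 := A01) t K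
    haveI := isFractionRing₁ (k := k) (A01 := A01) s K
    ∀ x : AlgebraicCurve.Pic0 K (FF k A01 K), ∃ y : AlgebraicCurve.Pic0 K (FF k A01 K), n • y = x := by
  haveI := isFractionRing₀ (k := k) (A01 := A01) t K
  haveI := isFractionRing₁ (k := k) (A01 := A01) s K
  obtain ⟨e⟩ := nonempty_pic0_addEquiv t s K hts ha0 ha1 H hH
  intro x
  obtain ⟨y, hy⟩ := hdiv (Additive.toMul (e x))
  refine ⟨e.symm (Additive.ofMul y), ?_⟩
  apply e.injective
  rw [map_nsmul, AddEquiv.apply_symm_apply]
  exact hy

end ConstExt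

end Fermat.Agent.JAC.Fibre.PicZero38
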