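/-
Programme JAC (S25), work package A2 (fibre theory), parts (F3)-(F4), helper67.

Place language (char-free, any field `K`): `F / K` a field extension, points = Prelude
`Place K F`, divisors = Prelude `Divisor K F`.  For a set `U` of places (a "chart") and a divisor
`D`, `lat U D` is the `K`-space of functions which are `D`-integral on `U`.  For two charts
`U0, U1` the Čech cohomology of `O(D)` is

  `H⁰ = lat U0 D ⊓ lat U1 D`,   `H¹ = lat (U0 ∩ U1) D / (lat U0 D + lat U1 D)`.

The structure `TwoChartHyp U0 U1` lists the primitive facts (supplied by (F0)-(F2), helper38):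
cover, finiteness of zeros and poles, finiteness of `H⁰`, `H¹`, `χ(D + P) = χ(D) + deg P`,
`h⁰(D + P) ≤ h⁰(D) + deg P`, and one divisor with `H¹ = 0`.  From these we derive, without any
duality and in any characteristic:

* `divOf` and the multiplication equivalences, `h0_add_divOf`, `h1_add_divOf`;
* `chi_eq` (Riemann's theorem `χ(D) = deg D + χ(0)`), `degree_divOf` (`deg div f = 0`);
* `h0_eq_zero_of_degree_neg`;
* `h1_add_single_le`, `h1_anti`;
* `exists_forall_h1_eq_zero` (uniform vanishing of `H¹`);
* `finite_setOf_h0_sub_single_eq` (a nonzero section vanishes at finitely many points);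
* `h0_supermod`, `h0_mono`;
* `infinite_zeros` (infinitely many places).
-/
import Mathlib
import Fermat.Prelude.Def_AlgebraicCurve_Repartitions

set_option autoImplicit false

open AlgebraicCurve WithZero

namespace Fermat.Agent.JAC.Fibre.Vanish67

variable {K F : Type*} [Field K] [Field F] [Algebra K F]

/-! ### Lattices -/

/-- Functions which are `D`-integral at every place of `U`. -/
def lat (U : Set (Place K F)) (D : Divisor K F) : Submodule K F where
  carrier := {f | ∀ v ∈ U, v.adicValuation f ≤ exp (D v)}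
  zero_mem' := by
    intro v _
    simp
  add_mem' := by
    intro f g hf hg v hv
    exact (Valuation.map_add _ _ _).trans (max_le (hf v hv) (hg v hv))
  smul_mem' := by
    intro c f hf v hv
    show v.adicValuation (c • f) ≤ exp (D v)
    rw [Algebra.smul_def, map_mul]
    exact (mul_le_of_le_one_left' (v.adicValuation_algebraMap_le_one c)).trans (hf v hv)

theorem mem_lat {U : Set (Place K F)} {D : Divisor K F} {f : F} :
    f ∈ lat U D ↔ ∀ v ∈ U, v.adicValuation f ≤ exp (D v) := Iff.rfl

theorem mem_lat_iff_ord {U : Set (Place K F)} {D : Divisor K F} {f : F} :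
    f ∈ lat U D ↔ ∀ v ∈ U, f = 0 ∨ -D v ≤ v.ord f :=
  forall₂_congr fun v _ => v.adicValuation_le_exp_iff

theorem mem_lat_iff_ord_of_ne_zero {U : Set (Place K F)} {D : Divisor K F} {f : F} (hf : f ≠ 0) :
    f ∈ lat U D ↔ ∀ v ∈ U, -D v ≤ v.ord f := by
  rw [mem_lat_iff_ord]
  exact forall₂_congr fun v _ => or_iff_right hf

theorem lat_mono {U : Set (Place K F)} {D D' : Divisor K F} (h : D ≤ D') :
    lat U D ≤ lat U D' := fun _ hf v hv =>
  (hf v hv).trans (exp_le_exp.mpr (Finsupp.le_def.mp h v))

theorem lat_anti {U U' : Set (Place K F)} (h : U ⊆ U') (D : Divisor K F) :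
    lat U' D ≤ lat U D := fun _ hf v hv => hf v (h hv)

/-- `H⁰` of `O(D)` for the cover `U0, U1`. -/
def H0 (U0 U1 : Set (Place K F)) (D : Divisor K F) : Submodule K F := lat U0 D ⊓ lat U1 D

theorem H0_eq_riemannRochSpace {U0 U1 : Set (Place K F)} (hcover : U0 ∪ U1 = Set.univ)
    (D : Divisor K F) : H0 U0 U1 D = riemannRochSpace D := by
  ext f
  constructor
  · rintro ⟨h0, h1⟩ v
    have hv : v ∈ U0 ∪ U1 := by rw [hcover]; trivial
    rcases hv with hv | hv
    · exact h0 v hv
    · exact h1 v hv
  · intro hf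
    exact ⟨fun v _ => hf v, fun v _ => hf v⟩

theorem H0_mono {U0 U1 : Set (Place K F)} {D D' : Divisor K F} (h : D ≤ D') :
    H0 U0 U1 D ≤ H0 U0 U1 D' := inf_le_inf (lat_mono h) (lat_mono h)

/-- The coboundaries inside `lat (U0 ∩ U1) D`. -/
def B1 (U0 U1 : Set (Place K F)) (D : Divisor K F) : Submodule K ↥(lat (U0 ∩ U1) D) :=
  (lat U0 D ⊔ lat U1 D).comap (lat (U0 ∩ U1) D).subtype

/-- `H¹` of `O(D)` for the cover `U0, U1`. -/
abbrev H1 (U0 U1 : Set (Place K F)) (D : Divisor K F) : Type _ :=
  ↥(lat (U0 ∩ U1) D) ⧸ B1 U0 U1 D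

/-- `h⁰`. -/
noncomputable def h0 (U0 U1 : Set (Place K F)) (D : Divisor K F) : ℕ :=
  Module.finrank K (H0 U0 U1 D)

/-- `h¹`. -/
noncomputable def h1 (U0 U1 : Set (Place K F)) (D : Divisor K F) : ℕ :=
  Module.finrank K (H1 U0 U1 D)

/-- The Euler characteristic. -/
noncomputable def chi (U0 U1 : Set (Place K F)) (D : Divisor K F) : ℤ :=
  (h0 U0 U1 D : ℤ) - (h1 U0 U1 D : ℤ)

/-- The primitive facts about a two-chart curve over a field, in place language. -/
structure TwoChartHyp (U0 U1 : Set (Place K F)) : Prop where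
  cover : U0 ∪ U1 = Set.univ
  fin_ord : ∀ f : F, f ≠ 0 → {v : Place K F | v.ord f ≠ 0}.Finite
  fin0 : ∀ D : Divisor K F, Module.Finite K (H0 U0 U1 D)
  fin1 : ∀ D : Divisor K F, Module.Finite K (H1 U0 U1 D)
  chi_add : ∀ (D : Divisor K F) (v : Place K F),
    chi U0 U1 (D + Finsupp.single v 1) = chi U0 U1 D + v.deg
  h0_add_le : ∀ (D : Divisor K F) (v : Place K F),
    h0 U0 U1 (D + Finsupp.single v 1) ≤ h0 U0 U1 D + v.deg
  exists_van : ∃ D0 : Divisor K F, h1 U0 U1 D0 = 0

/-! ### Generalities on linear algebra -/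

/-- Transport of a subquotient along a linear equivalence. -/
noncomputable def quotComapMapEquiv {V : Type*} [AddCommGroup V] [Module K V] (e : V ≃ₗ[K] V)
    (M A : Submodule K V) :
    (↥M ⧸ A.comap M.subtype) ≃ₗ[K]
      (↥(M.map e.toLinearMap) ⧸
        (A.map e.toLinearMap).comap (M.map e.toLinearMap).subtype) :=
  Submodule.Quotient.equiv _ _ (e.submoduleMap M) (by
    ext ⟨y, hy⟩
    constructor
    · rintro ⟨⟨m, hm⟩, hmA, hme⟩
      have hmA' : m ∈ A := hmA
      have : e m = y := congrArg Subtype.val hme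
      exact ⟨m, hmA', this⟩
    · rintro ⟨a, haA, hay⟩
      obtain ⟨m, hmM, hmy⟩ := hy
      have hma : m = a := e.injective (hmy.trans hay.symm)
      subst hma
      exact ⟨⟨m, hmM⟩, haA, Subtype.ext hmy⟩)

/-- Multiplication by a nonzero element as a `K`-linear automorphism of `F`. -/
noncomputable def mulEquiv (f : F) (hf : f ≠ 0) : F ≃ₗ[K] F where
  toFun g := g * f
  invFun g := g * f⁻¹
  map_add' := fun a b => add_mul a b f
  map_smul' := fun c a => by simp [Algebra.smul_def, mul_assoc]
  left_inv := fun a => by simp [mul_assoc, mul_inv_cancel₀ hf]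
  right_inv := fun a => by simp [mul_assoc, inv_mul_cancel₀ hf]

@[simp] theorem mulEquiv_apply (f : F) (hf : f ≠ 0) (g : F) : mulEquiv (K := K) f hf g = g * f := rfl

section Principal

variable {U0 U1 : Set (Place K F)} (H : TwoChartHyp U0 U1)

/-- The principal divisor of a nonzero function. -/
noncomputable def divOf {f : F} (hf : f ≠ 0) : Divisor K F :=
  Finsupp.ofSupportFinite (fun v => v.ord f) (H.fin_ord f hf)

@[simp] theorem divOf_apply {f : F} (hf : f ≠ 0) (v : Place K F) : divOf H hf v = v.ord f := rfl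

theorem mem_lat_add_divOf {U : Set (Place K F)} (D : Divisor K F) {f : F} (hf : f ≠ 0) (g : F) :
    g ∈ lat U (D + divOf H hf) ↔ g * f ∈ lat U D := by
  rcases eq_or_ne g 0 with rfl | hg
  · simp
  · rw [mem_lat_iff_ord_of_ne_zero hg, mem_lat_iff_ord_of_ne_zero (mul_ne_zero hg hf)]
    refine forall₂_congr fun v _ => ?_
    rw [v.ord_mul hg hf, Finsupp.add_apply, divOf_apply]
    constructor <;> intro h <;> linarith

theorem lat_add_divOf_map {U : Set (Place K F)} (D : Divisor K F) {f : F} (hf : f ≠ 0) :
    (lat U (D + divOf H hf)).map (mulEquiv (K := K) f hf).toLinearMap = lat U D := by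
  ext x
  constructor
  · rintro ⟨g, hg, rfl⟩
    exact (mem_lat_add_divOf H D hf g).mp hg
  · intro hx
    refine ⟨x * f⁻¹, (mem_lat_add_divOf H D hf _).mpr ?_, ?_⟩
    · rwa [mul_assoc, inv_mul_cancel₀ hf, mul_one]
    · simp [mul_assoc, inv_mul_cancel₀ hf]

theorem h0_add_divOf (D : Divisor K F) {f : F} (hf : f ≠ 0) :
    h0 U0 U1 (D + divOf H hf) = h0 U0 U1 D := by
  unfold h0
  have hmap : (H0 U0 U1 (D + divOf H hf)).map (mulEquiv (K := K) f hf).toLinearMap
      = H0 U0 U1 D := by
    unfold H0
    rw [Submodule.map_inf _ (mulEquiv (K := K) f hf).injective, lat_add_divOf_map,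
      lat_add_divOf_map]
  rw [← hmap]
  exact ((mulEquiv (K := K) f hf).submoduleMap _).finrank_eq

theorem h1_add_divOf (D : Divisor K F) {f : F} (hf : f ≠ 0) :
    h1 U0 U1 (D + divOf H hf) = h1 U0 U1 D := by
  unfold h1 H1 B1
  have e := quotComapMapEquiv (mulEquiv (K := K) f hf) (lat (U0 ∩ U1) (D + divOf H hf))
    (lat U0 (D + divOf H hf) ⊔ lat U1 (D + divOf H hf))
  rw [Submodule.map_sup, lat_add_divOf_map, lat_add_divOf_map, lat_add_divOf_map] at e
  exact e.finrank_eq

theorem chi_add_divOf (D : Divisor K F) {f : F} (hf : f ≠ 0) :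
    chi U0 U1 (D + divOf H hf) = chi U0 U1 D := by
  unfold chi
  rw [h0_add_divOf, h1_add_divOf]

end Principal

section Riemann

variable {U0 U1 : Set (Place K F)} (H : TwoChartHyp U0 U1)
include H

theorem chi_add_single_nat (D : Divisor K F) (v : Place K F) (n : ℕ) :
    chi U0 U1 (D + Finsupp.single v (n : ℤ)) = chi U0 U1 D + n * v.deg := by
  induction n with
  | zero => simp
  | succ n ih =>
    have : D + Finsupp.single v ((n + 1 : ℕ) : ℤ)
        = (D + Finsupp.single v (n : ℤ)) + Finsupp.single v 1 := by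
      rw [add_assoc, ← Finsupp.single_add]; push_cast; rfl
    rw [this, H.chi_add, ih]
    push_cast
    ring

theorem chi_add_single (D : Divisor K F) (v : Place K F) (n : ℤ) :
    chi U0 U1 (D + Finsupp.single v n) = chi U0 U1 D + n * v.deg := by
  rcases Int.eq_nat_or_neg n with ⟨m, rfl | rfl⟩
  · exact chi_add_single_nat H D v m
  · have h := chi_add_single_nat H (D + Finsupp.single v (-(m : ℤ))) v m
    rw [add_assoc, ← Finsupp.single_add, neg_add_cancel, Finsupp.single_zero, add_zero] at h
    rw [h]
    ring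

/-- **Riemann's theorem**: `χ(E + D) = χ(E) + deg D`. -/
theorem chi_add_eq (E D : Divisor K F) :
    chi U0 U1 (E + D) = chi U0 U1 E + Divisor.degree D := by
  induction D using Finsupp.induction generalizing E with
  | zero => simp
  | single_add v n D _ _ ih =>
    have : E + (Finsupp.single v n + D) = (E + D) + Finsupp.single v n := by abel
    rw [this, chi_add_single H, ih, map_add, Divisor.degree_single]
    ring

/-- **Riemann's theorem**: `χ(D) = deg D + χ(0)`. -/
theorem chi_eq (D : Divisor K F) :
    chi U0 U1 D = Divisor.degree D + chi U0 U1 0 := by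
  have := chi_add_eq H 0 D
  rw [zero_add] at this
  rw [this]; ring

/-- Principal divisors have degree `0` (no fundamental identity needed). -/
theorem degree_divOf {f : F} (hf : f ≠ 0) : Divisor.degree (divOf H hf) = 0 := by
  have h1 := chi_add_divOf H 0 hf
  have h2 := chi_add_eq H 0 (divOf H hf)
  rw [h1] at h2
  linarith

end Riemann

section Vanishing

variable {U0 U1 : Set (Place K F)} (H : TwoChartHyp U0 U1)

/-- The degree of an effective divisor is nonnegative. -/
theorem degree_nonneg_of_nonneg {D : Divisor K F} (hD : 0 ≤ D) : 0 ≤ Divisor.degree D := by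
  rw [Divisor.degree, Finsupp.liftAddHom_apply, Finsupp.sum]
  refine Finset.sum_nonneg fun v _ => ?_
  have h0 : (0 : ℤ) ≤ D v := by simpa using Finsupp.le_def.mp hD v
  simp only [AddMonoidHom.coe_mulRight]
  positivity

include H

/-- A nonzero element of `H⁰(D)` makes `D + div f` effective. -/
theorem nonneg_add_divOf_of_mem {D : Divisor K F} {f : F} (hf : f ≠ 0)
    (hfD : f ∈ H0 U0 U1 D) : 0 ≤ D + divOf H hf := by
  rw [H0_eq_riemannRochSpace H.cover, mem_riemannRochSpace_iff] at hfD
  rw [Finsupp.le_def]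
  intro v
  have := (hfD v).resolve_left hf
  simp only [Finsupp.coe_zero, Pi.zero_apply, Finsupp.add_apply, divOf_apply]
  linarith

/-- `H⁰(D) = 0` if `deg D < 0`. -/
theorem H0_eq_bot_of_degree_neg {D : Divisor K F} (hD : Divisor.degree D < 0) :
    H0 U0 U1 D = ⊥ := by
  rw [eq_bot_iff]
  intro f hf
  rw [Submodule.mem_bot]
  by_contra hf0
  have h1 := degree_nonneg_of_nonneg (nonneg_add_divOf_of_mem H hf0 hf)
  rw [map_add, degree_divOf H hf0, add_zero] at h1
  exact absurd hD (not_lt.mpr h1)

theorem h0_eq_zero_of_degree_neg {D : Divisor K F} (hD : Divisor.degree D < 0) :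
    h0 U0 U1 D = 0 := by
  unfold h0
  rw [H0_eq_bot_of_degree_neg H hD]
  exact finrank_bot K F

/-- `h¹(D + P) ≤ h¹(D)`. -/
theorem h1_add_single_le (D : Divisor K F) (v : Place K F) :
    h1 U0 U1 (D + Finsupp.single v 1) ≤ h1 U0 U1 D := by
  have h1 := H.chi_add D v
  have h2 := H.h0_add_le D v
  unfold chi at h1
  omega

theorem h1_add_single_nat_le (D : Divisor K F) (v : Place K F) (n : ℕ) :
    h1 U0 U1 (D + Finsupp.single v (n : ℤ)) ≤ h1 U0 U1 D := by
  induction n with
  | zero => simp
  | succ n ih =>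
    have : D + Finsupp.single v ((n + 1 : ℕ) : ℤ)
        = (D + Finsupp.single v (n : ℤ)) + Finsupp.single v 1 := by
      rw [add_assoc, ← Finsupp.single_add]; push_cast; rfl
    rw [this]
    exact (h1_add_single_le H _ v).trans ih

/-- `h¹(D + E) ≤ h¹(D)` for effective `E`. -/
theorem h1_add_le_of_nonneg (D : Divisor K F) {E : Divisor K F} (hE : 0 ≤ E) :
    h1 U0 U1 (D + E) ≤ h1 U0 U1 D := by
  classical
  induction E using Finsupp.induction generalizing D with
  | zero => simp
  | single_add v n E hv _ ih =>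
    have hEv : E v = 0 := by simpa using hv
    have hn : 0 ≤ n := by
      have := Finsupp.le_def.mp hE v
      simpa [hEv] using this
    have hE' : 0 ≤ E := by
      rw [Finsupp.le_def]
      intro w
      have := Finsupp.le_def.mp hE w
      by_cases hw : w = v
      · subst hw; simp [hEv]
      · simpa [Finsupp.single_apply, Ne.symm hw] using this
    obtain ⟨m, rfl⟩ := Int.eq_ofNat_of_zero_le hn
    have : D + (Finsupp.single v (m : ℤ) + E) = (D + E) + Finsupp.single v (m : ℤ) := by abel
    rw [this]
    exact (h1_add_single_nat_le H _ v m).trans (ih D hE')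

/-- `h¹` is antitone. -/
theorem h1_anti {D D' : Divisor K F} (h : D ≤ D') : h1 U0 U1 D' ≤ h1 U0 U1 D := by
  have : D' = D + (D' - D) := by abel
  rw [this]
  exact h1_add_le_of_nonneg H D (sub_nonneg.mpr h)

/-- If `χ(D) > 0` there is a nonzero section. -/
theorem exists_ne_zero_mem_H0 {D : Divisor K F} (hD : 0 < chi U0 U1 D) :
    ∃ f : F, f ≠ 0 ∧ f ∈ H0 U0 U1 D := by
  have hpos : 0 < h0 U0 U1 D := by
    unfold chi at hD
    omega
  have := H.fin0 D
  unfold h0 at hpos
  obtain ⟨⟨f, hf⟩, hne⟩ := Module.finrank_pos_iff_exists_ne_zero.mp hpos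
  exact ⟨f, fun h => hne (Subtype.ext h), hf⟩

/-- **Uniform vanishing of `H¹`**: if `h¹(D₀) = 0` then `h¹(D) = 0` for every divisor of degree
at least `deg D₀ + 1 - χ(0)`. -/
theorem h1_eq_zero_of_le_degree {D0 : Divisor K F} (h0' : h1 U0 U1 D0 = 0) {D : Divisor K F}
    (hD : Divisor.degree D0 + 1 - chi U0 U1 0 ≤ Divisor.degree D) : h1 U0 U1 D = 0 := by
  have hchi : 0 < chi U0 U1 (D - D0) := by
    rw [chi_eq H, map_sub]
    linarith
  obtain ⟨f, hf0, hf⟩ := exists_ne_zero_mem_H0 H hchi
  have hE := nonneg_add_divOf_of_mem H hf0 hf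
  have : D + divOf H hf0 = D0 + (D - D0 + divOf H hf0) := by abel
  have h2 := h1_add_le_of_nonneg H D0 hE
  rw [← this, h1_add_divOf, h0'] at h2
  exact Nat.le_zero.mp h2

/-- **Uniform vanishing of `H¹`**. -/
theorem exists_forall_h1_eq_zero :
    ∃ d0 : ℤ, ∀ D : Divisor K F, d0 ≤ Divisor.degree D → h1 U0 U1 D = 0 := by
  obtain ⟨D0, hD0⟩ := H.exists_van
  exact ⟨Divisor.degree D0 + 1 - chi U0 U1 0, fun D hD => h1_eq_zero_of_le_degree H hD0 hD⟩

end Vanishing

section Sections

theorem le_add_single (D : Divisor K F) (v : Place K F) : D ≤ D + Finsupp.single v 1 := by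
  rw [Finsupp.le_def]
  intro w
  simp only [Finsupp.add_apply, le_add_iff_nonneg_right]
  by_cases hw : v = w
  · subst hw; simp
  · simp [hw]

variable {U0 U1 : Set (Place K F)} (H : TwoChartHyp U0 U1)
include H

/-- `h⁰` is monotone. -/
theorem h0_mono {D D' : Divisor K F} (h : D ≤ D') : h0 U0 U1 D ≤ h0 U0 U1 D' := by
  have := H.fin0 D'
  exact Submodule.finrank_mono (H0_mono h)

theorem h0_le_add_single (D : Divisor K F) (v : Place K F) :
    h0 U0 U1 D ≤ h0 U0 U1 (D + Finsupp.single v 1) :=
  h0_mono H (le_add_single D v)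

/-- If `h⁰(D - P) = h⁰(D)` then every section of `O(D)` vanishes at `P`. -/
theorem H0_sub_single_eq_of_h0_eq {D : Divisor K F} {v : Place K F}
    (h : h0 U0 U1 (D - Finsupp.single v 1) = h0 U0 U1 D) :
    H0 U0 U1 (D - Finsupp.single v 1) = H0 U0 U1 D := by
  have hle : D - Finsupp.single v 1 ≤ D := by
    have := le_add_single (D - Finsupp.single v 1) v
    rwa [sub_add_cancel] at this
  have := H.fin0 D
  exact Submodule.eq_of_le_of_finrank_eq (H0_mono hle) h

/-- **A nonzero section vanishes at finitely many points**: if `h⁰(D) > 0`, only finitely many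
points are base points of `O(D)`. -/
theorem finite_setOf_h0_sub_single_eq {D : Divisor K F} (hD : 0 < h0 U0 U1 D) :
    {v : Place K F | h0 U0 U1 (D - Finsupp.single v 1) = h0 U0 U1 D}.Finite := by
  have := H.fin0 D
  unfold h0 at hD
  obtain ⟨⟨f, hf⟩, hne⟩ := Module.finrank_pos_iff_exists_ne_zero.mp hD
  have hf0 : f ≠ 0 := fun h => hne (Subtype.ext h)
  refine (D + divOf H hf0).support.finite_toSet.subset ?_
  intro v hv
  have heq := H0_sub_single_eq_of_h0_eq H hv
  rw [← heq, H0_eq_riemannRochSpace H.cover, mem_riemannRochSpace_iff] at hf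
  have h1 := (hf v).resolve_left hf0
  rw [Finsupp.sub_apply, Finsupp.single_eq_same] at h1
  rw [Finset.mem_coe, Finsupp.mem_support_iff, Finsupp.add_apply, divOf_apply]
  omega

/-- `H⁰(D+P) ∩ H⁰(D+Q) = H⁰(D)` for `P ≠ Q`. -/
theorem H0_inf_eq {D : Divisor K F} {v w : Place K F} (hvw : v ≠ w) :
    H0 U0 U1 (D + Finsupp.single v 1) ⊓ H0 U0 U1 (D + Finsupp.single w 1) = H0 U0 U1 D := by
  apply le_antisymm
  · intro f ⟨hfv, hfw⟩
    rw [H0_eq_riemannRochSpace H.cover] at hfv hfw ⊢
    intro u
    by_cases hu : u = v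
    · subst hu
      have := hfw u
      simpa [Finsupp.single_apply, Ne.symm hvw] using this
    · have := hfv u
      simpa [Finsupp.single_apply, Ne.symm hu] using this
  · exact le_inf (H0_mono (le_add_single D v)) (H0_mono (le_add_single D w))

/-- Supermodularity of `h⁰`. -/
theorem h0_supermod (D : Divisor K F) {v w : Place K F} (hvw : v ≠ w) :
    h0 U0 U1 (D + Finsupp.single v 1) + h0 U0 U1 (D + Finsupp.single w 1) ≤
      h0 U0 U1 (D + Finsupp.single v 1 + Finsupp.single w 1) + h0 U0 U1 D := by
  have := H.fin0 (D + Finsupp.single v 1)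
  have := H.fin0 (D + Finsupp.single w 1)
  have := H.fin0 (D + Finsupp.single v 1 + Finsupp.single w 1)
  have h1 := Submodule.finrank_sup_add_finrank_inf_eq (H0 U0 U1 (D + Finsupp.single v 1))
    (H0 U0 U1 (D + Finsupp.single w 1))
  rw [H0_inf_eq H hvw] at h1
  have h2 : H0 U0 U1 (D + Finsupp.single v 1) ⊔ H0 U0 U1 (D + Finsupp.single w 1) ≤
      H0 U0 U1 (D + Finsupp.single v 1 + Finsupp.single w 1) := by
    refine sup_le (H0_mono (le_add_single _ w)) (H0_mono ?_)
    have : D + Finsupp.single v 1 + Finsupp.single w 1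
        = D + Finsupp.single w 1 + Finsupp.single v 1 := by abel
    rw [this]
    exact le_add_single _ v
  have h3 := Submodule.finrank_mono h2
  unfold h0
  omega

end Sections

section Points

/-- The ring of functions without poles. -/
def regularFunctions (K F : Type*) [Field K] [Field F] [Algebra K F] : Subalgebra K F where
  carrier := {g | ∀ v : Place K F, v.adicValuation g ≤ 1}
  mul_mem' := by
    intro a b ha hb v
    rw [map_mul]
    exact mul_le_one' (ha v) (hb v)
  one_mem' := by intro v; simp
  add_mem' := by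
    intro a b ha hb v
    exact (Valuation.map_add _ _ _).trans (max_le (ha v) (hb v))
  zero_mem' := by intro v; simp
  algebraMap_mem' := fun c v => v.adicValuation_algebraMap_le_one c

theorem toSubmodule_regularFunctions :
    Subalgebra.toSubmodule (regularFunctions K F) = riemannRochSpace (0 : Divisor K F) := by
  ext g
  show (∀ v : Place K F, v.adicValuation g ≤ 1) ↔ ∀ v : Place K F, v.adicValuation g ≤ exp _
  simp

theorem adicValuation_algebraMap_eq_one (v : Place K F) {c : K} (hc : c ≠ 0) :
    v.adicValuation (algebraMap K F c) = 1 := by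
  apply le_antisymm (v.adicValuation_algebraMap_le_one c)
  have h1 := v.adicValuation_algebraMap_le_one c⁻¹
  have h2 : v.adicValuation (algebraMap K F c) * v.adicValuation (algebraMap K F c⁻¹) = 1 := by
    rw [← map_mul, ← map_mul, mul_inv_cancel₀ hc, map_one, map_one]
  calc (1 : ℤᵐ⁰) = v.adicValuation (algebraMap K F c) * v.adicValuation (algebraMap K F c⁻¹) :=
        h2.symm
    _ ≤ v.adicValuation (algebraMap K F c) * 1 := by gcongr
    _ = v.adicValuation (algebraMap K F c) := mul_one _

/-- An effective divisor of degree `0` is zero (all points have positive degree). -/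
theorem eq_zero_of_nonneg_of_degree_eq_zero (hdeg : ∀ v : Place K F, 0 < v.deg)
    {D : Divisor K F} (hD : 0 ≤ D) (h0 : Divisor.degree D = 0) : D = 0 := by
  rw [Divisor.degree, Finsupp.liftAddHom_apply, Finsupp.sum] at h0
  have hterm : ∀ v ∈ D.support, (0 : ℤ) ≤ (AddMonoidHom.mulRight (v.deg : ℤ)) (D v) := by
    intro v _
    have : (0 : ℤ) ≤ D v := by simpa using Finsupp.le_def.mp hD v
    simp only [AddMonoidHom.coe_mulRight]
    positivity
  have hz := (Finset.sum_eq_zero_iff_of_nonneg hterm).mp h0
  ext v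
  by_cases hv : v ∈ D.support
  · have := hz v hv
    simp only [AddMonoidHom.coe_mulRight] at this
    have hpos : (0 : ℤ) < v.deg := by exact_mod_cast hdeg v
    rcases mul_eq_zero.mp this with h | h
    · simpa using h
    · omega
  · simpa using hv

variable {U0 U1 : Set (Place K F)} (H : TwoChartHyp U0 U1)
include H

/-- A nonzero function without zeros is algebraic over `K`. -/
theorem isAlgebraic_of_forall_ord_le (hdeg : ∀ v : Place K F, 0 < v.deg) {f : F} (hf : f ≠ 0)
    (hz : ∀ v : Place K F, v.ord f ≤ 0) : IsAlgebraic K f := by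
  have hE : 0 ≤ -divOf H hf := by
    rw [Finsupp.le_def]
    intro v
    simpa using hz v
  have hdiv : divOf H hf = 0 := by
    have := eq_zero_of_nonneg_of_degree_eq_zero hdeg hE (by rw [map_neg, degree_divOf, neg_zero])
    simpa using this
  have hmem : f ∈ regularFunctions K F := by
    intro v
    rw [v.adicValuation_le_one_iff]
    right
    have := DFunLike.congr_fun hdiv v
    simp only [divOf_apply, Finsupp.coe_zero, Pi.zero_apply] at this
    omega
  have hfg : (Subalgebra.toSubmodule (regularFunctions K F)).FG := by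
    rw [toSubmodule_regularFunctions, ← H0_eq_riemannRochSpace H.cover]
    exact Module.Finite.iff_fg.mp (H.fin0 0)
  exact (IsIntegral.of_mem_of_fg _ hfg f hmem).isAlgebraic

/-- **Infinitely many points**: for transcendental `t`, the zeros of `t - c`, `c` running through
an infinite subset of `K`, form an infinite set of places. -/
theorem infinite_setOf_exists_zero (hdeg : ∀ v : Place K F, 0 < v.deg) {t : F}
    (ht : Transcendental K t) {C : Set K} (hC : C.Infinite) :
    {v : Place K F | ∃ c ∈ C, 0 < v.ord (t - algebraMap K F c)}.Infinite := by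
  have hne : ∀ c : K, t - algebraMap K F c ≠ 0 := by
    intro c h
    apply ht
    rw [sub_eq_zero] at h
    rw [h]
    exact isAlgebraic_algebraMap c
  have hex : ∀ c : K, ∃ v : Place K F, 0 < v.ord (t - algebraMap K F c) := by
    intro c
    by_contra hcon
    push Not at hcon
    have halg := isAlgebraic_of_forall_ord_le H hdeg (hne c) hcon
    apply ht
    have : t = (t - algebraMap K F c) + algebraMap K F c := by ring
    rw [this]
    exact halg.add (isAlgebraic_algebraMap c)
  choose z hz using hex
  have hinj : Function.Injective z := by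
    intro c c' hcc
    by_contra hne'
    have h1 := hz c
    have h2 := hz c'
    rw [← hcc] at h2
    set v := z c
    have hv1 : v.adicValuation (t - algebraMap K F c) < 1 := by
      rw [v.adicValuation_eq_exp_neg_ord (hne c), ← exp_zero, exp_lt_exp]
      omega
    have hv2 : v.adicValuation (t - algebraMap K F c') < 1 := by
      rw [v.adicValuation_eq_exp_neg_ord (hne c'), ← exp_zero, exp_lt_exp]
      omega
    have hsub : algebraMap K F (c' - c) = (t - algebraMap K F c) - (t - algebraMap K F c') := by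
      rw [map_sub]; ring
    have hlt : v.adicValuation (algebraMap K F (c' - c)) < 1 := by
      rw [hsub]
      exact (Valuation.map_sub _ _ _).trans_lt (max_lt hv1 hv2)
    rw [adicValuation_algebraMap_eq_one v (sub_ne_zero.mpr (Ne.symm hne'))] at hlt
    exact lt_irrefl _ hlt
  have himg : z '' C ⊆ {v : Place K F | ∃ c ∈ C, 0 < v.ord (t - algebraMap K F c)} := by
    rintro _ ⟨c, hc, rfl⟩
    exact ⟨c, hc, hz c⟩
  exact (hC.image hinj.injOn).mono himg

end Points

end Fermat.Agent.JAC.Fibre.Vanish67
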