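/-
Programme JAC (S25), work package A5.2 (helper67): the cohomology numbers of the twists `O(D₀ + D)`
of a two-chart curve over a field all of whose points have degree one (e.g. an algebraically closed
field) satisfy the six axioms `IsCurveLike` of helper98's abstract covering theorem
(`Fermat.Agent.JAC.Cover.AbsCover98`), so `exists_cover`, `exists_cover_divisor`, `finite_jump`
apply verbatim with `Pt := Place K F`.
-/
import Mathlib
import Fermat.Agent.JAC.Fibre.Vanish67
import Fermat.Agent.JAC.Cover.AbsCover98

set_option autoImplicit false

open AlgebraicCurve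

namespace Fermat.Agent.JAC.Fibre.CurveLike67

open Fermat.Agent.JAC.Fibre.Vanish67 Fermat.Agent.JAC.Cover.AbsCover98

variable {K F : Type*} [Field K] [Field F] [Algebra K F]

/-- When all points have degree one, the Prelude degree is the sum of the coefficients. -/
theorem degree_eq_deg (hdeg : ∀ v : Place K F, v.deg = 1) (D : Divisor K F) :
    Divisor.degree D = deg D := by
  induction D using Finsupp.induction_linear with
  | zero => simp
  | add D D' h h' => rw [map_add, map_add, h, h']
  | single v n => rw [Divisor.degree_single, deg_single, hdeg v]; simp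

/-- The cohomology numbers of the twists of `O(D₀)`. -/
noncomputable def cohData (U0 U1 : Set (Place K F)) (D0 : Divisor K F) : CohData (Place K F) where
  H0 D := h0 U0 U1 (D0 + D)
  H1 D := h1 U0 U1 (D0 + D)

@[simp] theorem cohData_H0 (U0 U1 : Set (Place K F)) (D0 D : Divisor K F) :
    (cohData U0 U1 D0).H0 D = h0 U0 U1 (D0 + D) := rfl

@[simp] theorem cohData_H1 (U0 U1 : Set (Place K F)) (D0 D : Divisor K F) :
    (cohData U0 U1 D0).H1 D = h1 U0 U1 (D0 + D) := rfl

/-- **A5.2**: the six curve-like axioms. -/
theorem isCurveLike {U0 U1 : Set (Place K F)} (H : TwoChartHyp U0 U1)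
    (hdeg : ∀ v : Place K F, v.deg = 1) (D0 : Divisor K F) :
    (cohData U0 U1 D0).IsCurveLike where
  chi D P := by
    have h := H.chi_add (D0 + D) P
    rw [hdeg P] at h
    simp only [cohData_H0, cohData_H1, ← add_assoc]
    unfold chi at h
    push_cast at h
    linarith
  mono0 D P := by
    simp only [cohData_H0, ← add_assoc]
    exact h0_le_add_single H _ P
  mono1 D P := by
    simp only [cohData_H1, ← add_assoc]
    exact h1_add_single_le H _ P
  supermod D P Q hPQ := by
    simp only [cohData_H0, ← add_assoc]
    exact h0_supermod H _ hPQ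
  van := by
    obtain ⟨d0, hd0⟩ := exists_forall_h1_eq_zero H
    refine ⟨d0 - Divisor.degree D0, fun D hD => ?_⟩
    simp only [cohData_H1]
    apply hd0
    rw [map_add, degree_eq_deg hdeg D]
    linarith
  fin D hD := by
    simp only [cohData_H0] at hD ⊢
    have := finite_setOf_h0_sub_single_eq H hD
    simpa only [add_sub_assoc] using this

end Fermat.Agent.JAC.Fibre.CurveLike67
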