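/-
Programme JAC (S25), work package A5.2' (helper67): the curve-like axioms of helper98's abstract
covering theorem for a family of DEGREE-ONE places.

`AlgAtlas.covers` quantifies over all fields `K` over the algebraically closed ground field `k`;
over such a `K` the places of the function field of the curve `C_K` do not all have degree one, but
the `k`-rational points of `C` do.  So we index divisors by an arbitrary type `Pt` with an injection
`p : Pt → Place K F` into places of degree one, and put
`H⁰ D = h⁰(D₀ + p_* D)`, `H¹ D = h¹(D₀ + p_* D)`.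

* `isCurveLike`      : the six axioms `AbsCover98.CohData.IsCurveLike`.
* `exists_translate` : the covering theorem in this language (lists of points).
* `exists_translate_fin` : the same with tuples `Fin r → Pt`.
* `ord_eq_neg_of_h0_sub_single_eq_zero`, `h0_sub_single_eq_zero_of_ord_eq` : `h⁰(D - P) = 0`
  means that a nonzero section of `O(D)` does not vanish at `P`.
-/
import Mathlib
import Fermat.Agent.JAC.Fibre.Vanish67
import Fermat.Agent.JAC.Fibre.CurveLike67
import Fermat.Agent.JAC.Cover.AbsCover98

set_option autoImplicit false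

open AlgebraicCurve

namespace Fermat.Agent.JAC.Fibre.CurveLikeSub67

open Fermat.Agent.JAC.Fibre.Vanish67 Fermat.Agent.JAC.Cover.AbsCover98

variable {K F : Type*} [Field K] [Field F] [Algebra K F] {Pt : Type*}

/-- Push-forward of divisors along a family of places. -/
noncomputable def pushDiv (p : Pt → Place K F) : (Pt →₀ ℤ) →+ Divisor K F :=
  Finsupp.mapDomain.addMonoidHom p

@[simp] theorem pushDiv_single (p : Pt → Place K F) (P : Pt) (n : ℤ) :
    pushDiv p (Finsupp.single P n) = Finsupp.single (p P) n := by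
  simp [pushDiv]

theorem pushDiv_dv (p : Pt → Place K F) (l : List Pt) :
    pushDiv p (dv l) = ((l.map p).map fun v => Finsupp.single v (1 : ℤ)).sum := by
  induction l with
  | nil => simp
  | cons P l ih => rw [dv_cons, map_add, pushDiv_single, ih]; simp

/-- For places of degree one the Prelude degree of the push-forward is the sum of coefficients. -/
theorem degree_pushDiv {p : Pt → Place K F} (hdeg : ∀ P, (p P).deg = 1) (D : Pt →₀ ℤ) :
    Divisor.degree (pushDiv p D) = deg D := by
  induction D using Finsupp.induction_linear with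
  | zero => simp
  | add D D' h h' => rw [map_add, map_add, map_add, h, h']
  | single P n => rw [pushDiv_single, Divisor.degree_single, deg_single, hdeg P]; simp

/-- The cohomology numbers of the twists of `O(D₀)` by divisors supported on the family `p`. -/
noncomputable def cohData (U0 U1 : Set (Place K F)) (p : Pt → Place K F) (D0 : Divisor K F) :
    CohData Pt where
  H0 D := h0 U0 U1 (D0 + pushDiv p D)
  H1 D := h1 U0 U1 (D0 + pushDiv p D)

@[simp] theorem cohData_H0 (U0 U1 : Set (Place K F)) (p : Pt → Place K F) (D0 : Divisor K F)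
    (D : Pt →₀ ℤ) : (cohData U0 U1 p D0).H0 D = h0 U0 U1 (D0 + pushDiv p D) := rfl

@[simp] theorem cohData_H1 (U0 U1 : Set (Place K F)) (p : Pt → Place K F) (D0 : Divisor K F)
    (D : Pt →₀ ℤ) : (cohData U0 U1 p D0).H1 D = h1 U0 U1 (D0 + pushDiv p D) := rfl

/-- **A5.2 for a family of degree-one places**: the six curve-like axioms. -/
theorem isCurveLike {U0 U1 : Set (Place K F)} (H : TwoChartHyp U0 U1) {p : Pt → Place K F}
    (hp : Function.Injective p) (hdeg : ∀ P, (p P).deg = 1) (D0 : Divisor K F) :
    (cohData U0 U1 p D0).IsCurveLike where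
  chi D P := by
    have h := H.chi_add (D0 + pushDiv p D) (p P)
    rw [hdeg P] at h
    simp only [cohData_H0, cohData_H1, map_add, pushDiv_single, ← add_assoc]
    unfold chi at h
    push_cast at h
    linarith
  mono0 D P := by
    simp only [cohData_H0, map_add, pushDiv_single, ← add_assoc]
    exact h0_le_add_single H _ (p P)
  mono1 D P := by
    simp only [cohData_H1, map_add, pushDiv_single, ← add_assoc]
    exact h1_add_single_le H _ (p P)
  supermod D P Q hPQ := by
    simp only [cohData_H0, map_add, pushDiv_single, ← add_assoc]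
    exact h0_supermod H _ (hp.ne hPQ)
  van := by
    obtain ⟨d0, hd0⟩ := exists_forall_h1_eq_zero H
    refine ⟨d0 - Divisor.degree D0, fun D hD => ?_⟩
    simp only [cohData_H1]
    apply hd0
    rw [map_add, degree_pushDiv hdeg D]
    linarith
  fin D hD := by
    simp only [cohData_H0] at hD ⊢
    have h := finite_setOf_h0_sub_single_eq H hD
    refine (h.preimage hp.injOn).subset ?_
    intro P hP
    simp only [Set.mem_preimage, Set.mem_ofPred_eq] at hP ⊢
    rw [map_sub, pushDiv_single, ← add_sub_assoc] at hP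
    exact hP

/-- **Covering theorem, place language, list form.**  `D₀` a divisor with `χ(O(D₀)) = 1`,
`S` an infinite set of points of the family, `Inf` a finite one: there are lists `l`, `l'` of the
same length of points of `S` such that `D = D₀ + Σ l' - Σ l` has `h¹ = 0`, `h⁰ = 1` and
`h⁰(D - P) = 0` for all `P ∈ Inf`. -/
theorem exists_translate {U0 U1 : Set (Place K F)} (H : TwoChartHyp U0 U1) {p : Pt → Place K F}
    (hp : Function.Injective p) (hdeg : ∀ P, (p P).deg = 1) {S Inf : Set Pt} (hS : S.Infinite)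
    (hInf : Inf.Finite) (D0 : Divisor K F) (hchi : chi U0 U1 D0 = 1) :
    ∃ l l' : List Pt, (∀ x ∈ l, x ∈ S) ∧ (∀ x ∈ l', x ∈ S) ∧ l.length = l'.length ∧
      l.length ≤ h0 U0 U1 D0 ∧
      h1 U0 U1 (D0 + pushDiv p (dv l') - pushDiv p (dv l)) = 0 ∧
      h0 U0 U1 (D0 + pushDiv p (dv l') - pushDiv p (dv l)) = 1 ∧
      ∀ P ∈ Inf, h0 U0 U1
        (D0 + pushDiv p (dv l') - pushDiv p (dv l) - Finsupp.single (p P) 1) = 0 := by
  have hc := isCurveLike H hp hdeg D0
  have hchi' : (((cohData U0 U1 p D0).H0 0 : ℕ) : ℤ) - (cohData U0 U1 p D0).H1 0 = 1 := by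
    simp only [cohData_H0, cohData_H1, map_zero, add_zero]
    exact hchi
  obtain ⟨l, l', hl, hl', hlen, hle, h1', h0', hI⟩ := hc.exists_cover_list hS hInf 0 hchi'
  refine ⟨l, l', hl, hl', hlen, ?_, ?_, ?_, ?_⟩
  · simpa using hle
  · simpa [add_sub_assoc] using h1'
  · simpa [add_sub_assoc] using h0'
  · intro P hP
    have := hI P hP
    simpa [add_sub_assoc] using this

/-- **Covering theorem, place language, tuple form** with a prescribed number `r ≥ h⁰(O(D₀))` of
points. -/
theorem exists_translate_fin {U0 U1 : Set (Place K F)} (H : TwoChartHyp U0 U1)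
    {p : Pt → Place K F} (hp : Function.Injective p) (hdeg : ∀ P, (p P).deg = 1) {S Inf : Set Pt}
    (hS : S.Infinite) (hInf : Inf.Finite) (D0 : Divisor K F) (hchi : chi U0 U1 D0 = 1) (r : ℕ)
    (hr : h0 U0 U1 D0 ≤ r) :
    ∃ q q' : Fin r → Pt, (∀ i, q i ∈ S) ∧ (∀ i, q' i ∈ S) ∧
      h1 U0 U1 (D0 + ∑ i, Finsupp.single (p (q' i)) (1 : ℤ)
        - ∑ i, Finsupp.single (p (q i)) (1 : ℤ)) = 0 ∧
      h0 U0 U1 (D0 + ∑ i, Finsupp.single (p (q' i)) (1 : ℤ)
        - ∑ i, Finsupp.single (p (q i)) (1 : ℤ)) = 1 ∧
      ∀ P ∈ Inf, h0 U0 U1 (D0 + ∑ i, Finsupp.single (p (q' i)) (1 : ℤ)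
        - ∑ i, Finsupp.single (p (q i)) (1 : ℤ) - Finsupp.single (p P) 1) = 0 := by
  have hc := isCurveLike H hp hdeg D0
  have hchi' : (((cohData U0 U1 p D0).H0 0 : ℕ) : ℤ) - (cohData U0 U1 p D0).H1 0 = 1 := by
    simp only [cohData_H0, cohData_H1, map_zero, add_zero]
    exact hchi
  have hr' : (cohData U0 U1 p D0).H0 0 ≤ r := by simpa using hr
  obtain ⟨q, q', hq, hq', h1', h0', hI⟩ := hc.exists_cover hS hInf 0 hchi' r hr'
  refine ⟨q, q', hq, hq', ?_, ?_, ?_⟩
  · simpa [add_sub_assoc, map_sum] using h1'
  · simpa [add_sub_assoc, map_sum] using h0'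
  · intro P hP
    have := hI P hP
    simpa [add_sub_assoc, map_sum] using this

/-- `h⁰(D - P) = 0` means that a nonzero section of `O(D)` does not vanish at `P`
(its order at `P` is exactly `-D(P)`). -/
theorem ord_eq_neg_of_h0_sub_single_eq_zero {U0 U1 : Set (Place K F)} (H : TwoChartHyp U0 U1)
    {D : Divisor K F} {v : Place K F} (h : h0 U0 U1 (D - Finsupp.single v 1) = 0) {f : F}
    (hf : f ∈ H0 U0 U1 D) (hf0 : f ≠ 0) : v.ord f = -D v := by
  classical
  have hf' := hf
  rw [H0_eq_riemannRochSpace H.cover, mem_riemannRochSpace_iff] at hf'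
  have hle : -D v ≤ v.ord f := (hf' v).resolve_left hf0
  by_contra hne
  have hlt : -D v + 1 ≤ v.ord f := by omega
  have hmem : f ∈ H0 U0 U1 (D - Finsupp.single v 1) := by
    rw [H0_eq_riemannRochSpace H.cover, mem_riemannRochSpace_iff]
    intro u
    right
    by_cases hu : u = v
    · subst hu
      rw [Finsupp.sub_apply, Finsupp.single_eq_same]
      omega
    · have := (hf' u).resolve_left hf0
      rw [Finsupp.sub_apply, Finsupp.single_apply, if_neg (Ne.symm hu), sub_zero]
      exact this
  have := H.fin0 (D - Finsupp.single v 1)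
  have hpos : 0 < Module.finrank K (H0 U0 U1 (D - Finsupp.single v 1)) :=
    Module.finrank_pos_iff_exists_ne_zero.mpr ⟨⟨f, hmem⟩, fun h0 => hf0 (congrArg Subtype.val h0)⟩
  unfold h0 at h
  omega

/-- Conversely, if `h⁰(D) = 1` and the sections of `O(D)` do not all vanish at `P`, then
`h⁰(D - P) = 0`. -/
theorem h0_sub_single_eq_zero_of_ord_eq {U0 U1 : Set (Place K F)} (H : TwoChartHyp U0 U1)
    {D : Divisor K F} {v : Place K F} (h1 : h0 U0 U1 D = 1) {f : F}
    (hf : f ∈ H0 U0 U1 D) (hf0 : f ≠ 0) (hord : v.ord f = -D v) :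
    h0 U0 U1 (D - Finsupp.single v 1) = 0 := by
  by_contra hne
  have hle : D - Finsupp.single v 1 ≤ D := by
    have := le_add_single (D - Finsupp.single v 1) v
    rwa [sub_add_cancel] at this
  have hmono := h0_mono H hle
  have heq : h0 U0 U1 (D - Finsupp.single v 1) = h0 U0 U1 D := by omega
  have hH := H0_sub_single_eq_of_h0_eq H heq
  rw [← hH, H0_eq_riemannRochSpace H.cover, mem_riemannRochSpace_iff] at hf
  have := (hf v).resolve_left hf0
  rw [Finsupp.sub_apply, Finsupp.single_eq_same] at this
  omega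

end Fermat.Agent.JAC.Fibre.CurveLikeSub67
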