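/-
Programme JAC (S25), work package A2 (iii)/(4)/(5), helper67.  On top of helper38's `Core38`,
`Chart38`, `Setting38`:

* `deg_eq_one_of_isAlgClosed` : over an algebraically closed field every place with finite residue
  field has degree one.
* `relrank_lat_add_effective` : for a chart `U` and an effective divisor `E` supported in `U`,
  `dim (lat U (D + E) / lat U D) = deg E`.
* `rank_quotient_eq_relrank`, `degree_eq_finrank_quotient_span` : for a Dedekind chart `B` and
  `s : B`, `s ≠ 0`, the divisor of zeros of `s` on the chart has degree `dim_K (B / s B)`.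
* `degree_divInfty` : `deg (t)_∞ = dim_K (B₁ / s B₁)`; `chi_add_smul_divInfty`.
* `finrank_quotient_span_eq_finrank_polynomial` : `dim_K (B / s B) = rank_{K[X]} B` (`X ↦ s`).
-/
import Mathlib
import Fermat.Agent.JAC.Fibre.Setting38

set_option autoImplicit false
set_option linter.unusedSectionVars false

open AlgebraicCurve WithZero Cardinal Polynomial

namespace Fermat.Agent.JAC.Fibre.DegInf67

open Fermat.Agent.JAC.Fibre.RelRank38 Fermat.Agent.JAC.Fibre.Lat38 Fermat.Agent.JAC.Fibre.Core38
  Fermat.Agent.JAC.Fibre.Chart38 Fermat.Agent.JAC.Fibre.Setting38 Fermat.Agent.X0.FF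

universe u v w

variable {K : Type u} {F : Type v} [Field K] [Field F] [Algebra K F]

/-! ### Degree one over an algebraically closed field -/

/-- Over an algebraically closed field, a place with finite residue field has degree one. -/
theorem deg_eq_one_of_isAlgClosed [IsAlgClosed K] (v : Place K F)
    [Module.Finite K v.ResidueField] : v.deg = 1 := by
  unfold Place.deg
  have hbij : Function.Bijective (algebraMap K v.ResidueField) :=
    IsAlgClosed.algebraMap_bijective_of_isIntegral
  have e : K ≃ₗ[K] v.ResidueField :=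
    LinearEquiv.ofBijective (Algebra.linearMap K v.ResidueField) hbij
  rw [← e.finrank_eq, Module.finrank_self]

theorem TwoChartPre.deg_eq_one [IsAlgClosed K] {U₀ U₁ : Set (Place K F)}
    (T : TwoChartPre U₀ U₁) (v : Place K F) : v.deg = 1 := by
  have := T.finite_residue v
  exact deg_eq_one_of_isAlgClosed v

/-! ### Adding an effective divisor supported in a chart -/

section Effective

variable {U₀ U₁ : Set (Place K F)} (T : TwoChartPre U₀ U₁)
include T

theorem relrank_lat_add_single_nat {U : Set (Place K F)} (hU : IsChart U) (D : Divisor K F)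
    {P : Place K F} (hP : P ∈ U) (n : ℕ) :
    relrank (lat U D) (lat U (D + Finsupp.single P (n : ℤ))) = ((n * P.deg : ℕ) : Cardinal.{v}) := by
  induction n with
  | zero => simp
  | succ n ih =>
    have hD : D + Finsupp.single P ((n + 1 : ℕ) : ℤ)
        = (D + Finsupp.single P (n : ℤ)) + Finsupp.single P 1 := by
      rw [add_assoc, ← Finsupp.single_add]; push_cast; rfl
    have h1 : lat U D ≤ lat U (D + Finsupp.single P (n : ℤ)) := by
      refine lat_mono U ?_
      intro v
      classical
      simp only [Finsupp.add_apply, Finsupp.single_apply]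
      split_ifs <;> omega
    have h2 : lat U (D + Finsupp.single P (n : ℤ)) ≤
        lat U ((D + Finsupp.single P (n : ℤ)) + Finsupp.single P 1) := lat_le_add_single U _ P
    rw [hD, relrank_chain h1 h2, ih, hU.relrank_add_single _ P hP, T.rank_residue]
    push_cast
    ring

/-- For an effective divisor `E` supported in the chart `U`:
`dim (lat U (D + E) / lat U D) = deg E`. -/
theorem relrank_lat_add_effective {U : Set (Place K F)} (hU : IsChart U) (D : Divisor K F)
    {E : Divisor K F} (hE : 0 ≤ E) (hsupp : ∀ v, v ∉ U → E v = 0) :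
    ∃ d : ℕ, (d : ℤ) = Divisor.degree E ∧
      relrank (lat U D) (lat U (D + E)) = (d : Cardinal.{v}) := by
  classical
  induction E using Finsupp.induction generalizing D with
  | zero => exact ⟨0, by simp, by simp⟩
  | single_add P n E hP hn ih =>
    have hEP : E P = 0 := by simpa using hP
    have hn0 : 0 ≤ n := by
      have := Finsupp.le_def.mp hE P
      simpa [hEP] using this
    have hE' : 0 ≤ E := by
      rw [Finsupp.le_def]
      intro w
      have := Finsupp.le_def.mp hE w
      by_cases hw : w = P
      · subst hw; simp [hEP]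
      · simpa [Finsupp.single_apply, Ne.symm hw] using this
    have hsupp' : ∀ v, v ∉ U → E v = 0 := by
      intro v hv
      have := hsupp v hv
      by_cases hw : v = P
      · subst hw; exact hEP
      · simpa [Finsupp.single_apply, Ne.symm hw] using this
    have hPU : P ∈ U := by
      by_contra hPU
      have := hsupp P hPU
      simp [hEP] at this
      exact hn this
    obtain ⟨m, rfl⟩ := Int.eq_ofNat_of_zero_le hn0
    obtain ⟨d, hd, hrel⟩ := ih D hE' hsupp'
    refine ⟨m * P.deg + d, ?_, ?_⟩
    · rw [map_add, Divisor.degree_single, ← hd]; push_cast; ring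
    · have hDE : D + (Finsupp.single P (m : ℤ) + E) = (D + E) + Finsupp.single P (m : ℤ) := by
        abel
      have h1 : lat U D ≤ lat U (D + E) := lat_mono U (le_add_of_nonneg_right hE')
      have h2 : lat U (D + E) ≤ lat U ((D + E) + Finsupp.single P (m : ℤ)) := by
        refine lat_mono U (le_add_of_nonneg_right ?_)
        rw [Finsupp.le_def]
        intro w
        simp only [Finsupp.coe_zero, Pi.zero_apply, Finsupp.single_apply]
        split_ifs <;> omega
      rw [hDE, relrank_chain h1 h2, hrel, relrank_lat_add_single_nat T hU _ hPU]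
      push_cast
      ring

end Effective

/-! ### The zero divisor of a function on a Dedekind chart -/

section Chart

variable {B : Type w} [CommRing B] [IsDedekindDomain B] [Algebra B F] [IsFractionRing B F]
  [Algebra K B] [IsScalarTower K B F]

/-- `B → F` as a `K`-linear map. -/
noncomputable def toF (K : Type u) {F : Type v} [Field K] [Field F] [Algebra K F] (B : Type w)
    [CommRing B] [Algebra B F] [Algebra K B] [IsScalarTower K B F] : B →ₗ[K] F :=
  (IsScalarTower.toAlgHom K B F).toLinearMap

@[simp] theorem toF_apply (b : B) : toF K B b = algebraMap B F b := rfl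

theorem toF_injective : Function.Injective (toF K (F := F) B) :=
  IsFractionRing.injective B F

theorem lat_chartSet_zero : lat (chartSet (K := K) (F := F) B) 0 = LinearMap.range (toF K B) := by
  ext f
  rw [mem_lat_chartSet_zero_iff]
  rfl

/-- For an injective linear map `ι : B → F` and a subspace `J` of `B`:
`dim (ι B / ι J) = dim (B / J)`. -/
theorem relrank_map_range {V : Type w} [AddCommGroup V] [Module K V] (ι : V →ₗ[K] F)
    (hι : Function.Injective ι) (J : Submodule K V) :
    Cardinal.lift.{w} (relrank (J.map ι) (LinearMap.range ι)) =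
      Cardinal.lift.{v} (Module.rank K (V ⧸ J)) := by
  unfold relrank
  refine (LinearEquiv.lift_rank_eq ?_).symm
  refine Submodule.Quotient.equiv J _ (LinearEquiv.ofInjective ι hι) ?_
  ext ⟨z, hz⟩
  simp only [Submodule.submoduleOf, Submodule.mem_map, Submodule.mem_comap,
    Submodule.coe_subtype]
  constructor
  · rintro ⟨y, hyJ, h⟩
    exact ⟨y, hyJ, congrArg Subtype.val h⟩
  · rintro ⟨x, hxJ, hx⟩
    exact ⟨x, hxJ, Subtype.ext hx⟩

end Chart

section Chart2

variable {B : Type w} [CommRing B] [IsDedekindDomain B] [Algebra B F] [IsFractionRing B F]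
  [Algebra K B] [IsScalarTower K B F]

/-- Multiplication by `s` carries `B ⊂ F` onto `s B ⊂ F`. -/
theorem map_mulEquiv_lat_zero (s : B) (hσ : algebraMap B F s ≠ 0) :
    (lat (chartSet (K := K) (F := F) B) 0).map
      ((mulEquiv (K := K) (algebraMap B F s) hσ : F ≃ₗ[K] F) : F →ₗ[K] F) =
      ((Ideal.span {s}).restrictScalars K).map (toF K B) := by
  rw [lat_chartSet_zero]
  ext x
  simp only [Submodule.mem_map, LinearMap.mem_range, LinearEquiv.coe_coe, mulEquiv_apply,
    Submodule.restrictScalars_mem, toF_apply]
  constructor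
  · rintro ⟨_, ⟨b, rfl⟩, rfl⟩
    exact ⟨s * b, Ideal.mem_span_singleton'.mpr ⟨b, mul_comm b s⟩, by rw [map_mul]⟩
  · rintro ⟨j, hj, rfl⟩
    obtain ⟨a, rfl⟩ := Ideal.mem_span_singleton'.mp hj
    exact ⟨algebraMap B F a, ⟨a, rfl⟩, by rw [map_mul, mul_comm]⟩

/-- If `E` is the divisor of `s` on the chart of `B`, then
`dim (lat U E / lat U 0) = dim_K (B / s B)`. -/
theorem lift_relrank_lat_zero_eq (s : B) (hσ : algebraMap B F s ≠ 0) (E : Divisor K F)
    (hE : ∀ v ∈ chartSet (K := K) (F := F) B, E v = v.ord (algebraMap B F s)) :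
    Cardinal.lift.{w} (relrank (lat (chartSet (K := K) (F := F) B) 0)
      (lat (chartSet (K := K) (F := F) B) E)) =
      Cardinal.lift.{v} (Module.rank K (B ⧸ Ideal.span {s})) := by
  have h1 := map_mulEquiv_lat_of_forall_mem (K := K) (chartSet (K := K) (F := F) B) 0 E hσ hE
  rw [zero_add] at h1
  have h2 : relrank (((Ideal.span {s}).restrictScalars K).map (toF K B))
      (lat (chartSet (K := K) (F := F) B) 0) =
      relrank (lat (chartSet (K := K) (F := F) B) 0) (lat (chartSet (K := K) (F := F) B) E) := by
    rw [← relrank_map_equiv (mulEquiv (K := K) (algebraMap B F s) hσ)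
      (lat (chartSet (K := K) (F := F) B) 0) (lat (chartSet (K := K) (F := F) B) E), h1,
      map_mulEquiv_lat_zero s hσ]
  rw [← h2, lat_chartSet_zero, relrank_map_range (toF K B) toF_injective]
  exact congrArg _ (Submodule.Quotient.restrictScalarsEquiv K (Ideal.span {s})).rank_eq

end Chart2

section Chart3

variable {B : Type w} [CommRing B] [IsDedekindDomain B] [Algebra B F] [IsFractionRing B F]
  [Algebra K B] [IsScalarTower K B F]

/-- **Degree of the zero divisor of `s` on a Dedekind chart**: if the effective divisor `E` is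
supported in the chart of `B` and equals `div s` there, then `deg E = dim_K (B / s B)`, and this
quotient is finite-dimensional. -/
theorem degree_eq_finrank_quotient_span {U₀ U₁ : Set (Place K F)} (T : TwoChartPre U₀ U₁)
    (s : B) (hσ : algebraMap B F s ≠ 0) (E : Divisor K F)
    (hE : ∀ v ∈ chartSet (K := K) (F := F) B, E v = v.ord (algebraMap B F s))
    (hsupp : ∀ v, v ∉ chartSet (K := K) (F := F) B → E v = 0) :
    Divisor.degree E = Module.finrank K (B ⧸ Ideal.span {s}) ∧
      Module.Finite K (B ⧸ Ideal.span {s}) := by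
  have hE0 : 0 ≤ E := by
    rw [Finsupp.le_def]
    intro v
    by_cases hv : v ∈ chartSet (K := K) (F := F) B
    · rw [hE v hv]
      exact ffp_ord_nonneg_of_mem v (hv s)
    · rw [hsupp v hv]; simp
  obtain ⟨d, hd, hrel⟩ := relrank_lat_add_effective T
    (isChart_chartSet (K := K) (F := F) (B := B)) 0 hE0 hsupp
  rw [zero_add] at hrel
  have h := lift_relrank_lat_zero_eq (K := K) s hσ E hE
  rw [hrel] at h
  have hrank : Module.rank K (B ⧸ Ideal.span {s}) = (d : Cardinal.{w}) := by
    apply Cardinal.lift_injective.{v}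
    rw [← h]; simp
  refine ⟨?_, Module.finite_of_rank_eq_nat hrank⟩
  rw [← hd, Module.finrank, hrank]
  simp

end Chart3

section TwoCharts

universe w₀ w₁ w₂

variable {B₀ : Type w₀} [CommRing B₀] [IsDedekindDomain B₀] [Algebra B₀ F] [IsFractionRing B₀ F]
  [Algebra K B₀] [IsScalarTower K B₀ F]
  {B₁ : Type w₁} [CommRing B₁] [IsDedekindDomain B₁] [Algebra B₁ F] [IsFractionRing B₁ F]
  [Algebra K B₁] [IsScalarTower K B₁ F]

/-- **`deg (t)_∞ = dim_K (B₁ / s B₁)`** for the two charts `B₀ ∋ t`, `B₁ ∋ s`, `t s = 1`. -/
theorem degree_divInfty (T : TwoChartPre (chartSet (K := K) (F := F) B₀)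
      (chartSet (K := K) (F := F) B₁)) (t : B₀) (s : B₁)
    (hts : algebraMap B₀ F t * algebraMap B₁ F s = 1) :
    Divisor.degree (divInfty T (algebraMap B₀ F t) (left_ne_zero_of_mul_eq_one hts)) =
      Module.finrank K (B₁ ⧸ Ideal.span {s}) ∧ Module.Finite K (B₁ ⧸ Ideal.span {s}) := by
  have hτ : algebraMap B₀ F t ≠ 0 := left_ne_zero_of_mul_eq_one hts
  have hσ : algebraMap B₁ F s ≠ 0 := right_ne_zero_of_mul_eq_one hts
  have hinv : algebraMap B₁ F s = (algebraMap B₀ F t)⁻¹ := eq_inv_of_mul_eq_one_right hts
  refine degree_eq_finrank_quotient_span T s hσ _ ?_ ?_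
  · intro v hv
    have h1 : (algebraMap B₀ F t)⁻¹ ∈ v.toValuationSubring := hinv ▸ hv s
    rw [divInfty_eq_neg_ord_of_inv_mem T _ hτ h1, hinv, v.ord_inv]
  · intro v hv
    have hv0 : v ∈ chartSet (K := K) (F := F) B₀ := by
      have : v ∈ chartSet (K := K) (F := F) B₀ ∪ chartSet (K := K) (F := F) B₁ := by
        rw [T.cover]; trivial
      exact this.resolve_right hv
    exact divInfty_eq_zero_of_mem T _ hτ (hv0 t)

/-- `χ(D + m (t)_∞) = χ(D) + m n`, `n = dim_K (B₁ / s B₁)`. -/
theorem chi_add_smul_divInfty (T : TwoChart (chartSet (K := K) (F := F) B₀)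
      (chartSet (K := K) (F := F) B₁)) (t : B₀) (s : B₁)
    (hts : algebraMap B₀ F t * algebraMap B₁ F s = 1) (D : Divisor K F) (m : ℕ) :
    chi (chartSet (K := K) (F := F) B₀) (chartSet (K := K) (F := F) B₁)
      (D + m • divInfty T.toPre (algebraMap B₀ F t) (left_ne_zero_of_mul_eq_one hts)) =
      chi (chartSet (K := K) (F := F) B₀) (chartSet (K := K) (F := F) B₁) D +
        m * Module.finrank K (B₁ ⧸ Ideal.span {s}) := by
  rw [T.riemann, T.riemann D, map_add, map_nsmul, (degree_divInfty T.toPre t s hts).1]
  simp only [nsmul_eq_mul]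
  ring

end TwoCharts

/-- For `B` finite free over `K[X]` with `X ↦ s`: `dim_K (B / s B) = rank_{K[X]} B`. -/
theorem finrank_quotient_span_eq_finrank_polynomial {K : Type u} [Field K] {B : Type w}
    [CommRing B] [IsDomain B] [Algebra K B] [Algebra K[X] B] [IsScalarTower K K[X] B]
    [Module.Free K[X] B] [Module.Finite K[X] B] (s : B) (hs : algebraMap K[X] B X = s)
    (hs0 : s ≠ 0) :
    Module.finrank K (B ⧸ Ideal.span ({s} : Set B)) = Module.finrank K[X] B := by
  classical
  let b := Module.Free.chooseBasis K[X] B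
  rw [finrank_quotient_span_eq_natDegree_norm b hs0, ← hs, Algebra.norm_algebraMap_of_basis b,
    natDegree_X_pow, Module.finrank_eq_card_chooseBasisIndex]

end Fermat.Agent.JAC.Fibre.DegInf67
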