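/-
Programme JAC, work package A2 (fibre curve theory), brick (a): relative ranks of subspaces.

For subspaces `X Y` of a `K`-vector space `V`, `relrank X Y` is the dimension of `Y / (X ⊓ Y)`
(a cardinal, so no finiteness is needed to state the additive identities).
Main results: chain rule, second isomorphism theorem, and the index formula
`relrank (A ⊓ B) (A' ⊓ B') + relrank (A ⊔ B) (A' ⊔ B') = relrank A A' + relrank B B'`
for `A ≤ A'`, `B ≤ B'`.
-/
import Mathlib

set_option autoImplicit false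

namespace Fermat.Agent.JAC.Fibre.RelRank38

universe u v

variable {K : Type u} {V : Type v} [Field K] [AddCommGroup V] [Module K V]

/-- The relative rank of `Y` over `X`: the dimension of `Y / (X ⊓ Y)`. -/
noncomputable def relrank (X Y : Submodule K V) : Cardinal.{v} :=
  Module.rank K (↥Y ⧸ X.submoduleOf Y)

theorem submoduleOf_inf_left (X Y : Submodule K V) :
    (X ⊓ Y).submoduleOf Y = X.submoduleOf Y := by
  ext ⟨y, hy⟩
  simp [Submodule.submoduleOf]

theorem relrank_inf_left (X Y : Submodule K V) : relrank (X ⊓ Y) Y = relrank X Y := by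
  unfold relrank
  rw [submoduleOf_inf_left]

theorem relrank_eq_zero_of_le {X Y : Submodule K V} (h : Y ≤ X) : relrank X Y = 0 := by
  unfold relrank
  have : X.submoduleOf Y = ⊤ := by
    ext ⟨y, hy⟩
    simp [Submodule.submoduleOf, h hy]
  rw [this]
  exact rank_subsingleton' K (↥Y ⧸ (⊤ : Submodule K ↥Y))

@[simp] theorem relrank_self (X : Submodule K V) : relrank X X = 0 :=
  relrank_eq_zero_of_le le_rfl

theorem relrank_bot (Y : Submodule K V) : relrank ⊥ Y = Module.rank K Y := by
  unfold relrank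
  have : (⊥ : Submodule K V).submoduleOf Y = ⊥ := by
    ext ⟨y, hy⟩
    simp [Submodule.submoduleOf]
  rw [this]
  exact (Submodule.quotEquivOfEqBot _ rfl).rank_eq

theorem relrank_top (X : Submodule K V) : relrank X ⊤ = Module.rank K (V ⧸ X) := by
  unfold relrank
  refine LinearEquiv.rank_eq ?_
  refine Submodule.Quotient.equiv _ _ (Submodule.topEquiv) ?_
  ext x
  simp [Submodule.submoduleOf]

/-- Second isomorphism theorem. -/
theorem relrank_sup_right (X Y : Submodule K V) : relrank X (Y ⊔ X) = relrank X Y := by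
  rw [← relrank_inf_left X Y]
  unfold relrank
  rw [inf_comm]
  exact (LinearMap.quotientInfEquivSupQuotient Y X).rank_eq.symm

theorem relrank_sup_left (X Y : Submodule K V) : relrank X (X ⊔ Y) = relrank X Y := by
  rw [sup_comm, relrank_sup_right]

/-- Chain rule. -/
theorem relrank_chain {X Y Z : Submodule K V} (hXY : X ≤ Y) (hYZ : Y ≤ Z) :
    relrank X Z = relrank X Y + relrank Y Z := by
  unfold relrank
  -- `π : Z/X → Z/Y`
  have hle : X.submoduleOf Z ≤ Y.submoduleOf Z := fun z hz => hXY hz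
  let π : (↥Z ⧸ X.submoduleOf Z) →ₗ[K] (↥Z ⧸ Y.submoduleOf Z) := Submodule.factor hle
  have hπ : Function.Surjective π := Submodule.factor_surjective hle
  -- `ι : Y/X → Z/X`
  let ι : (↥Y ⧸ X.submoduleOf Y) →ₗ[K] (↥Z ⧸ X.submoduleOf Z) :=
    Submodule.mapQ _ _ (Submodule.inclusion hYZ) (fun y hy => hy)
  have hι : Function.Injective ι := by
    rw [← LinearMap.ker_eq_bot, LinearMap.ker_eq_bot']
    intro q hq
    obtain ⟨y, rfl⟩ := Submodule.Quotient.mk_surjective _ q
    change Submodule.Quotient.mk (Submodule.inclusion hYZ y) = 0 at hq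
    rw [Submodule.Quotient.mk_eq_zero] at hq
    rw [Submodule.Quotient.mk_eq_zero]
    exact hq
  have hex : LinearMap.range ι = LinearMap.ker π := by
    ext q
    obtain ⟨z, rfl⟩ := Submodule.Quotient.mk_surjective _ q
    constructor
    · rintro ⟨q', hq'⟩
      obtain ⟨y, rfl⟩ := Submodule.Quotient.mk_surjective _ q'
      rw [LinearMap.mem_ker, ← hq']
      change Submodule.Quotient.mk (Submodule.inclusion hYZ y) = 0
      rw [Submodule.Quotient.mk_eq_zero]
      exact y.2
    · intro hz
      rw [LinearMap.mem_ker] at hz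
      change (Submodule.Quotient.mk z : ↥Z ⧸ Y.submoduleOf Z) = 0 at hz
      rw [Submodule.Quotient.mk_eq_zero] at hz
      exact ⟨Submodule.Quotient.mk ⟨z.1, hz⟩, rfl⟩
  have h1 := LinearMap.rank_range_add_rank_ker π
  rw [LinearMap.range_eq_top.mpr hπ, rank_top, ← hex, rank_range_of_injective ι hι] at h1
  rw [← h1, add_comm]

/-- Monotonicity in the second argument. -/
theorem relrank_le_of_le_right {X Y Z : Submodule K V} (hXY : X ≤ Y) (hYZ : Y ≤ Z) :
    relrank X Y ≤ relrank X Z := by
  rw [relrank_chain hXY hYZ]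
  exact self_le_add_right _ _

theorem relrank_le_of_le_left {X Y Z : Submodule K V} (hXY : X ≤ Y) (hYZ : Y ≤ Z) :
    relrank Y Z ≤ relrank X Z := by
  rw [relrank_chain hXY hYZ]
  exact self_le_add_left _ _

/-- One-sided index formula. -/
theorem relrank_inf_add_relrank_sup_of_le {A A' : Submodule K V} (hA : A ≤ A')
    (B : Submodule K V) :
    relrank (A ⊓ B) (A' ⊓ B) + relrank (A ⊔ B) (A' ⊔ B) = relrank A A' := by
  -- chain `A ≤ A ⊔ (A' ⊓ B) ≤ A'`
  have h1 : A ≤ A ⊔ (A' ⊓ B) := le_sup_left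
  have h2 : A ⊔ (A' ⊓ B) ≤ A' := sup_le hA inf_le_left
  rw [relrank_chain h1 h2]
  congr 1
  · -- `relrank A (A ⊔ A'⊓B) = relrank A (A'⊓B) = relrank (A ⊓ (A'⊓B)) (A'⊓B)`
    rw [relrank_sup_left, ← relrank_inf_left A (A' ⊓ B)]
    congr 1
    rw [← inf_assoc, inf_eq_left.mpr hA]
  · -- `relrank (A⊔B) (A'⊔B) = relrank (A⊔B) A' = relrank ((A⊔B) ⊓ A') A'`
    have e1 : A' ⊔ B = (A ⊔ B) ⊔ A' := by
      rw [sup_comm A B, sup_assoc, sup_eq_right.mpr hA, sup_comm]
    rw [e1, relrank_sup_left, ← relrank_inf_left (A ⊔ B) A']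
    congr 1
    -- modular law
    rw [sup_inf_assoc_of_le B hA, inf_comm]

/-- **Index formula** for two pairs of nested subspaces. -/
theorem relrank_index {A A' B B' : Submodule K V} (hA : A ≤ A') (hB : B ≤ B') :
    relrank (A ⊓ B) (A' ⊓ B') + relrank (A ⊔ B) (A' ⊔ B') = relrank A A' + relrank B B' := by
  have s1 := relrank_inf_add_relrank_sup_of_le hA B
  have s2 := relrank_inf_add_relrank_sup_of_le hB A'
  have c1 : relrank (A ⊓ B) (A' ⊓ B') =
      relrank (A ⊓ B) (A' ⊓ B) + relrank (A' ⊓ B) (A' ⊓ B') :=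
    relrank_chain (inf_le_inf_right B hA) (inf_le_inf_left A' hB)
  have c2 : relrank (A ⊔ B) (A' ⊔ B') =
      relrank (A ⊔ B) (A' ⊔ B) + relrank (A' ⊔ B) (A' ⊔ B') :=
    relrank_chain (sup_le_sup_right hA B) (sup_le_sup_left hB A')
  rw [inf_comm B A', inf_comm B' A', sup_comm B A', sup_comm B' A'] at s2
  rw [c1, c2, ← s1, ← s2]
  simp only [add_assoc, add_left_comm, add_comm]

/-- Monotonicity in the second argument (no nesting assumption on the first). -/
theorem relrank_mono_right (X : Submodule K V) {Y Z : Submodule K V} (hYZ : Y ≤ Z) :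
    relrank X Y ≤ relrank X Z := by
  rw [← relrank_sup_left X Y, ← relrank_sup_left X Z]
  exact relrank_le_of_le_right le_sup_left (sup_le_sup_left hYZ X)

/-- If `A ⊓ B' ≤ B` then `(A' ⊓ B') / (A ⊓ B)` embeds into `A' / A`. -/
theorem relrank_inf_le_left {A A' B B' : Submodule K V} (h : A ⊓ B' ≤ B) :
    relrank (A ⊓ B) (A' ⊓ B') ≤ relrank A A' := by
  have e : A ⊓ (A' ⊓ B') = (A ⊓ B) ⊓ (A' ⊓ B') := by
    apply le_antisymm
    · refine le_inf (le_inf inf_le_left ?_) inf_le_right
      exact le_trans (le_inf inf_le_left (inf_le_right.trans inf_le_right)) h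
    · exact le_inf (inf_le_left.trans inf_le_left) inf_le_right
  calc relrank (A ⊓ B) (A' ⊓ B') = relrank ((A ⊓ B) ⊓ (A' ⊓ B')) (A' ⊓ B') :=
        (relrank_inf_left _ _).symm
    _ = relrank (A ⊓ (A' ⊓ B')) (A' ⊓ B') := by rw [e]
    _ = relrank A (A' ⊓ B') := relrank_inf_left _ _
    _ ≤ relrank A A' := relrank_mono_right A inf_le_left

/-- A linear equivalence preserves relative ranks. -/
theorem relrank_map_equiv {V' : Type v} [AddCommGroup V'] [Module K V'] (e : V ≃ₗ[K] V')
    (X Y : Submodule K V) :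
    relrank (X.map (e : V →ₗ[K] V')) (Y.map (e : V →ₗ[K] V')) = relrank X Y := by
  unfold relrank
  refine (LinearEquiv.rank_eq ?_).symm
  refine Submodule.Quotient.equiv _ _ (e.submoduleMap Y) ?_
  ext ⟨z, hz⟩
  simp only [Submodule.submoduleOf, Submodule.mem_map, Submodule.mem_comap,
    Submodule.coe_subtype, Subtype.exists]
  constructor
  · rintro ⟨y, hy, hyX, h⟩
    have : e y = z := congrArg Subtype.val h
    exact ⟨y, hyX, this⟩
  · rintro ⟨x, hxX, hx⟩
    obtain ⟨y, hyY, hy⟩ := hz
    have hxy : x = y := e.injective (hx.trans hy.symm)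
    subst hxy
    exact ⟨x, hyY, hxX, Subtype.ext hx⟩

/-- If `X ≤ Y` and the relative rank vanishes then `Y ≤ X`. -/
theorem le_of_relrank_eq_zero {X Y : Submodule K V} (h : relrank X Y = 0) : Y ≤ X := by
  unfold relrank at h
  rw [rank_zero_iff_forall_zero] at h
  intro y hy
  have := h (Submodule.Quotient.mk ⟨y, hy⟩)
  rw [Submodule.Quotient.mk_eq_zero] at this
  exact this

theorem relrank_eq_zero_iff {X Y : Submodule K V} : relrank X Y = 0 ↔ Y ≤ X :=
  ⟨le_of_relrank_eq_zero, relrank_eq_zero_of_le⟩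

/-- Equal finite relative ranks over a common bottom force equality of nested subspaces. -/
theorem eq_of_relrank_eq {X Y Z : Submodule K V} (hXY : X ≤ Y) (hYZ : Y ≤ Z)
    (hfin : relrank X Z < Cardinal.aleph0) (h : relrank X Y = relrank X Z) : Y = Z := by
  refine le_antisymm hYZ (le_of_relrank_eq_zero ?_)
  have hc := relrank_chain hXY hYZ
  rw [← h] at hc hfin
  -- `a = a + b` with `a` finite gives `b = 0`
  have hb : relrank Y Z < Cardinal.aleph0 := by
    by_contra hb
    rw [not_lt] at hb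
    have : Cardinal.aleph0 ≤ relrank X Y := by
      calc Cardinal.aleph0 ≤ relrank Y Z := hb
        _ ≤ relrank X Y + relrank Y Z := self_le_add_left _ _
        _ = relrank X Y := hc.symm
    exact absurd hfin (not_lt.mpr this)
  obtain ⟨a, ha⟩ := Cardinal.lt_aleph0.mp hfin
  obtain ⟨b, hb'⟩ := Cardinal.lt_aleph0.mp hb
  rw [ha, hb'] at hc
  rw [hb']
  have : a = a + b := by exact_mod_cast hc
  have hb0 : b = 0 := by omega
  simp [hb0]

end Fermat.Agent.JAC.Fibre.RelRank38
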