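/-
Programme JAC, work package A2 (fibre curve theory), brick (b): lattices cut out by a set of
places, in the language of the Prelude (`Place K F`, `Divisor K F`).

`lat U D = {f | ∀ v ∈ U, v(f) ≤ exp (D v)}`: sections of `O(D)` over the "open set" `U`.
-/
import Mathlib
import Fermat.Prelude.Def_AlgebraicCurve_Repartitions
import Fermat.Agent.JAC.Fibre.RelRank38

set_option autoImplicit false

open AlgebraicCurve WithZero

namespace Fermat.Agent.JAC.Fibre.Lat38

open Fermat.Agent.JAC.Fibre.RelRank38

universe u v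

variable {K : Type u} {F : Type v} [Field K] [Field F] [Algebra K F]

/-- Sections of `O(D)` over the set of places `U`. -/
def lat (U : Set (Place K F)) (D : Divisor K F) : Submodule K F where
  carrier := {f | ∀ v ∈ U, v.adicValuation f ≤ exp (D v)}
  zero_mem' := by
    intro v _
    simp
  add_mem' := by
    intro f g hf hg v hv
    exact (Valuation.map_add _ _ _).trans (max_le (hf v hv) (hg v hv))
  smul_mem' := by
    intro c f hf v hv
    show v.adicValuation (c • f) ≤ exp (D v)
    rw [Algebra.smul_def, map_mul]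
    exact (mul_le_of_le_one_left' (v.adicValuation_algebraMap_le_one c)).trans (hf v hv)

theorem mem_lat {U : Set (Place K F)} {D : Divisor K F} {f : F} :
    f ∈ lat U D ↔ ∀ v ∈ U, v.adicValuation f ≤ exp (D v) := Iff.rfl

theorem mem_lat_iff_ord {U : Set (Place K F)} {D : Divisor K F} {f : F} :
    f ∈ lat U D ↔ ∀ v ∈ U, f = 0 ∨ -D v ≤ v.ord f :=
  forall₂_congr fun v _ => v.adicValuation_le_exp_iff

theorem lat_anti_set {U U' : Set (Place K F)} (h : U ⊆ U') (D : Divisor K F) :
    lat U' D ≤ lat U D := fun _ hf v hv => hf v (h hv)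

theorem lat_mono (U : Set (Place K F)) {D D' : Divisor K F} (h : D ≤ D') :
    lat U D ≤ lat U D' := fun _ hf v hv =>
  (hf v hv).trans (exp_le_exp.mpr (Finsupp.le_def.mp h v))

theorem lat_union (U U' : Set (Place K F)) (D : Divisor K F) :
    lat (U ∪ U') D = lat U D ⊓ lat U' D := by
  ext f
  simp only [mem_lat, Submodule.mem_inf, Set.mem_union]
  constructor
  · exact fun h => ⟨fun v hv => h v (Or.inl hv), fun v hv => h v (Or.inr hv)⟩
  · rintro ⟨h1, h2⟩ v (hv | hv)
    · exact h1 v hv
    · exact h2 v hv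

theorem lat_univ (D : Divisor K F) : lat (Set.univ : Set (Place K F)) D = riemannRochSpace D := by
  ext f
  simp only [mem_lat, Set.mem_univ, forall_true_left]
  rfl

theorem lat_inf_eq_riemannRochSpace {U₀ U₁ : Set (Place K F)} (h : U₀ ∪ U₁ = Set.univ)
    (D : Divisor K F) : lat U₀ D ⊓ lat U₁ D = riemannRochSpace D := by
  rw [← lat_union, h, lat_univ]

/-- Changing the divisor outside `U` does not change `lat U`. -/
theorem lat_congr {U : Set (Place K F)} {D D' : Divisor K F} (h : ∀ v ∈ U, D v = D' v) :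
    lat U D = lat U D' := by
  ext f
  simp only [mem_lat]
  exact forall₂_congr fun v hv => by rw [h v hv]

theorem lat_add_single_of_notMem {U : Set (Place K F)} (D : Divisor K F) {P : Place K F}
    (hP : P ∉ U) (n : ℤ) : lat U (D + Finsupp.single P n) = lat U D := by
  classical
  refine lat_congr fun v hv => ?_
  have : v ≠ P := fun h => hP (h ▸ hv)
  simp [this.symm]

theorem lat_le_add_single (U : Set (Place K F)) (D : Divisor K F) (P : Place K F) :
    lat U D ≤ lat U (D + Finsupp.single P 1) := by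
  classical
  refine lat_mono U ?_
  intro v
  simp only [Finsupp.add_apply, Finsupp.single_apply]
  split_ifs <;> omega

/-- Within `lat U (D + P)`, the condition at `P` cuts out `lat U D`. -/
theorem mem_lat_of_mem_add_single {U : Set (Place K F)} {D : Divisor K F} {P : Place K F}
    {f : F} (hf : f ∈ lat U (D + Finsupp.single P 1)) (hP : P.adicValuation f ≤ exp (D P)) :
    f ∈ lat U D := by
  classical
  intro v hv
  by_cases hvP : v = P
  · subst hvP; exact hP
  · have := hf v hv
    simpa [Finsupp.single_apply, Ne.symm hvP] using this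

/-- If `P ∈ U'`, then `lat U (D + P) ⊓ lat U' D ≤ lat U D`. -/
theorem lat_add_single_inf_le {U U' : Set (Place K F)} (D : Divisor K F) {P : Place K F}
    (hP : P ∈ U') : lat U (D + Finsupp.single P 1) ⊓ lat U' D ≤ lat U D := by
  rintro f ⟨h1, h2⟩
  exact mem_lat_of_mem_add_single h1 (h2 P hP)

theorem mul_mem_lat {U : Set (Place K F)} {D E : Divisor K F} {f g : F} (hf : f ∈ lat U D)
    (hg : g ∈ lat U E) : f * g ∈ lat U (D + E) := by
  intro v hv
  rw [map_mul, Finsupp.add_apply, exp_add]
  exact mul_le_mul' (hf v hv) (hg v hv)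

/-- Multiplication by a nonzero function, as a `K`-linear automorphism of `F`. -/
noncomputable def mulEquiv (f : F) (hf : f ≠ 0) : F ≃ₗ[K] F :=
  LinearEquiv.ofLinearMap (LinearMap.mulLeft K f) (LinearMap.mulLeft K f⁻¹)
    (by ext g; simp [hf]) (by ext g; simp [hf])

@[simp] theorem mulEquiv_apply (f : F) (hf : f ≠ 0) (g : F) :
    mulEquiv (K := K) f hf g = f * g := rfl

/-- If `E = div f` on `U`, multiplication by `f` carries `lat U (D + E)` onto `lat U D`. -/
theorem map_mulEquiv_lat_of_forall_mem (U : Set (Place K F)) (D E : Divisor K F) {f : F}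
    (hf : f ≠ 0) (hE : ∀ v ∈ U, E v = v.ord f) :
    (lat U (D + E)).map ((mulEquiv (K := K) f hf : F ≃ₗ[K] F) : F →ₗ[K] F) = lat U D := by
  have key : ∀ v ∈ U, ∀ g : F,
      v.adicValuation (f * g) ≤ exp (D v) ↔ v.adicValuation g ≤ exp ((D + E) v) := by
    intro v hv g
    have hvf : v.adicValuation f = exp (-v.ord f) := v.adicValuation_eq_exp_neg_ord hf
    rw [map_mul, hvf, Finsupp.add_apply, hE v hv, exp_add]
    have hpos : (0 : ℤᵐ⁰) < exp (v.ord f) := exp_pos
    rw [← mul_le_mul_iff_of_pos_left hpos, ← mul_assoc, ← exp_add, add_neg_cancel, exp_zero,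
      one_mul, mul_comm]
  ext g
  simp only [Submodule.mem_map, LinearEquiv.coe_coe, mulEquiv_apply, mem_lat]
  constructor
  · rintro ⟨g', hg', rfl⟩ v hv
    exact (key v hv g').mpr (hg' v hv)
  · intro hg
    refine ⟨f⁻¹ * g, fun v hv => (key v hv _).mp ?_, by field_simp⟩
    rw [← mul_assoc, mul_inv_cancel₀ hf, one_mul]
    exact hg v hv

/-- If `E = div f`, multiplication by `f` carries `lat U (D + E)` onto `lat U D`. -/
theorem map_mulEquiv_lat (U : Set (Place K F)) (D E : Divisor K F) {f : F} (hf : f ≠ 0)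
    (hE : ∀ v : Place K F, E v = v.ord f) :
    (lat U (D + E)).map ((mulEquiv (K := K) f hf : F ≃ₗ[K] F) : F →ₗ[K] F) = lat U D :=
  map_mulEquiv_lat_of_forall_mem U D E hf fun v _ => hE v

/-- Membership form: `g ∈ lat U (D + E) ↔ f * g ∈ lat U D` when `E = div f` on `U`. -/
theorem mul_mem_lat_iff (U : Set (Place K F)) (D E : Divisor K F) {f : F} (hf : f ≠ 0)
    (hE : ∀ v ∈ U, E v = v.ord f) (g : F) : f * g ∈ lat U D ↔ g ∈ lat U (D + E) := by
  rw [← map_mulEquiv_lat_of_forall_mem (K := K) U D E hf hE]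
  constructor
  · rintro ⟨g', hg', h⟩
    have : g' = g := (mulEquiv (K := K) f hf).injective h
    exact this ▸ hg'
  · intro hg
    exact ⟨g, hg, rfl⟩

end Fermat.Agent.JAC.Fibre.Lat38
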