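/-
Programme JAC, work package A2 (fibre curve theory), brick (c): the core of the theory of a
complete curve covered by two "affine Dedekind charts", in the place language of the Prelude.

The input is the abstract interface `TwoChart U₀ U₁` (each of `U₀`, `U₁`, `U₀ ∩ U₁` behaves like the
set of places of a Dedekind chart; finiteness of `H⁰(O)`, `H¹(O)`).  Output: finiteness of
`H⁰(D)`, `H¹(D)` for all `D`, `χ(D + P) = χ(D) + deg P`, Riemann's theorem
`χ(D) = deg D + χ(0)`, `deg (div f) = 0`, vanishing of `H⁰` in negative degree and of `H¹` in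
large degree.
-/
import Mathlib
import Fermat.Prelude.Def_AlgebraicCurve_Repartitions
import Fermat.Agent.JAC.Fibre.Lat38

set_option autoImplicit false

open AlgebraicCurve WithZero Cardinal

namespace Fermat.Agent.JAC.Fibre.Core38

open Fermat.Agent.JAC.Fibre.RelRank38 Fermat.Agent.JAC.Fibre.Lat38

universe u v

variable {K : Type u} {F : Type v} [Field K] [Field F] [Algebra K F]

/-- Induction on divisors along `D ↦ D + P`, in both directions. -/
theorem divisor_induction {p : Divisor K F → Prop} (h0 : p 0)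
    (hadd : ∀ D P, p D → p (D + Finsupp.single P 1))
    (hsub : ∀ D P, p (D + Finsupp.single P 1) → p D) : ∀ D, p D := by
  have hn : ∀ (P : Place K F) (n : ℤ) (D : Divisor K F), p D → p (D + Finsupp.single P n) := by
    intro P n
    induction n using Int.induction_on with
    | zero => intro D hD; simpa using hD
    | succ n ih =>
      intro D hD
      have := hadd _ P (ih D hD)
      rwa [add_assoc, ← Finsupp.single_add] at this
    | pred n ih =>
      intro D hD
      apply hsub _ P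
      rw [add_assoc, ← Finsupp.single_add]
      have : (-(n : ℤ) - 1 + 1) = -(n : ℤ) := by ring
      rw [this]
      exact ih D hD
  intro D
  induction D using Finsupp.induction with
  | zero => exact h0
  | single_add a b f _ _ ih =>
    rw [add_comm]
    exact hn a b f ih

/-- The degree of an effective divisor is nonnegative. -/
theorem degree_nonneg {D : Divisor K F} (hD : 0 ≤ D) : 0 ≤ Divisor.degree D := by
  have : Divisor.degree D = D.sum fun v n => n * (v.deg : ℤ) := by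
    simp [Divisor.degree, Finsupp.liftAddHom_apply]
  rw [this]
  refine Finsupp.sum_nonneg fun v _ => ?_
  have h1 : 0 ≤ D v := Finsupp.le_def.mp hD v
  positivity

/-- Interface: `U` behaves like the set of places of an affine Dedekind chart. -/
structure IsChart (U : Set (Place K F)) : Prop where
  relrank_add_single : ∀ (D : Divisor K F) (P : Place K F), P ∈ U →
    relrank (lat U D) (lat U (D + Finsupp.single P 1)) = Module.rank K P.ResidueField

open Classical in
/-- The local contribution of `P` to a chart `U`. -/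
noncomputable def delta (U : Set (Place K F)) (P : Place K F) : Cardinal.{v} :=
  if P ∈ U then Module.rank K P.ResidueField else 0

theorem IsChart.relrank_eq_delta {U : Set (Place K F)} (hU : IsChart U) (D : Divisor K F)
    (P : Place K F) : relrank (lat U D) (lat U (D + Finsupp.single P 1)) = delta U P := by
  unfold delta
  split_ifs with h
  · exact hU.relrank_add_single D P h
  · rw [lat_add_single_of_notMem D h, relrank_self]

section TwoCharts

variable (U₀ U₁ : Set (Place K F))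

/-- `dim H⁰(D)` as a cardinal. -/
noncomputable def h0 (D : Divisor K F) : Cardinal.{v} :=
  relrank ⊥ (lat U₀ D ⊓ lat U₁ D)

/-- `dim H¹(D)` (Čech, for the cover `U₀, U₁`) as a cardinal. -/
noncomputable def h1 (D : Divisor K F) : Cardinal.{v} :=
  relrank (lat U₀ D ⊔ lat U₁ D) (lat (U₀ ∩ U₁) D)

theorem sup_le_lat_inter (D : Divisor K F) : lat U₀ D ⊔ lat U₁ D ≤ lat (U₀ ∩ U₁) D :=
  sup_le (lat_anti_set Set.inter_subset_left D) (lat_anti_set Set.inter_subset_right D)

theorem h0_eq_rank (D : Divisor K F) :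
    h0 U₀ U₁ D = Module.rank K ↥(lat U₀ D ⊓ lat U₁ D) := relrank_bot _

theorem h1_eq_zero_iff (D : Divisor K F) :
    h1 U₀ U₁ D = 0 ↔ lat (U₀ ∩ U₁) D ≤ lat U₀ D ⊔ lat U₁ D := relrank_eq_zero_iff

/-- The interface of the core theory, without the finiteness of the cohomology of `O`. -/
structure TwoChartPre : Prop where
  cover : U₀ ∪ U₁ = Set.univ
  chart₀ : IsChart U₀
  chart₁ : IsChart U₁
  chart₀₁ : IsChart (U₀ ∩ U₁)
  finite_residue : ∀ P : Place K F, Module.Finite K P.ResidueField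
  finite_ord_ne_zero : ∀ f : F, f ≠ 0 → {v : Place K F | v.ord f ≠ 0}.Finite

/-- The interface of the core theory. -/
structure TwoChart : Prop where
  cover : U₀ ∪ U₁ = Set.univ
  chart₀ : IsChart U₀
  chart₁ : IsChart U₁
  chart₀₁ : IsChart (U₀ ∩ U₁)
  finite_residue : ∀ P : Place K F, Module.Finite K P.ResidueField
  finite_ord_ne_zero : ∀ f : F, f ≠ 0 → {v : Place K F | v.ord f ≠ 0}.Finite
  h0_zero_lt : h0 U₀ U₁ 0 < ℵ₀
  h1_zero_lt : h1 U₀ U₁ 0 < ℵ₀

variable {U₀ U₁}

theorem TwoChart.toPre (T : TwoChart U₀ U₁) : TwoChartPre U₀ U₁ :=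
  ⟨T.cover, T.chart₀, T.chart₁, T.chart₀₁, T.finite_residue, T.finite_ord_ne_zero⟩

theorem TwoChartPre.rank_residue (T : TwoChartPre U₀ U₁) (P : Place K F) :
    Module.rank K P.ResidueField = (P.deg : Cardinal.{v}) := by
  have := T.finite_residue P
  exact (Module.finrank_eq_rank K P.ResidueField).symm

theorem TwoChartPre.delta_lt (T : TwoChartPre U₀ U₁) (U : Set (Place K F)) (P : Place K F) :
    delta U P < ℵ₀ := by
  unfold delta
  split_ifs
  · rw [T.rank_residue]; exact Cardinal.natCast_lt_aleph0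
  · exact Cardinal.aleph0_pos

theorem TwoChartPre.delta_add (T : TwoChartPre U₀ U₁) (P : Place K F) :
    delta U₀ P + delta U₁ P = delta (U₀ ∩ U₁) P + Module.rank K P.ResidueField := by
  have hP : P ∈ U₀ ∪ U₁ := by rw [T.cover]; trivial
  unfold delta
  by_cases h0 : P ∈ U₀ <;> by_cases h1 : P ∈ U₁
  · simp [h0, h1]
  · simp [h0, h1]
  · simp [h0, h1]
  · exact absurd hP (by simp [h0, h1])

/-- The three basic identities for one step `D ↦ D + P`. -/
theorem TwoChartPre.step_h0 (D : Divisor K F) (P : Place K F) :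
    h0 U₀ U₁ (D + Finsupp.single P 1) = h0 U₀ U₁ D +
      relrank (lat U₀ D ⊓ lat U₁ D)
        (lat U₀ (D + Finsupp.single P 1) ⊓ lat U₁ (D + Finsupp.single P 1)) :=
  relrank_chain bot_le (inf_le_inf (lat_le_add_single _ _ _) (lat_le_add_single _ _ _))

theorem TwoChartPre.step_h1 (D : Divisor K F) (P : Place K F) :
    h1 U₀ U₁ D + relrank (lat (U₀ ∩ U₁) D) (lat (U₀ ∩ U₁) (D + Finsupp.single P 1)) =
      relrank (lat U₀ D ⊔ lat U₁ D)
        (lat U₀ (D + Finsupp.single P 1) ⊔ lat U₁ (D + Finsupp.single P 1)) +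
      h1 U₀ U₁ (D + Finsupp.single P 1) := by
  unfold h1
  rw [← relrank_chain (sup_le_lat_inter U₀ U₁ D) (lat_le_add_single _ _ _),
    ← relrank_chain (sup_le_sup (lat_le_add_single _ _ _) (lat_le_add_single _ _ _))
      (sup_le_lat_inter U₀ U₁ _)]

/-- **One-point step** (cardinal form): `h⁰(D+P) + h¹(D) = h⁰(D) + h¹(D+P) + deg P`. -/
theorem TwoChartPre.step (T : TwoChartPre U₀ U₁) (D : Divisor K F) (P : Place K F) :
    h0 U₀ U₁ (D + Finsupp.single P 1) + h1 U₀ U₁ D =
      h0 U₀ U₁ D + h1 U₀ U₁ (D + Finsupp.single P 1) + Module.rank K P.ResidueField := by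
  have s0 := TwoChartPre.step_h0 (U₀ := U₀) (U₁ := U₁) D P
  have s1 := TwoChartPre.step_h1 (U₀ := U₀) (U₁ := U₁) D P
  have s2 := relrank_index (lat_le_add_single U₀ D P) (lat_le_add_single U₁ D P)
  rw [T.chart₀.relrank_eq_delta, T.chart₁.relrank_eq_delta, T.delta_add] at s2
  rw [T.chart₀₁.relrank_eq_delta] at s1
  set r := relrank (lat U₀ D ⊓ lat U₁ D)
        (lat U₀ (D + Finsupp.single P 1) ⊓ lat U₁ (D + Finsupp.single P 1))
  set r' := relrank (lat U₀ D ⊔ lat U₁ D)
        (lat U₀ (D + Finsupp.single P 1) ⊔ lat U₁ (D + Finsupp.single P 1))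
  apply Cardinal.eq_of_add_eq_add_right (b := delta (U₀ ∩ U₁) P) _ (T.delta_lt _ P)
  calc h0 U₀ U₁ (D + Finsupp.single P 1) + h1 U₀ U₁ D + delta (U₀ ∩ U₁) P
      = h0 U₀ U₁ D + r + (h1 U₀ U₁ D + delta (U₀ ∩ U₁) P) := by rw [s0, add_assoc]
    _ = h0 U₀ U₁ D + r + (r' + h1 U₀ U₁ (D + Finsupp.single P 1)) := by rw [s1]
    _ = h0 U₀ U₁ D + h1 U₀ U₁ (D + Finsupp.single P 1) + (r + r') := by
        simp only [add_assoc, add_left_comm, add_comm]
    _ = h0 U₀ U₁ D + h1 U₀ U₁ (D + Finsupp.single P 1) +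
          (delta (U₀ ∩ U₁) P + Module.rank K P.ResidueField) := by rw [s2]
    _ = h0 U₀ U₁ D + h1 U₀ U₁ (D + Finsupp.single P 1) + Module.rank K P.ResidueField +
          delta (U₀ ∩ U₁) P := by
        simp only [add_assoc, add_left_comm, add_comm]

/-- The jump of `h⁰` in one step is at most `deg P`. -/
theorem TwoChartPre.relrank_inf_le (T : TwoChartPre U₀ U₁) (D : Divisor K F) (P : Place K F) :
    relrank (lat U₀ D ⊓ lat U₁ D)
        (lat U₀ (D + Finsupp.single P 1) ⊓ lat U₁ (D + Finsupp.single P 1)) ≤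
      Module.rank K P.ResidueField := by
  have hP : P ∈ U₀ ∪ U₁ := by rw [T.cover]; trivial
  rcases hP with hP | hP
  · refine (relrank_inf_le_left ?_).trans_eq (T.chart₀.relrank_add_single D P hP)
    rw [inf_comm]
    exact lat_add_single_inf_le D hP
  · rw [inf_comm (lat U₀ D), inf_comm (lat U₀ _)]
    refine (relrank_inf_le_left ?_).trans_eq (T.chart₁.relrank_add_single D P hP)
    rw [inf_comm]
    exact lat_add_single_inf_le D hP

theorem TwoChartPre.h0_le_step (D : Divisor K F) (P : Place K F) :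
    h0 U₀ U₁ D ≤ h0 U₀ U₁ (D + Finsupp.single P 1) := by
  rw [TwoChartPre.step_h0]; exact self_le_add_right _ _

theorem TwoChartPre.h0_step_le (T : TwoChartPre U₀ U₁) (D : Divisor K F) (P : Place K F) :
    h0 U₀ U₁ (D + Finsupp.single P 1) ≤ h0 U₀ U₁ D + Module.rank K P.ResidueField := by
  rw [TwoChartPre.step_h0]; exact add_le_add le_rfl (T.relrank_inf_le D P)

theorem TwoChartPre.h1_step_le (T : TwoChartPre U₀ U₁) (D : Divisor K F) (P : Place K F) :
    h1 U₀ U₁ (D + Finsupp.single P 1) ≤ h1 U₀ U₁ D + delta (U₀ ∩ U₁) P := by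
  have s1 := TwoChartPre.step_h1 (U₀ := U₀) (U₁ := U₁) D P
  rw [T.chart₀₁.relrank_eq_delta] at s1
  rw [s1]; exact self_le_add_left _ _

theorem TwoChartPre.h1_le_step (T : TwoChartPre U₀ U₁) (D : Divisor K F) (P : Place K F) :
    h1 U₀ U₁ D ≤ h1 U₀ U₁ (D + Finsupp.single P 1) + (delta U₀ P + delta U₁ P) := by
  have s1 := TwoChartPre.step_h1 (U₀ := U₀) (U₁ := U₁) D P
  have s2 := relrank_index (lat_le_add_single U₀ D P) (lat_le_add_single U₁ D P)
  rw [T.chart₀.relrank_eq_delta, T.chart₁.relrank_eq_delta] at s2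
  calc h1 U₀ U₁ D ≤ h1 U₀ U₁ D +
        relrank (lat (U₀ ∩ U₁) D) (lat (U₀ ∩ U₁) (D + Finsupp.single P 1)) :=
        self_le_add_right _ _
    _ = _ := s1
    _ ≤ _ := by
        rw [add_comm]
        refine add_le_add le_rfl ?_
        rw [← s2]
        exact self_le_add_left _ _

theorem TwoChart.rank_residue (T : TwoChart U₀ U₁) (P : Place K F) :
    Module.rank K P.ResidueField = (P.deg : Cardinal.{v}) := T.toPre.rank_residue P

theorem TwoChart.delta_lt (T : TwoChart U₀ U₁) (U : Set (Place K F)) (P : Place K F) :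
    delta U P < ℵ₀ := T.toPre.delta_lt U P

theorem TwoChart.delta_add (T : TwoChart U₀ U₁) (P : Place K F) :
    delta U₀ P + delta U₁ P = delta (U₀ ∩ U₁) P + Module.rank K P.ResidueField :=
  T.toPre.delta_add P

theorem TwoChart.step_h0 (D : Divisor K F) (P : Place K F) :
    h0 U₀ U₁ (D + Finsupp.single P 1) = h0 U₀ U₁ D +
      relrank (lat U₀ D ⊓ lat U₁ D)
        (lat U₀ (D + Finsupp.single P 1) ⊓ lat U₁ (D + Finsupp.single P 1)) :=
  TwoChartPre.step_h0 D P

theorem TwoChart.step_h1 (D : Divisor K F) (P : Place K F) :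
    h1 U₀ U₁ D + relrank (lat (U₀ ∩ U₁) D) (lat (U₀ ∩ U₁) (D + Finsupp.single P 1)) =
      relrank (lat U₀ D ⊔ lat U₁ D)
        (lat U₀ (D + Finsupp.single P 1) ⊔ lat U₁ (D + Finsupp.single P 1)) +
      h1 U₀ U₁ (D + Finsupp.single P 1) :=
  TwoChartPre.step_h1 D P

/-- **One-point step** (cardinal form): `h⁰(D+P) + h¹(D) = h⁰(D) + h¹(D+P) + deg P`. -/
theorem TwoChart.step (T : TwoChart U₀ U₁) (D : Divisor K F) (P : Place K F) :
    h0 U₀ U₁ (D + Finsupp.single P 1) + h1 U₀ U₁ D =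
      h0 U₀ U₁ D + h1 U₀ U₁ (D + Finsupp.single P 1) + Module.rank K P.ResidueField :=
  T.toPre.step D P

theorem TwoChart.relrank_inf_le (T : TwoChart U₀ U₁) (D : Divisor K F) (P : Place K F) :
    relrank (lat U₀ D ⊓ lat U₁ D)
        (lat U₀ (D + Finsupp.single P 1) ⊓ lat U₁ (D + Finsupp.single P 1)) ≤
      Module.rank K P.ResidueField := T.toPre.relrank_inf_le D P

theorem TwoChart.h0_le_step (D : Divisor K F) (P : Place K F) :
    h0 U₀ U₁ D ≤ h0 U₀ U₁ (D + Finsupp.single P 1) := TwoChartPre.h0_le_step D P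

theorem TwoChart.h0_step_le (T : TwoChart U₀ U₁) (D : Divisor K F) (P : Place K F) :
    h0 U₀ U₁ (D + Finsupp.single P 1) ≤ h0 U₀ U₁ D + Module.rank K P.ResidueField :=
  T.toPre.h0_step_le D P

theorem TwoChart.h1_step_le (T : TwoChart U₀ U₁) (D : Divisor K F) (P : Place K F) :
    h1 U₀ U₁ (D + Finsupp.single P 1) ≤ h1 U₀ U₁ D + delta (U₀ ∩ U₁) P :=
  T.toPre.h1_step_le D P

theorem TwoChart.h1_le_step (T : TwoChart U₀ U₁) (D : Divisor K F) (P : Place K F) :
    h1 U₀ U₁ D ≤ h1 U₀ U₁ (D + Finsupp.single P 1) + (delta U₀ P + delta U₁ P) :=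
  T.toPre.h1_le_step D P

/-- Finiteness of the cohomology of one divisor implies finiteness for all divisors. -/
theorem TwoChartPre.finite_of_finite_at (T : TwoChartPre U₀ U₁) {D₀ : Divisor K F}
    (h : h0 U₀ U₁ D₀ < ℵ₀ ∧ h1 U₀ U₁ D₀ < ℵ₀) (D : Divisor K F) :
    h0 U₀ U₁ D < ℵ₀ ∧ h1 U₀ U₁ D < ℵ₀ := by
  suffices H : ∀ E : Divisor K F, h0 U₀ U₁ (D₀ + E) < ℵ₀ ∧ h1 U₀ U₁ (D₀ + E) < ℵ₀ by
    have := H (D - D₀)
    rwa [add_sub_cancel] at this
  intro E
  induction E using divisor_induction with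
  | h0 => simpa using h
  | hadd E P ih =>
    rw [← add_assoc]
    refine ⟨(T.h0_step_le _ P).trans_lt (Cardinal.add_lt_aleph0 ih.1 ?_),
      (T.h1_step_le _ P).trans_lt (Cardinal.add_lt_aleph0 ih.2 (T.delta_lt _ P))⟩
    rw [T.rank_residue]; exact Cardinal.natCast_lt_aleph0
  | hsub E P ih =>
    rw [← add_assoc] at ih
    exact ⟨(TwoChartPre.h0_le_step _ P).trans_lt ih.1,
      (T.h1_le_step _ P).trans_lt (Cardinal.add_lt_aleph0 ih.2
        (Cardinal.add_lt_aleph0 (T.delta_lt _ P) (T.delta_lt _ P)))⟩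

/-- Constructor: it suffices to know finiteness of the cohomology of one divisor. -/
theorem TwoChartPre.toTwoChart (T : TwoChartPre U₀ U₁) {D₀ : Divisor K F}
    (h : h0 U₀ U₁ D₀ < ℵ₀ ∧ h1 U₀ U₁ D₀ < ℵ₀) : TwoChart U₀ U₁ :=
  ⟨T.cover, T.chart₀, T.chart₁, T.chart₀₁, T.finite_residue, T.finite_ord_ne_zero,
    (T.finite_of_finite_at h 0).1, (T.finite_of_finite_at h 0).2⟩

/-- **Finiteness** of `H⁰(D)` and `H¹(D)` for every divisor `D`. -/
theorem TwoChart.finite (T : TwoChart U₀ U₁) (D : Divisor K F) :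
    h0 U₀ U₁ D < ℵ₀ ∧ h1 U₀ U₁ D < ℵ₀ := by
  induction D using divisor_induction with
  | h0 => exact ⟨T.h0_zero_lt, T.h1_zero_lt⟩
  | hadd D P ih =>
    refine ⟨(T.h0_step_le D P).trans_lt (Cardinal.add_lt_aleph0 ih.1 ?_),
      (T.h1_step_le D P).trans_lt (Cardinal.add_lt_aleph0 ih.2 (T.delta_lt _ P))⟩
    rw [T.rank_residue]; exact Cardinal.natCast_lt_aleph0
  | hsub D P ih =>
    exact ⟨(TwoChart.h0_le_step D P).trans_lt ih.1,
      (T.h1_le_step D P).trans_lt (Cardinal.add_lt_aleph0 ih.2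
        (Cardinal.add_lt_aleph0 (T.delta_lt _ P) (T.delta_lt _ P)))⟩

variable (U₀ U₁) in
/-- `dim H⁰(D)` as a natural number. -/
noncomputable def h0n (D : Divisor K F) : ℕ := Cardinal.toNat (h0 U₀ U₁ D)

variable (U₀ U₁) in
/-- `dim H¹(D)` as a natural number. -/
noncomputable def h1n (D : Divisor K F) : ℕ := Cardinal.toNat (h1 U₀ U₁ D)

variable (U₀ U₁) in
/-- The Euler characteristic `χ(D) = h⁰(D) - h¹(D)`. -/
noncomputable def chi (D : Divisor K F) : ℤ := (h0n U₀ U₁ D : ℤ) - (h1n U₀ U₁ D : ℤ)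

theorem TwoChart.h0_eq (T : TwoChart U₀ U₁) (D : Divisor K F) :
    h0 U₀ U₁ D = (h0n U₀ U₁ D : Cardinal.{v}) :=
  (Cardinal.cast_toNat_of_lt_aleph0 (T.finite D).1).symm

theorem TwoChart.h1_eq (T : TwoChart U₀ U₁) (D : Divisor K F) :
    h1 U₀ U₁ D = (h1n U₀ U₁ D : Cardinal.{v}) :=
  (Cardinal.cast_toNat_of_lt_aleph0 (T.finite D).2).symm

theorem h0n_eq_finrank (D : Divisor K F) :
    h0n U₀ U₁ D = Module.finrank K ↥(lat U₀ D ⊓ lat U₁ D) := by
  unfold h0n
  rw [h0_eq_rank]
  rfl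

theorem TwoChart.h0n_eq_finrank_riemannRochSpace (T : TwoChart U₀ U₁) (D : Divisor K F) :
    h0n U₀ U₁ D = Module.finrank K ↥(riemannRochSpace D) := by
  rw [h0n_eq_finrank, lat_inf_eq_riemannRochSpace T.cover]

theorem TwoChart.finite_riemannRochSpace (T : TwoChart U₀ U₁) (D : Divisor K F) :
    Module.Finite K ↥(riemannRochSpace D) := by
  rw [← lat_inf_eq_riemannRochSpace T.cover, ← Module.rank_lt_aleph0_iff, ← h0_eq_rank]
  exact (T.finite D).1

theorem TwoChart.h1n_eq_zero_iff (T : TwoChart U₀ U₁) (D : Divisor K F) :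
    h1n U₀ U₁ D = 0 ↔ lat (U₀ ∩ U₁) D ≤ lat U₀ D ⊔ lat U₁ D := by
  rw [← h1_eq_zero_iff, T.h1_eq]
  exact_mod_cast Iff.rfl

/-- **One-point step**: `h⁰(D+P) + h¹(D) = h⁰(D) + h¹(D+P) + deg P`. -/
theorem TwoChart.step_nat (T : TwoChart U₀ U₁) (D : Divisor K F) (P : Place K F) :
    h0n U₀ U₁ (D + Finsupp.single P 1) + h1n U₀ U₁ D =
      h0n U₀ U₁ D + h1n U₀ U₁ (D + Finsupp.single P 1) + P.deg := by
  have h := T.step D P
  rw [T.h0_eq, T.h1_eq, T.h0_eq, T.h1_eq, T.rank_residue] at h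
  exact_mod_cast h

theorem TwoChart.chi_add_single (T : TwoChart U₀ U₁) (D : Divisor K F) (P : Place K F) :
    chi U₀ U₁ (D + Finsupp.single P 1) = chi U₀ U₁ D + P.deg := by
  have h := T.step_nat D P
  unfold chi
  omega

/-- **Riemann's theorem**: `χ(D) = χ(0) + deg D`. -/
theorem TwoChart.riemann (T : TwoChart U₀ U₁) (D : Divisor K F) :
    chi U₀ U₁ D = chi U₀ U₁ 0 + Divisor.degree D := by
  induction D using divisor_induction with
  | h0 => simp
  | hadd D P ih =>
    rw [T.chi_add_single, ih, map_add, Divisor.degree_single]; ring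
  | hsub D P ih =>
    rw [T.chi_add_single, map_add, Divisor.degree_single] at ih
    linarith

theorem TwoChart.h0n_le_step (T : TwoChart U₀ U₁) (D : Divisor K F) (P : Place K F) :
    h0n U₀ U₁ D ≤ h0n U₀ U₁ (D + Finsupp.single P 1) := by
  have h := TwoChart.h0_le_step (U₀ := U₀) (U₁ := U₁) D P
  rw [T.h0_eq, T.h0_eq] at h
  exact_mod_cast h

theorem TwoChart.h0n_step_le (T : TwoChart U₀ U₁) (D : Divisor K F) (P : Place K F) :
    h0n U₀ U₁ (D + Finsupp.single P 1) ≤ h0n U₀ U₁ D + P.deg := by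
  have h := T.h0_step_le D P
  rw [T.h0_eq, T.h0_eq, T.rank_residue] at h
  exact_mod_cast h

/-- `h¹` decreases when a point is added. -/
theorem TwoChart.h1n_step_le (T : TwoChart U₀ U₁) (D : Divisor K F) (P : Place K F) :
    h1n U₀ U₁ (D + Finsupp.single P 1) ≤ h1n U₀ U₁ D := by
  have h1 := T.step_nat D P
  have h2 := T.h0n_step_le D P
  omega

theorem TwoChart.h1n_add_single_nat_le (T : TwoChart U₀ U₁) (D : Divisor K F) (P : Place K F)
    (n : ℕ) : h1n U₀ U₁ (D + Finsupp.single P (n : ℤ)) ≤ h1n U₀ U₁ D := by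
  induction n with
  | zero => simp
  | succ n ih =>
    have : D + Finsupp.single P ((n + 1 : ℕ) : ℤ) =
        (D + Finsupp.single P (n : ℤ)) + Finsupp.single P 1 := by
      rw [add_assoc, ← Finsupp.single_add]; norm_cast
    rw [this]
    exact (T.h1n_step_le _ P).trans ih

/-- `h¹` is antitone: `D ≤ D'` implies `h¹(D') ≤ h¹(D)`. -/
theorem TwoChart.h1n_anti (T : TwoChart U₀ U₁) {D D' : Divisor K F} (h : D ≤ D') :
    h1n U₀ U₁ D' ≤ h1n U₀ U₁ D := by
  classical
  obtain ⟨E, rfl⟩ : ∃ E, D' = D + E := ⟨D' - D, by abel⟩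
  have hE : 0 ≤ E := by
    have := sub_nonneg.mpr h
    simpa using this
  clear h
  induction E using Finsupp.induction generalizing D with
  | zero => simp
  | single_add a b f ha hb ih =>
    have hf : 0 ≤ f := by
      intro v
      by_cases hv : v = a
      · subst hv
        rw [Finsupp.notMem_support_iff.mp ha]; rfl
      · have := hE v
        simpa [Finsupp.single_apply, Ne.symm hv] using this
    have hb0 : 0 ≤ b := by
      have := hE a
      simpa [Finsupp.notMem_support_iff.mp ha] using this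
    obtain ⟨n, rfl⟩ := Int.eq_ofNat_of_zero_le hb0
    have : D + (Finsupp.single a (n : ℤ) + f) = (D + f) + Finsupp.single a (n : ℤ) := by abel
    rw [this]
    exact (T.h1n_add_single_nat_le _ a n).trans (ih hf)

theorem TwoChart.h1n_eq_zero_of_le (T : TwoChart U₀ U₁) {D D' : Divisor K F} (h : D ≤ D')
    (hD : h1n U₀ U₁ D = 0) : h1n U₀ U₁ D' = 0 :=
  Nat.eq_zero_of_le_zero ((T.h1n_anti h).trans_eq hD)

/-- The divisor of a nonzero function. -/
noncomputable def TwoChart.div (T : TwoChart U₀ U₁) (f : F) (hf : f ≠ 0) : Divisor K F :=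
  Finsupp.ofSupportFinite (fun v => v.ord f) (T.finite_ord_ne_zero f hf)

@[simp] theorem TwoChart.div_apply (T : TwoChart U₀ U₁) (f : F) (hf : f ≠ 0) (v : Place K F) :
    T.div f hf v = v.ord f := rfl

theorem h0_add_div (D E : Divisor K F) {f : F} (hf : f ≠ 0)
    (hE : ∀ v : Place K F, E v = v.ord f) : h0 U₀ U₁ (D + E) = h0 U₀ U₁ D := by
  unfold h0
  have h := relrank_map_equiv (mulEquiv (K := K) f hf) ⊥ (lat U₀ (D + E) ⊓ lat U₁ (D + E))
  rw [Submodule.map_bot, Submodule.map_inf _ (mulEquiv (K := K) f hf).injective,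
    map_mulEquiv_lat U₀ D E hf hE, map_mulEquiv_lat U₁ D E hf hE] at h
  exact h.symm

theorem h1_add_div (D E : Divisor K F) {f : F} (hf : f ≠ 0)
    (hE : ∀ v : Place K F, E v = v.ord f) : h1 U₀ U₁ (D + E) = h1 U₀ U₁ D := by
  unfold h1
  have h := relrank_map_equiv (mulEquiv (K := K) f hf) (lat U₀ (D + E) ⊔ lat U₁ (D + E))
    (lat (U₀ ∩ U₁) (D + E))
  rw [Submodule.map_sup, map_mulEquiv_lat U₀ D E hf hE, map_mulEquiv_lat U₁ D E hf hE,
    map_mulEquiv_lat (U₀ ∩ U₁) D E hf hE] at h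
  exact h.symm

theorem chi_add_div (D E : Divisor K F) {f : F} (hf : f ≠ 0)
    (hE : ∀ v : Place K F, E v = v.ord f) : chi U₀ U₁ (D + E) = chi U₀ U₁ D := by
  unfold chi h0n h1n
  rw [h0_add_div D E hf hE, h1_add_div D E hf hE]

/-- **Principal divisors have degree zero.** -/
theorem TwoChart.degree_eq_zero_of_principal (T : TwoChart U₀ U₁) {E : Divisor K F} {f : F}
    (hf : f ≠ 0) (hE : ∀ v : Place K F, E v = v.ord f) : Divisor.degree E = 0 := by
  have h1 := chi_add_div (U₀ := U₀) (U₁ := U₁) 0 E hf hE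
  rw [zero_add, T.riemann E] at h1
  linarith

theorem TwoChart.degree_div (T : TwoChart U₀ U₁) (f : F) (hf : f ≠ 0) :
    Divisor.degree (T.div f hf) = 0 :=
  T.degree_eq_zero_of_principal hf (T.div_apply f hf)

/-- The Prelude class `HasPrincipalDivisors`. -/
theorem TwoChart.hasPrincipalDivisors (T : TwoChart U₀ U₁) : HasPrincipalDivisors K F :=
  ⟨fun f hf => ⟨T.div f hf, T.div_apply f hf, T.degree_div f hf⟩⟩

/-- A divisor with a nonzero section is linearly equivalent to an effective one, so it has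
nonnegative degree. -/
theorem TwoChart.degree_nonneg_of_mem (T : TwoChart U₀ U₁) {D : Divisor K F} {f : F}
    (hf : f ≠ 0) (hfD : f ∈ riemannRochSpace D) : 0 ≤ Divisor.degree D := by
  have hE : 0 ≤ D + T.div f hf := by
    intro v
    have := (mem_riemannRochSpace_iff.mp hfD v).resolve_left hf
    simp only [Finsupp.coe_zero, Pi.zero_apply, Finsupp.add_apply, TwoChart.div_apply]
    omega
  have := degree_nonneg hE
  rwa [map_add, T.degree_div, add_zero] at this

/-- **`H⁰(D) = 0` for `deg D < 0`.** -/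
theorem TwoChart.riemannRochSpace_eq_bot (T : TwoChart U₀ U₁) {D : Divisor K F}
    (hD : Divisor.degree D < 0) : riemannRochSpace D = ⊥ := by
  rw [Submodule.eq_bot_iff]
  intro f hfD
  by_contra hf
  exact absurd (T.degree_nonneg_of_mem hf hfD) (not_le.mpr hD)

theorem TwoChart.h0n_eq_zero (T : TwoChart U₀ U₁) {D : Divisor K F}
    (hD : Divisor.degree D < 0) : h0n U₀ U₁ D = 0 := by
  rw [T.h0n_eq_finrank_riemannRochSpace, T.riemannRochSpace_eq_bot hD]
  exact finrank_bot K F

/-- **Riemann's inequality**: `h⁰(D) ≥ deg D + χ(0)`. -/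
theorem TwoChart.riemann_inequality (T : TwoChart U₀ U₁) (D : Divisor K F) :
    chi U₀ U₁ 0 + Divisor.degree D ≤ h0n U₀ U₁ D := by
  rw [← T.riemann D]
  unfold chi
  omega

/-- **Vanishing of `H¹` in large degree**: if `H¹(D₀) = 0` then `H¹(D) = 0` as soon as
`deg D ≥ deg D₀ + 1 - χ(0)`. -/
theorem TwoChart.h1n_eq_zero_of_degree_ge (T : TwoChart U₀ U₁) {D₀ : Divisor K F}
    (hD₀ : h1n U₀ U₁ D₀ = 0) {D : Divisor K F}
    (hD : Divisor.degree D₀ + 1 - chi U₀ U₁ 0 ≤ Divisor.degree D) : h1n U₀ U₁ D = 0 := by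
  -- `H⁰(D - D₀) ≠ 0`
  have h1 := T.riemann_inequality (D - D₀)
  rw [map_sub] at h1
  have hpos : 0 < h0n U₀ U₁ (D - D₀) := by
    have : (0 : ℤ) < h0n U₀ U₁ (D - D₀) := by linarith
    exact_mod_cast this
  rw [T.h0n_eq_finrank_riemannRochSpace] at hpos
  have := T.finite_riemannRochSpace (D - D₀)
  obtain ⟨⟨f, hfD⟩, hf⟩ := Module.finrank_pos_iff_exists_ne_zero.mp hpos
  have hf0 : f ≠ 0 := fun h => hf (Subtype.ext h)
  -- `D₀ ≤ D + div f`
  have hle : D₀ ≤ D + T.div f hf0 := by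
    intro v
    have := (mem_riemannRochSpace_iff.mp hfD v).resolve_left hf0
    simp only [Finsupp.coe_sub, Pi.sub_apply] at this
    simp only [Finsupp.add_apply, TwoChart.div_apply]
    omega
  have h2 := T.h1n_eq_zero_of_le hle hD₀
  unfold h1n at h2 ⊢
  rwa [h1_add_div D _ hf0 (T.div_apply f hf0)] at h2

/-- The jump set of a nonzero section: `f ∈ H⁰(D - q)` for only finitely many `q`. -/
theorem TwoChart.finite_vanishing (T : TwoChart U₀ U₁) {D : Divisor K F} {f : F} (hf : f ≠ 0) :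
    {q : Place K F | f ∈ riemannRochSpace (D - Finsupp.single q 1)}.Finite := by
  classical
  refine (D + T.div f hf).support.finite_toSet.subset ?_
  intro q hq
  have := (mem_riemannRochSpace_iff.mp hq q).resolve_left hf
  simp only [Finsupp.coe_sub, Pi.sub_apply, Finsupp.single_eq_same] at this
  simp only [Finset.mem_coe, Finsupp.mem_support_iff, Finsupp.add_apply, TwoChart.div_apply]
  omega

/-- Evaluation at a point: `h⁰(D) ≤ h⁰(D - q) + deg q`. -/
theorem TwoChart.h0n_le_sub_single (T : TwoChart U₀ U₁) (D : Divisor K F) (q : Place K F) :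
    h0n U₀ U₁ D ≤ h0n U₀ U₁ (D - Finsupp.single q 1) + q.deg := by
  have := T.h0n_step_le (D - Finsupp.single q 1) q
  rwa [sub_add_cancel] at this

end TwoCharts

end Fermat.Agent.JAC.Fibre.Core38
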