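/-
Programme JAC (S25), A2/A5.2 glue (helper67): helper38's interface `Core38.TwoChart U₀ U₁`
(+ one divisor with `H¹ = 0`) implies the hypothesis package `Vanish67.TwoChartHyp U₀ U₁`; hence
the cohomology numbers `h0n`, `h1n` of `Core38` satisfy helper98's `IsCurveLike` axioms and the
abstract covering theorem `AbsCover98.exists_cover` applies to every `TwoChart`.
-/
import Mathlib
import Fermat.Agent.JAC.Fibre.Core38
import Fermat.Agent.JAC.Fibre.Vanish67
import Fermat.Agent.JAC.Fibre.CurveLike67

set_option autoImplicit false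

open AlgebraicCurve

namespace Fermat.Agent.JAC.Fibre.Bridge67

open Fermat.Agent.JAC.Fibre Fermat.Agent.JAC.Cover.AbsCover98

universe u v

variable {K : Type u} {F : Type v} [Field K] [Field F] [Algebra K F]

theorem lat_eq (U : Set (Place K F)) (D : Divisor K F) : Vanish67.lat U D = Lat38.lat U D := rfl

theorem h0_eq (U0 U1 : Set (Place K F)) (D : Divisor K F) :
    Vanish67.h0 U0 U1 D = Core38.h0n U0 U1 D := by
  rw [Core38.h0n_eq_finrank]
  rfl

theorem h1_eq (U0 U1 : Set (Place K F)) (D : Divisor K F) :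
    Vanish67.h1 U0 U1 D = Core38.h1n U0 U1 D := rfl

theorem chi_eq (U0 U1 : Set (Place K F)) (D : Divisor K F) :
    Vanish67.chi U0 U1 D = Core38.chi U0 U1 D := by
  unfold Vanish67.chi Core38.chi
  rw [h0_eq, h1_eq]

/-- helper38's `TwoChart` (plus one vanishing `H¹`) gives the hypothesis package of `Vanish67`. -/
theorem twoChartHyp {U0 U1 : Set (Place K F)} (T : Core38.TwoChart U0 U1)
    (hvan : ∃ D0 : Divisor K F, Core38.h1n U0 U1 D0 = 0) : Vanish67.TwoChartHyp U0 U1 where
  cover := T.cover
  fin_ord := T.finite_ord_ne_zero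
  fin0 D := by
    have h := (T.finite D).1
    rw [Core38.h0_eq_rank, Module.rank_lt_aleph0_iff] at h
    exact h
  fin1 D := by
    have h := (T.finite D).2
    unfold Core38.h1 RelRank38.relrank at h
    rw [Module.rank_lt_aleph0_iff] at h
    exact h
  chi_add D v := by
    rw [chi_eq, chi_eq]
    exact T.chi_add_single D v
  h0_add_le D v := by
    rw [h0_eq, h0_eq]
    exact T.h0n_step_le D v
  exists_van := by
    obtain ⟨D0, hD0⟩ := hvan
    exact ⟨D0, by rw [h1_eq]; exact hD0⟩

/-- **A5.2 for `Core38.TwoChart`**: the numbers `h0n (D₀ + ·)`, `h1n (D₀ + ·)` are curve-like when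
all points have degree one. -/
theorem isCurveLike {U0 U1 : Set (Place K F)} (T : Core38.TwoChart U0 U1)
    (hvan : ∃ D0 : Divisor K F, Core38.h1n U0 U1 D0 = 0)
    (hdeg : ∀ v : Place K F, v.deg = 1) (D0 : Divisor K F) :
    (CohData.mk (fun D => Core38.h0n U0 U1 (D0 + D))
      (fun D => Core38.h1n U0 U1 (D0 + D))).IsCurveLike := by
  have h := CurveLike67.isCurveLike (twoChartHyp T hvan) hdeg D0
  have e : CurveLike67.cohData U0 U1 D0 = CohData.mk (fun D => Core38.h0n U0 U1 (D0 + D))
      (fun D => Core38.h1n U0 U1 (D0 + D)) := by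
    unfold CurveLike67.cohData
    congr 1
    funext D
    exact h0_eq U0 U1 (D0 + D)
  rwa [e] at h

end Fermat.Agent.JAC.Fibre.Bridge67
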