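/-
Programme JAC (S25), work package A2 (ii), helper67: points of the overlap `U₀ ∩ U₁` and points at
infinity, in place language.

For `t : F` the chart `U₀` of a two-chart curve is `{v | t ∈ O_v}` and `U₁ = {v | t⁻¹ ∈ O_v}`, so
`U₀ ∩ U₁ = {v | ord_v t = 0}` and the points at infinity are the poles of `t`.

* `ord_eq_zero_of_ord_sub_pos` : a zero of `t - c`, `c ≠ 0`, lies in the overlap.
* `infinite_setOf_overlap`     : infinitely many points of the overlap (zeros of `t - c`, `c ∈ C`).
* `finite_setOf_ord_neg`       : finitely many points at infinity.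
-/
import Mathlib
import Fermat.Agent.JAC.Fibre.Vanish67

set_option autoImplicit false

open AlgebraicCurve WithZero

namespace Fermat.Agent.JAC.Fibre.Points67

open Fermat.Agent.JAC.Fibre.Vanish67

variable {K F : Type*} [Field K] [Field F] [Algebra K F]

/-- A zero of `t - c` with `c ≠ 0` is neither a zero nor a pole of `t`. -/
theorem adicValuation_eq_one_of_ord_sub_pos (v : Place K F) {t : F} {c : K} (hc : c ≠ 0)
    (h : 0 < v.ord (t - algebraMap K F c)) : v.adicValuation t = 1 := by
  have hne : t - algebraMap K F c ≠ 0 := by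
    intro h0
    rw [h0, Place.ord_zero] at h
    exact lt_irrefl _ h
  have hlt : v.adicValuation (t - algebraMap K F c) < 1 := by
    rw [v.adicValuation_eq_exp_neg_ord hne, ← exp_zero, exp_lt_exp]
    omega
  have h1 : v.adicValuation (algebraMap K F c) = 1 := adicValuation_algebraMap_eq_one v hc
  have ht : t = (t - algebraMap K F c) + algebraMap K F c := by ring
  rw [ht, Valuation.map_add_eq_of_lt_right _ (by rw [h1]; exact hlt), h1]

theorem ord_eq_zero_of_ord_sub_pos (v : Place K F) {t : F} {c : K} (hc : c ≠ 0)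
    (h : 0 < v.ord (t - algebraMap K F c)) : v.ord t = 0 := by
  unfold Place.ord
  rw [adicValuation_eq_one_of_ord_sub_pos v hc h]
  simp

theorem mem_of_ord_sub_pos (v : Place K F) {t : F} {c : K} (hc : c ≠ 0)
    (h : 0 < v.ord (t - algebraMap K F c)) :
    v.adicValuation t ≤ 1 ∧ v.adicValuation t⁻¹ ≤ 1 := by
  have h1 := adicValuation_eq_one_of_ord_sub_pos v hc h
  refine ⟨h1.le, ?_⟩
  rw [map_inv₀, h1, inv_one]

/-- A zero of `t - c` (any `c`) is not a pole of `t`. -/
theorem adicValuation_le_one_of_ord_sub_pos (v : Place K F) {t : F} {c : K}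
    (h : 0 < v.ord (t - algebraMap K F c)) : v.adicValuation t ≤ 1 := by
  have hne : t - algebraMap K F c ≠ 0 := by
    intro h0
    rw [h0, Place.ord_zero] at h
    exact lt_irrefl _ h
  have hlt : v.adicValuation (t - algebraMap K F c) < 1 := by
    rw [v.adicValuation_eq_exp_neg_ord hne, ← exp_zero, exp_lt_exp]
    omega
  have ht : t = (t - algebraMap K F c) + algebraMap K F c := by ring
  rw [ht]
  exact (Valuation.map_add _ _ _).trans
    (max_le hlt.le (v.adicValuation_algebraMap_le_one c))

variable {U0 U1 : Set (Place K F)} (H : TwoChartHyp U0 U1)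
include H

/-- **Infinitely many points in the overlap** `{v | ord_v t = 0}`: the zeros of `t - c`, `c`
running through an infinite set of constants. -/
theorem infinite_setOf_overlap (hdeg : ∀ v : Place K F, 0 < v.deg) {t : F}
    (ht : Transcendental K t) {C : Set K} (hC : C.Infinite) :
    {v : Place K F | v.ord t = 0 ∧ ∃ c ∈ C, c ≠ 0 ∧ 0 < v.ord (t - algebraMap K F c)}.Infinite := by
  have hC' : (C \ {0}).Infinite := hC.sdiff (Set.finite_singleton 0)
  refine (infinite_setOf_exists_zero H hdeg ht hC').mono ?_
  rintro v ⟨c, ⟨hcC, hc0⟩, hv⟩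
  have hc : c ≠ 0 := by simpa using hc0
  exact ⟨ord_eq_zero_of_ord_sub_pos v hc hv, c, hcC, hc, hv⟩

/-- **Finitely many points at infinity** (poles of `t`). -/
theorem finite_setOf_ord_neg {t : F} (ht : t ≠ 0) : {v : Place K F | v.ord t < 0}.Finite :=
  (H.fin_ord t ht).subset fun _ hv => ne_of_lt hv

/-- Finitely many zeros of `t`. -/
theorem finite_setOf_ord_pos {t : F} (ht : t ≠ 0) : {v : Place K F | 0 < v.ord t}.Finite :=
  (H.fin_ord t ht).subset fun _ hv => ne_of_gt hv

end Fermat.Agent.JAC.Fibre.Points67
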