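/-
Programme JAC (S25), (Cov) place-language half, helper67: RATIONAL PLACES and the covering theorem
for the constant extension `C_K` of a curve `C` over an algebraically closed field `k`, `K` ANY
field over `k` (`AlgAtlas.covers` quantifies over all fields).

* Generic part.  `B` a Dedekind `K`-algebra, not a field, with fraction field `F`.  A `K`-point
  `Φ : B →ₐ[K] K` gives a place `placeOfAlgHom F hB Φ` of `F / K` centred on `B` (centre `ker Φ`),
  of degree one (`deg_placeOfAlgHom`); `Φ ↦ placeOfAlgHom F hB Φ` is injective,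
  `Φ b = 0 ↔ 0 < ord (b)` (`ord_placeOfAlgHom_pos_iff`), every place of degree one centred on `B`
  arises in this way (`algHomOfPlace`, `placeOfAlgHom_algHomOfPlace`), and a place whose centre
  contains `ker Φ` is `placeOfAlgHom Φ` (`eq_placeOfAlgHom_of_ker_le`).
  Change of chart: `placeOfAlgHom_comp`.
* Constant extensions `B = K ⊗[k] A`: `ratPlace F hB φ` for a `k`-point `φ : A →ₐ[k] k`
  (through `ConstFamily36.rigHom K φ : K ⊗[k] A →ₐ[K] K`); injective in `φ`; degree one;
  `ord_ratPlace_pos_iff`; `ratPlace_comp`.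
  `exists_ratPlace_eq`: for `k` algebraically closed and `A / (a)` finite over `k`, every zero of
  `1 ⊗ a` centred on `K ⊗[k] A` is `ratPlace φ` with `φ a = 0` (so: the points at infinity of `C_K`
  and the zeros of `t - c`, `c ∈ k`, are `k`-rational).
* `exists_translate_ratPlaces` (and `exists_translate_ratPlaces_core` in the language of
  `Core38`): THE COVERING THEOREM: for every divisor `D₀` of `F / K` with `χ = 1` there are lists
  `l`, `l'` of `k`-points of the overlap `A01`, of the same length, with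
  `h¹(D₀ + Σ l' - Σ l) = 0`, `h⁰ = 1` and no zero at infinity.
-/
import Mathlib
import Fermat.Agent.X0.FFDedekind
import Fermat.Agent.JAC.Fibre.Setting38
import Fermat.Agent.JAC.Core.ConstFamily36
import Fermat.Agent.JAC.Fibre.Points67
import Fermat.Agent.JAC.Fibre.CurveLikeSub67
import Fermat.Agent.JAC.Fibre.Bridge67

set_option autoImplicit false
set_option linter.unusedSectionVars false

open AlgebraicCurve IsDedekindDomain IsLocalRing

namespace Fermat.Agent.JAC.Fibre.RatPlaces67

open Fermat.Agent.X0.FFDedekind Fermat.Agent.JAC.Fibre.Chart38 Fermat.Agent.JAC.Fibre.Setting38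

section Generic

variable {K F : Type*} [Field K] [Field F] [Algebra K F]
variable {B : Type*} [CommRing B] [IsDedekindDomain B] [Algebra B F] [IsFractionRing B F]
  [Algebra K B] [IsScalarTower K B F]

omit [IsDedekindDomain B] in
/-- The kernel of a `K`-point of a `K`-algebra which is not a field is nonzero. -/
theorem ker_ne_bot (hB : ¬ IsField B) (Φ : B →ₐ[K] K) : RingHom.ker (Φ : B →+* K) ≠ ⊥ := by
  intro h
  apply hB
  have hinj : Function.Injective Φ := (RingHom.injective_iff_ker_eq_bot (Φ : B →+* K)).mpr h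
  have hsurj : Function.Surjective Φ := fun c => ⟨algebraMap K B c, Φ.commutes c⟩
  exact MulEquiv.isField (Field.toIsField K)
    (RingEquiv.ofBijective (Φ : B →+* K) ⟨hinj, hsurj⟩).toMulEquiv

/-- The kernel of a `K`-point as a height-one prime. -/
def specOfAlgHom (hB : ¬ IsField B) (Φ : B →ₐ[K] K) : HeightOneSpectrum B where
  asIdeal := RingHom.ker (Φ : B →+* K)
  isPrime := RingHom.ker_isPrime _
  ne_bot := ker_ne_bot hB Φ

omit [IsDedekindDomain B] in
@[simp] theorem specOfAlgHom_asIdeal (hB : ¬ IsField B) (Φ : B →ₐ[K] K) :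
    (specOfAlgHom hB Φ).asIdeal = RingHom.ker (Φ : B →+* K) := rfl

variable (F) in
/-- The place of `F / K` attached to a `K`-point of the Dedekind model `B`. -/
noncomputable def placeOfAlgHom (hB : ¬ IsField B) (Φ : B →ₐ[K] K) : Place K F :=
  Place.ofHeightOneSpectrum (K := K) (F := F) (specOfAlgHom hB Φ)

theorem placeOfAlgHom_mem_chartSet (hB : ¬ IsField B) (Φ : B →ₐ[K] K) :
    placeOfAlgHom F hB Φ ∈ chartSet (K := K) (F := F) B :=
  ofHeightOneSpectrum_mem_chartSet _

theorem centreSpec_placeOfAlgHom (hB : ¬ IsField B) (Φ : B →ₐ[K] K) :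
    centreSpec (placeOfAlgHom F hB Φ) (placeOfAlgHom_mem_chartSet hB Φ) = specOfAlgHom hB Φ :=
  centreSpec_ofHeightOneSpectrum (K := K) (F := F) (specOfAlgHom hB Φ)

/-- The centre of `placeOfAlgHom Φ` is `ker Φ`. -/
theorem mem_centre_placeOfAlgHom (hB : ¬ IsField B) (Φ : B →ₐ[K] K) (b : B) :
    b ∈ centre (placeOfAlgHom F hB Φ) (placeOfAlgHom_mem_chartSet hB Φ) ↔ Φ b = 0 := by
  have h := congrArg HeightOneSpectrum.asIdeal (centreSpec_placeOfAlgHom (F := F) hB Φ)
  change centre (placeOfAlgHom F hB Φ) (placeOfAlgHom_mem_chartSet hB Φ) =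
    RingHom.ker (Φ : B →+* K) at h
  rw [h, RingHom.mem_ker]
  rfl

/-- `Φ b = 0` iff `b` vanishes at the place of `Φ`. -/
theorem ord_placeOfAlgHom_pos_iff (hB : ¬ IsField B) (Φ : B →ₐ[K] K) {b : B} (hb : b ≠ 0) :
    0 < (placeOfAlgHom F hB Φ).ord (algebraMap B F b) ↔ Φ b = 0 := by
  unfold placeOfAlgHom
  rw [ord_ofHeightOneSpectrum_algebraMap_pos_iff (K := K) (F := F) _ hb, specOfAlgHom_asIdeal,
    RingHom.mem_ker]
  rfl

omit [IsDedekindDomain B] in
/-- Two `K`-points with the same kernel are equal. -/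
theorem algHom_ext_of_ker_eq {Φ Ψ : B →ₐ[K] K}
    (h : RingHom.ker (Φ : B →+* K) = RingHom.ker (Ψ : B →+* K)) : Φ = Ψ := by
  ext b
  have h1 : b - algebraMap K B (Φ b) ∈ RingHom.ker (Φ : B →+* K) := by
    rw [RingHom.mem_ker]
    change Φ (b - algebraMap K B (Φ b)) = 0
    rw [map_sub, Φ.commutes]
    simp
  rw [h, RingHom.mem_ker] at h1
  change Ψ (b - algebraMap K B (Φ b)) = 0 at h1
  rw [map_sub, Ψ.commutes, sub_eq_zero] at h1
  simpa using h1.symm

theorem placeOfAlgHom_injective (hB : ¬ IsField B) :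
    Function.Injective (placeOfAlgHom (K := K) F (B := B) hB) := by
  intro Φ Ψ h
  have h1 := ofHeightOneSpectrum_injective (K := K) (F := F) (B := B) h
  exact algHom_ext_of_ker_eq (congrArg HeightOneSpectrum.asIdeal h1)

/-- **Rational places have degree one.** -/
theorem deg_placeOfAlgHom (hB : ¬ IsField B) (Φ : B →ₐ[K] K) :
    (placeOfAlgHom F hB Φ).deg = 1 := by
  set v := placeOfAlgHom F hB Φ with hv
  have hmem : v ∈ chartSet (K := K) (F := F) B := placeOfAlgHom_mem_chartSet hB Φ
  unfold Place.deg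
  rw [finrank_eq_one_iff_of_nonzero' (1 : v.ResidueField) one_ne_zero]
  intro w
  obtain ⟨b, rfl⟩ := residue_toRingAlgHom_surjective v hmem w
  refine ⟨Φ b, ?_⟩
  have h1 : b - algebraMap K B (Φ b) ∈ centre v hmem := by
    rw [mem_centre_placeOfAlgHom, map_sub, Φ.commutes]
    simp
  have h2 : residue v.toValuationSubring (toRingAlgHom v hmem (b - algebraMap K B (Φ b))) = 0 := by
    rw [residue_eq_zero_iff]
    exact h1
  rw [map_sub, map_sub, sub_eq_zero, AlgHom.commutes] at h2
  change Φ b • (1 : v.ResidueField) = residue _ (toRingAlgHom v hmem b)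
  rw [Algebra.smul_def, mul_one, h2]
  rfl

/-- For a place of degree one the residue field is the constant field. -/
theorem algebraMap_residueField_bijective_of_deg_eq_one (v : Place K F) (hdeg : v.deg = 1) :
    Function.Bijective (algebraMap K v.ResidueField) := by
  refine ⟨(algebraMap K v.ResidueField).injective, fun w => ?_⟩
  unfold Place.deg at hdeg
  obtain ⟨c, hc⟩ := (finrank_eq_one_iff_of_nonzero' (1 : v.ResidueField) one_ne_zero).mp hdeg w
  exact ⟨c, by rw [← hc, Algebra.smul_def, mul_one]⟩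

/-- The `K`-point of `B` attached to a place of degree one centred on `B`. -/
noncomputable def algHomOfPlace (v : Place K F) (hv : v ∈ chartSet (K := K) (F := F) B)
    (hdeg : v.deg = 1) : B →ₐ[K] K :=
  ((AlgEquiv.ofBijective (Algebra.ofId K v.ResidueField)
    (algebraMap_residueField_bijective_of_deg_eq_one v hdeg)).symm : v.ResidueField →ₐ[K] K).comp
    ((IsScalarTower.toAlgHom K v.toValuationSubring v.ResidueField).comp (toRingAlgHom v hv))

theorem algebraMap_algHomOfPlace (v : Place K F) (hv : v ∈ chartSet (K := K) (F := F) B)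
    (hdeg : v.deg = 1) (b : B) :
    algebraMap K v.ResidueField (algHomOfPlace v hv hdeg b) =
      residue v.toValuationSubring (toRingAlgHom v hv b) := by
  unfold algHomOfPlace
  exact (AlgEquiv.ofBijective (Algebra.ofId K v.ResidueField)
    (algebraMap_residueField_bijective_of_deg_eq_one v hdeg)).apply_symm_apply _

theorem algHomOfPlace_eq_zero_iff (v : Place K F) (hv : v ∈ chartSet (K := K) (F := F) B)
    (hdeg : v.deg = 1) (b : B) : algHomOfPlace v hv hdeg b = 0 ↔ b ∈ centre v hv := by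
  rw [← (algebraMap K v.ResidueField).injective.eq_iff, algebraMap_algHomOfPlace, map_zero,
    residue_eq_zero_iff]
  rfl

/-- **Every place of degree one centred on `B` is the place of a `K`-point.** -/
theorem placeOfAlgHom_algHomOfPlace (hB : ¬ IsField B) (v : Place K F)
    (hv : v ∈ chartSet (K := K) (F := F) B) (hdeg : v.deg = 1) :
    placeOfAlgHom F hB (algHomOfPlace v hv hdeg) = v := by
  have h : specOfAlgHom hB (algHomOfPlace v hv hdeg) = centreSpec v hv := by
    apply HeightOneSpectrum.ext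
    ext b
    rw [specOfAlgHom_asIdeal, RingHom.mem_ker]
    exact algHomOfPlace_eq_zero_iff v hv hdeg b
  unfold placeOfAlgHom
  rw [h]
  exact ofHeightOneSpectrum_centreSpec v hv

theorem exists_placeOfAlgHom_eq (hB : ¬ IsField B) (v : Place K F)
    (hv : v ∈ chartSet (K := K) (F := F) B) (hdeg : v.deg = 1) :
    ∃ Φ : B →ₐ[K] K, placeOfAlgHom F hB Φ = v :=
  ⟨_, placeOfAlgHom_algHomOfPlace hB v hv hdeg⟩

/-- A place centred on `B` whose centre contains the kernel of a `K`-point is the place of that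
point. -/
theorem eq_placeOfAlgHom_of_ker_le (hB : ¬ IsField B) (Φ : B →ₐ[K] K) (v : Place K F)
    (hv : v ∈ chartSet (K := K) (F := F) B)
    (hle : RingHom.ker (Φ : B →+* K) ≤ centre v hv) : v = placeOfAlgHom F hB Φ := by
  have hmax : (RingHom.ker (Φ : B →+* K)).IsMaximal :=
    (RingHom.ker_isPrime (Φ : B →+* K)).isMaximal (ker_ne_bot hB Φ)
  have hne : centre v hv ≠ ⊤ := (centre_isPrime v hv).ne_top
  have heq : RingHom.ker (Φ : B →+* K) = centre v hv := hmax.eq_of_le hne hle
  have h : specOfAlgHom hB Φ = centreSpec v hv := HeightOneSpectrum.ext heq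
  unfold placeOfAlgHom
  rw [h]
  exact (ofHeightOneSpectrum_centreSpec v hv).symm

end Generic

/-! ### Change of chart -/

section ChangeOfChart

variable {K F : Type*} [Field K] [Field F] [Algebra K F]
variable {B B' : Type*} [CommRing B] [IsDedekindDomain B] [Algebra B F] [IsFractionRing B F]
  [Algebra K B] [IsScalarTower K B F]
  [CommRing B'] [IsDedekindDomain B'] [Algebra B' F] [IsFractionRing B' F]
  [Algebra K B'] [IsScalarTower K B' F] [Algebra B B'] [IsScalarTower B B' F]
  [IsScalarTower K B B']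

theorem chartSet_subset_of_algebra :
    chartSet (K := K) (F := F) B' ⊆ chartSet (K := K) (F := F) B := by
  intro v hv b
  rw [IsScalarTower.algebraMap_apply B B' F]
  exact hv _

/-- The place of a `K`-point of a chart `B'` over `B` (e.g. a localisation of `B`) is the place of
the restricted `K`-point of `B`. -/
theorem placeOfAlgHom_comp (hB : ¬ IsField B) (hB' : ¬ IsField B') (Φ : B' →ₐ[K] K) :
    placeOfAlgHom F hB' Φ = placeOfAlgHom F hB (Φ.comp (IsScalarTower.toAlgHom K B B')) := by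
  set v := placeOfAlgHom F hB' Φ with hv
  have hmem' : v ∈ chartSet (K := K) (F := F) B' := placeOfAlgHom_mem_chartSet hB' Φ
  have hmem : v ∈ chartSet (K := K) (F := F) B := chartSet_subset_of_algebra hmem'
  refine eq_placeOfAlgHom_of_ker_le hB _ v hmem ?_
  intro b hb
  rw [RingHom.mem_ker] at hb
  have hb' : Φ (algebraMap B B' b) = 0 := hb
  rw [← mem_centre_placeOfAlgHom (F := F) hB' Φ] at hb'
  change toValuationSubringHom v hmem' (algebraMap B B' b) ∈ maximalIdeal v.toValuationSubring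
    at hb'
  change toValuationSubringHom v hmem b ∈ maximalIdeal v.toValuationSubring
  have e : toValuationSubringHom v hmem b = toValuationSubringHom v hmem' (algebraMap B B' b) := by
    apply Subtype.ext
    rw [coe_toValuationSubringHom, coe_toValuationSubringHom]
    exact IsScalarTower.algebraMap_apply B B' F b
  rw [e]
  exact hb'

end ChangeOfChart

/-! ### Constant field extensions: `k`-rational places of `K ⊗[k] A` -/

section Const

universe u

open scoped TensorProduct
open Fermat.Agent.JAC.Core.ConstFamily36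

variable {k K : Type u} [Field k] [Field K] [Algebra k K] {A : Type u} [CommRing A] [Algebra k A]

/-- `φ ↦ (c ⊗ a ↦ c * φ a)` is injective. -/
theorem rigHom_injective : Function.Injective (rigHom K (k := k) (A01 := A)) := by
  intro φ ψ h
  ext a
  have h1 := congrArg (fun Φ : K ⊗[k] A →ₐ[K] K => Φ ((1 : K) ⊗ₜ[k] a)) h
  simp only [rigHom_tmul, one_mul] at h1
  exact (algebraMap k K).injective h1

/-- `x - (value of x at φ)` lies in the ideal generated by `1 ⊗ ker φ`; stated for an arbitrary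
ideal `m` containing `1 ⊗ (a - φ a)` for all `a`. -/
theorem sub_rigHom_mem (φ : A →ₐ[k] k) (m : Ideal (K ⊗[k] A))
    (hm : ∀ a : A, ((1 : K) ⊗ₜ[k] (a - algebraMap k A (φ a)) : K ⊗[k] A) ∈ m) (x : K ⊗[k] A) :
    x - algebraMap K (K ⊗[k] A) (rigHom K φ x) ∈ m := by
  induction x using TensorProduct.induction_on with
  | zero => simp
  | tmul c a =>
    have e : (c ⊗ₜ[k] a : K ⊗[k] A) - algebraMap K (K ⊗[k] A) (rigHom K φ (c ⊗ₜ[k] a)) =
        (c ⊗ₜ[k] (1 : A)) * ((1 : K) ⊗ₜ[k] (a - algebraMap k A (φ a))) := by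
      rw [rigHom_tmul, Algebra.TensorProduct.algebraMap_apply, Algebra.algebraMap_self,
        RingHom.id_apply, Algebra.TensorProduct.tmul_mul_tmul, mul_one, one_mul,
        TensorProduct.tmul_sub]
      congr 1
      rw [Algebra.algebraMap_eq_smul_one (A := K), Algebra.algebraMap_eq_smul_one (A := A),
        mul_smul_comm, mul_one, TensorProduct.smul_tmul]
    rw [e]
    exact m.mul_mem_left _ (hm a)
  | add x y hx hy =>
    have e : x + y - algebraMap K (K ⊗[k] A) (rigHom K φ (x + y)) =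
        (x - algebraMap K (K ⊗[k] A) (rigHom K φ x)) +
          (y - algebraMap K (K ⊗[k] A) (rigHom K φ y)) := by
      rw [map_add, map_add]; ring
    rw [e]
    exact m.add_mem hx hy

/-- Over an algebraically closed field a prime `p` of `A` containing `a` with `A / (a)` finite
is the kernel of a `k`-point. -/
theorem exists_algHom_of_prime [IsAlgClosed k] (a : A)
    (hfin : Module.Finite k (A ⧸ Ideal.span {a})) (p : Ideal A) [p.IsPrime] (hap : a ∈ p) :
    ∃ φ : A →ₐ[k] k, φ a = 0 ∧ ∀ x : A, x - algebraMap k A (φ x) ∈ p := by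
  have hle : Ideal.span {a} ≤ p := (Ideal.span_singleton_le_iff_mem p).mpr hap
  have hfin' : Module.Finite k (A ⧸ p) :=
    Module.Finite.of_surjective (Ideal.Quotient.factorₐ k hle).toLinearMap
      (Ideal.Quotient.factor_surjective hle)
  have hint : Algebra.IsIntegral k (A ⧸ p) := Algebra.IsIntegral.of_finite k (A ⧸ p)
  have hbij : Function.Bijective (algebraMap k (A ⧸ p)) :=
    IsAlgClosed.algebraMap_bijective_of_isIntegral
  let e : k ≃ₐ[k] A ⧸ p := AlgEquiv.ofBijective (Algebra.ofId k (A ⧸ p)) hbij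
  let φ : A →ₐ[k] k := (e.symm : (A ⧸ p) →ₐ[k] k).comp (Ideal.Quotient.mkₐ k p)
  have hφ : ∀ x : A, algebraMap k (A ⧸ p) (φ x) = Ideal.Quotient.mk p x := by
    intro x
    exact e.apply_symm_apply (Ideal.Quotient.mk p x)
  refine ⟨φ, ?_, fun x => ?_⟩
  · apply hbij.1
    rw [hφ, map_zero]
    exact Ideal.Quotient.eq_zero_iff_mem.mpr hap
  · rw [← Ideal.Quotient.eq_zero_iff_mem, map_sub, ← hφ x]
    rw [sub_eq_zero]
    exact (IsScalarTower.algebraMap_apply k A (A ⧸ p) (φ x))

variable {F : Type*} [Field F] [Algebra K F]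
  [IsDedekindDomain (K ⊗[k] A)] [Algebra (K ⊗[k] A) F] [IsFractionRing (K ⊗[k] A) F]
  [IsScalarTower K (K ⊗[k] A) F]

variable (F) in
/-- The place of the function field of `C_K` attached to a `k`-point of the chart `A`. -/
noncomputable def ratPlace (hB : ¬ IsField (K ⊗[k] A)) (φ : A →ₐ[k] k) : Place K F :=
  placeOfAlgHom F hB (rigHom K φ)

theorem ratPlace_mem_chartSet (hB : ¬ IsField (K ⊗[k] A)) (φ : A →ₐ[k] k) :
    ratPlace F hB φ ∈ chartSet (K := K) (F := F) (K ⊗[k] A) :=
  placeOfAlgHom_mem_chartSet hB _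

theorem deg_ratPlace (hB : ¬ IsField (K ⊗[k] A)) (φ : A →ₐ[k] k) :
    (ratPlace F hB φ).deg = 1 :=
  deg_placeOfAlgHom hB _

theorem ratPlace_injective (hB : ¬ IsField (K ⊗[k] A)) :
    Function.Injective (ratPlace (k := k) (K := K) (A := A) F hB) :=
  (placeOfAlgHom_injective hB).comp rigHom_injective

/-- `φ a = 0` iff `1 ⊗ a` vanishes at the rational place of `φ`. -/
theorem ord_ratPlace_pos_iff (hB : ¬ IsField (K ⊗[k] A)) (φ : A →ₐ[k] k) {a : A}
    (ha : ((1 : K) ⊗ₜ[k] a : K ⊗[k] A) ≠ 0) :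
    0 < (ratPlace F hB φ).ord (algebraMap (K ⊗[k] A) F ((1 : K) ⊗ₜ[k] a)) ↔ φ a = 0 := by
  unfold ratPlace
  rw [ord_placeOfAlgHom_pos_iff hB _ ha, rigHom_tmul, one_mul, map_eq_zero_iff _
    (algebraMap k K).injective]

/-- **Zeros of `1 ⊗ a` are rational** when `k` is algebraically closed and `A / (a)` is finite
over `k`: a place of `F / K` centred on `K ⊗[k] A` at which `1 ⊗ a` vanishes is the place of a
`k`-point `φ` of `A` with `φ a = 0`. -/
theorem exists_ratPlace_eq [IsAlgClosed k] (hB : ¬ IsField (K ⊗[k] A)) (a : A)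
    (hfin : Module.Finite k (A ⧸ Ideal.span {a})) (v : Place K F)
    (hv : v ∈ chartSet (K := K) (F := F) (K ⊗[k] A))
    (hpos : 0 < v.ord (algebraMap (K ⊗[k] A) F ((1 : K) ⊗ₜ[k] a))) :
    ∃ φ : A →ₐ[k] k, φ a = 0 ∧ v = ratPlace F hB φ := by
  have ha0 : ((1 : K) ⊗ₜ[k] a : K ⊗[k] A) ≠ 0 := by
    intro h0
    rw [h0, map_zero, Place.ord_zero] at hpos
    exact lt_irrefl _ hpos
  -- `1 ⊗ a` lies in the centre
  have hmem : ((1 : K) ⊗ₜ[k] a : K ⊗[k] A) ∈ centre v hv := by
    have h := ord_ofHeightOneSpectrum_algebraMap_pos_iff (K := K) (F := F) (centreSpec v hv) ha0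
    rw [ofHeightOneSpectrum_centreSpec v hv] at h
    exact h.mp hpos
  let ι : A →ₐ[k] K ⊗[k] A := Algebra.TensorProduct.includeRight
  let p : Ideal A := (centre v hv).comap ι
  have hp : p.IsPrime := Ideal.comap_isPrime _ _
  have hap : a ∈ p := hmem
  obtain ⟨φ, hφa, hφ⟩ := exists_algHom_of_prime a hfin p hap
  refine ⟨φ, hφa, ?_⟩
  refine eq_placeOfAlgHom_of_ker_le hB _ v hv ?_
  intro x hx
  rw [RingHom.mem_ker] at hx
  have hx' : rigHom K φ x = 0 := hx
  have h := sub_rigHom_mem φ (centre v hv) (fun a' => hφ a') x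
  rwa [hx', map_zero, sub_zero] at h

end Const

/-! ### The covering theorem for constant field extensions -/

section Cover

universe u

open scoped TensorProduct
open scoped Fermat.Agent.JAC.Core.ConstFamily36
open Fermat.Agent.JAC.Core.ConstFamily36 Fermat.Agent.JAC.Fibre.Vanish67
  Fermat.Agent.JAC.Fibre.CurveLikeSub67 Fermat.Agent.JAC.Cover.AbsCover98 Polynomial WithZero

variable {k K : Type u} [Field k] [Field K] [Algebra k K]

section Comp

variable {A A' : Type u} [CommRing A] [CommRing A'] [Algebra k A] [Algebra k A'] [Algebra A A']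
  [IsScalarTower k A A']

theorem rigHom_comp_tensor (φ : A' →ₐ[k] k) :
    (rigHom K φ).comp (IsScalarTower.toAlgHom K (K ⊗[k] A) (K ⊗[k] A')) =
      rigHom K (φ.comp (IsScalarTower.toAlgHom k A A')) := by
  apply AlgHom.ext
  intro x
  induction x using TensorProduct.induction_on with
  | zero => simp
  | tmul c a =>
    change rigHom K φ (algebraMap (K ⊗[k] A) (K ⊗[k] A') (c ⊗ₜ[k] a)) = _
    rw [algebraMap_tensor_tmul, rigHom_tmul, rigHom_tmul]
    rfl
  | add x y hx hy => rw [map_add, map_add, hx, hy]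

variable {F : Type*} [Field F] [Algebra K F]
  [IsDedekindDomain (K ⊗[k] A)] [Algebra (K ⊗[k] A) F] [IsFractionRing (K ⊗[k] A) F]
  [IsScalarTower K (K ⊗[k] A) F]
  [IsDedekindDomain (K ⊗[k] A')] [Algebra (K ⊗[k] A') F] [IsFractionRing (K ⊗[k] A') F]
  [IsScalarTower K (K ⊗[k] A') F] [IsScalarTower (K ⊗[k] A) (K ⊗[k] A') F]

/-- The rational place of a `k`-point of a chart `A'` over `A` is the rational place of the
restricted `k`-point of `A`. -/
theorem ratPlace_comp (hB : ¬ IsField (K ⊗[k] A)) (hB' : ¬ IsField (K ⊗[k] A'))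
    (φ : A' →ₐ[k] k) :
    ratPlace F hB' φ = ratPlace F hB (φ.comp (IsScalarTower.toAlgHom k A A')) := by
  unfold ratPlace
  rw [placeOfAlgHom_comp hB hB', rigHom_comp_tensor]

end Comp

variable {A : Type u} [CommRing A] [Algebra k A] {F : Type*} [Field F] [Algebra K F]
  [IsDedekindDomain (K ⊗[k] A)] [Algebra (K ⊗[k] A) F] [IsFractionRing (K ⊗[k] A) F]
  [IsScalarTower K (K ⊗[k] A) F] in
/-- The effective divisor `Σ_{φ ∈ l} [φ]` of a list of `k`-points, on the function field of
`C_K`. -/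
noncomputable def divOfPoints (hB : ¬ IsField (K ⊗[k] A)) (l : List (A →ₐ[k] k)) :
    Divisor K F :=
  (l.map fun φ => Finsupp.single (ratPlace F hB φ) (1 : ℤ)).sum

variable {A0 A1 A01 : Type u} [CommRing A0] [CommRing A1] [CommRing A01] [Algebra k A0]
  [Algebra k A1] [Algebra k A01] [Algebra A0 A01] [Algebra A1 A01] [IsScalarTower k A0 A01]
  [IsScalarTower k A1 A01]
  {F : Type*} [Field F] [Algebra K F]
  [IsDedekindDomain (K ⊗[k] A0)] [Algebra (K ⊗[k] A0) F] [IsFractionRing (K ⊗[k] A0) F]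
  [IsScalarTower K (K ⊗[k] A0) F]
  [IsDedekindDomain (K ⊗[k] A1)] [Algebra (K ⊗[k] A1) F] [IsFractionRing (K ⊗[k] A1) F]
  [IsScalarTower K (K ⊗[k] A1) F]
  [IsDedekindDomain (K ⊗[k] A01)] [Algebra (K ⊗[k] A01) F] [IsFractionRing (K ⊗[k] A01) F]
  [IsScalarTower K (K ⊗[k] A01) F]
  [IsScalarTower (K ⊗[k] A0) (K ⊗[k] A01) F]

/-- **(Cov), place-language half.**  `k` algebraically closed, `K` any field over `k`,
`(A0 → A01 ← A1; t, s)` the CURVE data, `F` the function field of `C_K` with its two Dedekind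
charts `K ⊗ A0`, `K ⊗ A1`.  For every divisor `D₀` of `F / K` with `χ(O(D₀)) = 1` there are lists
`l`, `l'` of `k`-points of the overlap `A01`, of the same length, such that
`D = D₀ + Σ l' - Σ l` has `h¹ = 0`, `h⁰ = 1`, and the section of `O(D)` does not vanish at any point
at infinity (`h⁰(D - v) = 0` for all `v` outside the chart `K ⊗ A0`). -/
theorem exists_translate_ratPlaces [IsAlgClosed k]
    (hB0 : ¬ IsField (K ⊗[k] A0)) (hB1 : ¬ IsField (K ⊗[k] A1)) (hB01 : ¬ IsField (K ⊗[k] A01))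
    (t : A0) (s : A1) [IsLocalization.Away t A01]
    (hts : algebraMap (K ⊗[k] A0) F ((1 : K) ⊗ₜ[k] t) *
      algebraMap (K ⊗[k] A1) F ((1 : K) ⊗ₜ[k] s) = 1)
    (hint₀ : (aeval ((1 : K) ⊗ₜ[k] t) : K[X] →ₐ[K] K ⊗[k] A0).toRingHom.IsIntegral)
    (htr : Transcendental K (algebraMap (K ⊗[k] A0) F ((1 : K) ⊗ₜ[k] t)))
    (hfin0 : ∀ c : k, Module.Finite k (A0 ⧸ Ideal.span {t - algebraMap k A0 c}))
    (hfin1 : Module.Finite k (A1 ⧸ Ideal.span {s}))
    (H : TwoChartHyp (chartSet (K := K) (F := F) (K ⊗[k] A0))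
      (chartSet (K := K) (F := F) (K ⊗[k] A1)))
    (hres : ∀ v : Place K F, Module.Finite K v.ResidueField)
    (D0 : Divisor K F)
    (hchi : chi (chartSet (K := K) (F := F) (K ⊗[k] A0))
      (chartSet (K := K) (F := F) (K ⊗[k] A1)) D0 = 1) :
    ∃ l l' : List (A01 →ₐ[k] k), l.length = l'.length ∧
      l.length ≤ h0 (chartSet (K := K) (F := F) (K ⊗[k] A0))
        (chartSet (K := K) (F := F) (K ⊗[k] A1)) D0 ∧
      h1 (chartSet (K := K) (F := F) (K ⊗[k] A0)) (chartSet (K := K) (F := F) (K ⊗[k] A1))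
        (D0 + divOfPoints hB01 l' - divOfPoints hB01 l) = 0 ∧
      h0 (chartSet (K := K) (F := F) (K ⊗[k] A0)) (chartSet (K := K) (F := F) (K ⊗[k] A1))
        (D0 + divOfPoints hB01 l' - divOfPoints hB01 l) = 1 ∧
      ∀ v : Place K F, v ∉ chartSet (K := K) (F := F) (K ⊗[k] A0) →
        h0 (chartSet (K := K) (F := F) (K ⊗[k] A0)) (chartSet (K := K) (F := F) (K ⊗[k] A1))
          (D0 + divOfPoints hB01 l' - divOfPoints hB01 l - Finsupp.single v 1) = 0 := by
  classical
  set U0 := chartSet (K := K) (F := F) (K ⊗[k] A0) with hU0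
  set U1 := chartSet (K := K) (F := F) (K ⊗[k] A1) with hU1
  set τ := algebraMap (K ⊗[k] A0) F ((1 : K) ⊗ₜ[k] t) with hτ
  set σ := algebraMap (K ⊗[k] A1) F ((1 : K) ⊗ₜ[k] s) with hσ
  have hτ0 : τ ≠ 0 := left_ne_zero_of_mul_eq_one hts
  have hσinv : σ = τ⁻¹ := eq_inv_of_mul_eq_one_right hts
  have hdegpos : ∀ v : Place K F, 0 < v.deg := fun v => by
    have := hres v
    unfold Place.deg
    exact Module.finrank_pos
  -- a place outside `U0` is a pole of `τ`
  have hpole : ∀ v : Place K F, v ∉ U0 → v.ord τ < 0 := by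
    intro v hv
    have hτv : τ ∉ v.toValuationSubring := fun h => hv (mem_chartSet_of_mem _ hint₀ v h)
    have h1 : ¬ v.adicValuation τ ≤ 1 := fun h => hτv ((mem_iff_adicValuation_le_one v).mpr h)
    rw [v.adicValuation_eq_exp_neg_ord hτ0, ← exp_zero, exp_le_exp] at h1
    omega
  -- points at infinity are rational
  have hInfRat : ∀ v : Place K F, v ∉ U0 →
      ∃ φ : A1 →ₐ[k] k, φ s = 0 ∧ v = ratPlace F hB1 φ := by
    intro v hv
    have hv1 : v ∈ U1 := by
      have : v ∈ U0 ∪ U1 := by rw [H.cover]; trivial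
      exact this.resolve_left hv
    have hpos : 0 < v.ord σ := by
      have := hpole v hv
      rw [hσinv, Place.ord_inv]
      omega
    exact exists_ratPlace_eq hB1 s hfin1 v hv1 hpos
  -- the index type: places of degree one
  let Pt := {v : Place K F // v.deg = 1}
  let p : Pt → Place K F := Subtype.val
  have hp : Function.Injective p := Subtype.val_injective
  have hdeg : ∀ P : Pt, (p P).deg = 1 := fun P => P.2
  let S : Set Pt := {P | ∃ φ : A01 →ₐ[k] k, P.1 = ratPlace F hB01 φ}
  let Inf : Set Pt := {P | P.1 ∉ U0}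
  have hInf : Inf.Finite := by
    have h := Points67.finite_setOf_ord_neg H hτ0
    refine (h.preimage hp.injOn).subset ?_
    intro P hP
    exact hpole P.1 hP
  have hS : S.Infinite := by
    have hC : (Set.range (algebraMap k K)).Infinite :=
      Set.infinite_range_of_injective (algebraMap k K).injective
    have hV := Points67.infinite_setOf_overlap H hdegpos htr hC
    intro hSfin
    apply hV
    refine (hSfin.image p).subset ?_
    rintro v ⟨hv0, c, ⟨c0, rfl⟩, hc, hv⟩
    have hvU0 : v ∈ U0 := by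
      refine mem_chartSet_of_mem _ hint₀ v ((mem_iff_adicValuation_le_one v).mpr ?_)
      rw [v.adicValuation_eq_exp_neg_ord hτ0, hv0, neg_zero, exp_zero]
    have hc0 : c0 ≠ 0 := by
      rintro rfl
      exact hc (map_zero _)
    have e : algebraMap (K ⊗[k] A0) F ((1 : K) ⊗ₜ[k] (t - algebraMap k A0 c0)) =
        τ - algebraMap K F (algebraMap k K c0) := by
      rw [TensorProduct.tmul_sub, map_sub, hτ]
      congr 1
      rw [IsScalarTower.algebraMap_apply K (K ⊗[k] A0) F,
        Algebra.TensorProduct.algebraMap_apply, Algebra.algebraMap_self, RingHom.id_apply,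
        Algebra.algebraMap_eq_smul_one (A := A0), Algebra.algebraMap_eq_smul_one (A := K),
        TensorProduct.smul_tmul]
    obtain ⟨φ0, hφ0, hvφ0⟩ := exists_ratPlace_eq hB0 (t - algebraMap k A0 c0) (hfin0 c0) v hvU0
      (by rw [e]; exact hv)
    have hφ0t : φ0 t = c0 := by
      rw [map_sub, sub_eq_zero, AlgHom.commutes] at hφ0
      simpa using hφ0
    have hunit : ∀ y : Submonoid.powers t, IsUnit (φ0 y) := by
      rintro ⟨_, n, rfl⟩
      rw [map_pow, hφ0t]
      exact (isUnit_iff_ne_zero.mpr hc0).pow n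
    let φ : A01 →ₐ[k] k := IsLocalization.liftAlgHom hunit
    have hφ : φ.comp (IsScalarTower.toAlgHom k A0 A01) = φ0 := by
      ext a
      exact IsLocalization.lift_eq _ a
    refine ⟨⟨v, ?_⟩, ⟨φ, ?_⟩, rfl⟩
    · rw [hvφ0]
      exact deg_ratPlace hB0 φ0
    · change v = ratPlace F hB01 φ
      rw [ratPlace_comp hB0 hB01 φ, hφ]
      exact hvφ0
  obtain ⟨l, l', hl, hl', hlen, hle, h1', h0', hI⟩ :=
    exists_translate H hp hdeg hS hInf D0 hchi
  -- replace the lists of places by lists of `k`-points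
  have hconv : ∀ m : List Pt, (∀ x ∈ m, x ∈ S) → ∃ m' : List (A01 →ₐ[k] k),
      m'.length = m.length ∧ divOfPoints (F := F) hB01 m' = pushDiv p (dv m) := by
    intro m
    induction m with
    | nil => intro _; exact ⟨[], rfl, by simp [divOfPoints]⟩
    | cons P m ih =>
      intro hm
      obtain ⟨m', hlen', hm'⟩ := ih (fun x hx => hm x (List.mem_cons_of_mem _ hx))
      obtain ⟨φ, hφ⟩ := hm P List.mem_cons_self
      refine ⟨φ :: m', by simp [hlen'], ?_⟩
      rw [dv_cons, map_add, pushDiv_single, ← hm']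
      change _ = Finsupp.single P.1 1 + _
      rw [hφ]
      simp [divOfPoints]
  obtain ⟨m, hmlen, hm⟩ := hconv l hl
  obtain ⟨m', hm'len, hm'⟩ := hconv l' hl'
  refine ⟨m, m', by omega, by omega, ?_, ?_, ?_⟩
  · rw [hm, hm']; exact h1'
  · rw [hm, hm']; exact h0'
  · intro v hv
    obtain ⟨φ, -, hvφ⟩ := hInfRat v hv
    have hvdeg : v.deg = 1 := by rw [hvφ]; exact deg_ratPlace hB1 φ
    have := hI ⟨v, hvdeg⟩ hv
    rw [hm, hm']; exact this

end Cover

/-! ### The covering theorem in the language of `Core38` -/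

section CoverCore

universe u

open scoped TensorProduct
open scoped Fermat.Agent.JAC.Core.ConstFamily36
open Fermat.Agent.JAC.Core.ConstFamily36 Polynomial

variable {k K : Type u} [Field k] [Field K] [Algebra k K]
  {A0 A1 A01 : Type u} [CommRing A0] [CommRing A1] [CommRing A01] [Algebra k A0]
  [Algebra k A1] [Algebra k A01] [Algebra A0 A01] [Algebra A1 A01] [IsScalarTower k A0 A01]
  [IsScalarTower k A1 A01]
  {F : Type*} [Field F] [Algebra K F]
  [IsDedekindDomain (K ⊗[k] A0)] [Algebra (K ⊗[k] A0) F] [IsFractionRing (K ⊗[k] A0) F]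
  [IsScalarTower K (K ⊗[k] A0) F]
  [IsDedekindDomain (K ⊗[k] A1)] [Algebra (K ⊗[k] A1) F] [IsFractionRing (K ⊗[k] A1) F]
  [IsScalarTower K (K ⊗[k] A1) F]
  [IsDedekindDomain (K ⊗[k] A01)] [Algebra (K ⊗[k] A01) F] [IsFractionRing (K ⊗[k] A01) F]
  [IsScalarTower K (K ⊗[k] A01) F]
  [IsScalarTower (K ⊗[k] A0) (K ⊗[k] A01) F]

/-- **(Cov), place-language half**, for helper38's interface `Core38.TwoChart` (plus one divisor
with vanishing `H¹`, e.g. from `SettingFrame38.twoChart_of_bases`). -/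
theorem exists_translate_ratPlaces_core [IsAlgClosed k]
    (hB0 : ¬ IsField (K ⊗[k] A0)) (hB1 : ¬ IsField (K ⊗[k] A1)) (hB01 : ¬ IsField (K ⊗[k] A01))
    (t : A0) (s : A1) [IsLocalization.Away t A01]
    (hts : algebraMap (K ⊗[k] A0) F ((1 : K) ⊗ₜ[k] t) *
      algebraMap (K ⊗[k] A1) F ((1 : K) ⊗ₜ[k] s) = 1)
    (hint₀ : (aeval ((1 : K) ⊗ₜ[k] t) : K[X] →ₐ[K] K ⊗[k] A0).toRingHom.IsIntegral)
    (htr : Transcendental K (algebraMap (K ⊗[k] A0) F ((1 : K) ⊗ₜ[k] t)))
    (hfin0 : ∀ c : k, Module.Finite k (A0 ⧸ Ideal.span {t - algebraMap k A0 c}))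
    (hfin1 : Module.Finite k (A1 ⧸ Ideal.span {s}))
    (T : Core38.TwoChart (chartSet (K := K) (F := F) (K ⊗[k] A0))
      (chartSet (K := K) (F := F) (K ⊗[k] A1)))
    (hvan : ∃ E : Divisor K F, Core38.h1n (chartSet (K := K) (F := F) (K ⊗[k] A0))
      (chartSet (K := K) (F := F) (K ⊗[k] A1)) E = 0)
    (D0 : Divisor K F)
    (hchi : Core38.chi (chartSet (K := K) (F := F) (K ⊗[k] A0))
      (chartSet (K := K) (F := F) (K ⊗[k] A1)) D0 = 1) :
    ∃ l l' : List (A01 →ₐ[k] k), l.length = l'.length ∧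
      l.length ≤ Core38.h0n (chartSet (K := K) (F := F) (K ⊗[k] A0))
        (chartSet (K := K) (F := F) (K ⊗[k] A1)) D0 ∧
      Core38.h1n (chartSet (K := K) (F := F) (K ⊗[k] A0))
        (chartSet (K := K) (F := F) (K ⊗[k] A1))
        (D0 + divOfPoints hB01 l' - divOfPoints hB01 l) = 0 ∧
      Core38.h0n (chartSet (K := K) (F := F) (K ⊗[k] A0))
        (chartSet (K := K) (F := F) (K ⊗[k] A1))
        (D0 + divOfPoints hB01 l' - divOfPoints hB01 l) = 1 ∧
      ∀ v : Place K F, v ∉ chartSet (K := K) (F := F) (K ⊗[k] A0) →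
        Core38.h0n (chartSet (K := K) (F := F) (K ⊗[k] A0))
          (chartSet (K := K) (F := F) (K ⊗[k] A1))
          (D0 + divOfPoints hB01 l' - divOfPoints hB01 l - Finsupp.single v 1) = 0 := by
  have H := Bridge67.twoChartHyp T hvan
  have hchi' := hchi
  rw [← Bridge67.chi_eq] at hchi'
  obtain ⟨l, l', hlen, hle, h1', h0', hI⟩ := exists_translate_ratPlaces hB0 hB1 hB01 t s hts hint₀
    htr hfin0 hfin1 H T.finite_residue D0 hchi'
  refine ⟨l, l', hlen, ?_, ?_, ?_, ?_⟩
  · rw [← Bridge67.h0_eq]; exact hle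
  · rw [← Bridge67.h1_eq]; exact h1'
  · rw [← Bridge67.h0_eq]; exact h0'
  · intro v hv
    rw [← Bridge67.h0_eq]
    exact hI v hv

end CoverCore

end Fermat.Agent.JAC.Fibre.RatPlaces67
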