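/-
Programme JAC (S25), (Cov) wiring, helper67: the three "good chart" conditions of helper24's
`GoodAt` (report #684: `H1Zero`, `IsGenSection`, `NoZeroInf`) for the line diagram
`O(D) = DiagOfDiv38.lineDiagOfDiv S D` of a divisor, in DIVISOR LANGUAGE (direction divisor ⇒ diagram,
which is what the covering hypothesis `cov` needs):

* `h1Zero_of_h1n_eq_zero` : `h¹(D) = 0` ⇒ every `z ∈ M01` is `rho0 x - rho1 y`;
* `exists_generator_of_h0n_eq_one` : `h⁰(D) = 1` ⇒ there is `σ ≠ 0` in `H⁰` such that every element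
  of `H⁰` is a unique `K`-multiple of `σ`;
* `exists_decomp_of_ord_eq` / `span_sup_smul_eq_top` : if `σ ∈ lat U₁ D` has exact order `-D v` at
  every point `v` outside `U₀` (`⇔ h⁰(D - v) = 0`), then `B₁ σ + s · M1 = M1`
  (the section generates at infinity).
-/
import Mathlib
import Fermat.Agent.JAC.Fibre.DiagOps38
import Fermat.Agent.JAC.Fibre.Bridge67
import Fermat.Agent.JAC.Fibre.CurveLikeSub67

set_option autoImplicit false
set_option linter.unusedSectionVars false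

open AlgebraicCurve IsDedekindDomain WithZero Polynomial Pointwise

namespace Fermat.Agent.JAC.Fibre.GoodDiv67

open Fermat.Agent.JAC.Fibre.Lat38 Fermat.Agent.JAC.Fibre.Core38 Fermat.Agent.JAC.Fibre.Chart38
  Fermat.Agent.JAC.Fibre.Setting38 Fermat.Agent.JAC.Fibre.DiagOfDiv38
  Fermat.Agent.JAC.Core.Defs36 Fermat.Agent.X0.FFDedekind Fermat.Agent.X0.FF

universe u

variable {K : Type u} {F : Type u} [Field K] [Field F] [Algebra K F]
  {B₀ : Type u} [CommRing B₀] [IsDedekindDomain B₀] [Algebra B₀ F] [IsFractionRing B₀ F]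
  [Algebra K B₀] [IsScalarTower K B₀ F]
  {B₁ : Type u} [CommRing B₁] [IsDedekindDomain B₁] [Algebra B₁ F] [IsFractionRing B₁ F]
  [Algebra K B₁] [IsScalarTower K B₁ F]
  {B₀₁ : Type u} [CommRing B₀₁] [IsDedekindDomain B₀₁] [Algebra B₀₁ F] [IsFractionRing B₀₁ F]
  [Algebra K B₀₁] [IsScalarTower K B₀₁ F]
  [Algebra B₀ B₀₁] [Algebra B₁ B₀₁] [IsScalarTower B₀ B₀₁ F] [IsScalarTower B₁ B₀₁ F]
  {t : B₀} {s : B₁}

/-! ### `H¹ = 0` -/

/-- `h¹(D) = 0` ⇒ `H1Zero (O(D))`. -/
theorem h1Zero_of_h1n_eq_zero (S : IsSetting K F t s B₀₁)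
    (T : TwoChart (chartSet (K := K) (F := F) B₀) (chartSet (K := K) (F := F) B₁))
    (D : Divisor K F)
    (h : h1n (chartSet (K := K) (F := F) B₀) (chartSet (K := K) (F := F) B₁) D = 0)
    (z : (lineDiagOfDiv S D).M01) :
    ∃ (x : (lineDiagOfDiv S D).M0) (y : (lineDiagOfDiv S D).M1),
      (lineDiagOfDiv S D).rho0 x - (lineDiagOfDiv S D).rho1 y = z := by
  obtain ⟨z, hz'⟩ : ↥(latMod B₀₁ D) := z
  have hz : z ∈ lat (chartSet (K := K) (F := F) B₀₁) D := mem_latMod_iff.mp hz'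
  rw [← S.inter_eq] at hz
  have hle := (T.h1n_eq_zero_iff D).mp h hz
  obtain ⟨a, ha, b, hb, hab⟩ := Submodule.mem_sup.mp hle
  refine ⟨(⟨a, mem_latMod_iff.mpr ha⟩ : ↥(latMod B₀ D)),
    (⟨-b, mem_latMod_iff.mpr (Submodule.neg_mem _ hb)⟩ : ↥(latMod B₁ D)), ?_⟩
  apply Subtype.ext
  change a - -b = z
  rw [sub_neg_eq_add, hab]

/-! ### `H⁰` of dimension one -/

/-- `h⁰(D) = 1` ⇒ `H⁰(O(D))` is generated by a nonzero section `σ`, uniquely. -/
theorem exists_generator_of_h0n_eq_one (D : Divisor K F)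
    (h : h0n (chartSet (K := K) (F := F) B₀) (chartSet (K := K) (F := F) B₁) D = 1) :
    ∃ σ : F, σ ≠ 0 ∧ σ ∈ lat (chartSet (K := K) (F := F) B₀) D ∧
      σ ∈ lat (chartSet (K := K) (F := F) B₁) D ∧
      ∀ f : F, f ∈ lat (chartSet (K := K) (F := F) B₀) D →
        f ∈ lat (chartSet (K := K) (F := F) B₁) D → ∃! c : K, f = algebraMap K F c * σ := by
  rw [h0n_eq_finrank] at h
  obtain ⟨⟨σ, hσ⟩, hσ0, hgen⟩ := finrank_eq_one_iff'.mp h
  have hσne : σ ≠ 0 := fun h0 => hσ0 (Subtype.ext h0)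
  refine ⟨σ, hσne, hσ.1, hσ.2, fun f hf0 hf1 => ?_⟩
  obtain ⟨c, hc⟩ := hgen ⟨f, hf0, hf1⟩
  have hc' : f = algebraMap K F c * σ := by
    have := congrArg Subtype.val hc
    simp only [Submodule.coe_smul] at this
    rw [← this, Algebra.smul_def]
  refine ⟨c, hc', fun c' hc'' => ?_⟩
  have : algebraMap K F c' * σ = algebraMap K F c * σ := by rw [← hc'', ← hc']
  exact (algebraMap K F).injective (mul_right_cancel₀ hσne this)

/-! ### No zero at infinity -/

/-- A zero of `s` on the chart `U₁` lies outside `U₀`. -/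
theorem notMem_chartSet_of_ord_pos (S : IsSetting K F t s B₀₁) {v : Place K F}
    (hpos : 0 < v.ord (algebraMap B₁ F s)) : v ∉ chartSet (K := K) (F := F) B₀ := by
  intro hv
  have h0 := ffp_ord_nonneg_of_mem v (hv t)
  have h1 : v.ord (algebraMap B₁ F s) = -v.ord (algebraMap B₀ F t) := by
    rw [S.sigma_eq, v.ord_inv]
  omega

/-- **The section generates at infinity.**  If `σ ≠ 0` in `lat U₁ D` has exact order `-D v` at
every place `v` outside `U₀`, then every `f ∈ lat U₁ D` is `b σ + s g` with `b ∈ B₁`,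
`g ∈ lat U₁ D`. -/
theorem exists_decomp_of_ord_eq (S : IsSetting K F t s B₀₁) (D : Divisor K F) {σ : F}
    (hσ0 : σ ≠ 0) (hσ : σ ∈ lat (chartSet (K := K) (F := F) B₁) D)
    (hord : ∀ v : Place K F, v ∉ chartSet (K := K) (F := F) B₀ → v.ord σ = -D v)
    {f : F} (hf : f ∈ lat (chartSet (K := K) (F := F) B₁) D) :
    ∃ (b : B₁) (g : F), g ∈ lat (chartSet (K := K) (F := F) B₁) D ∧
      f = algebraMap B₁ F b * σ + algebraMap B₁ F s * g := by
  classical
  set σs := algebraMap B₁ F s with hσs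
  have hs0 : σs ≠ 0 := S.symm.tau_ne_zero
  have hfinS : {v : Place K F | v ∈ chartSet (K := K) (F := F) B₁ ∧ v.ord σs ≠ 0}.Finite :=
    finite_ord_ne_zero_chart (K := K) (B := B₁) hs0
  set S' : Finset (Place K F) := hfinS.toFinset with hS'
  have hS'mem : ∀ v, v ∈ S' ↔ v ∈ chartSet (K := K) (F := F) B₁ ∧ v.ord σs ≠ 0 := by
    intro v
    rw [hS', Set.Finite.mem_toFinset]
    rfl
  -- at the places of `S'`, `s` vanishes, `σ` has exact order and `f / σ` is regular
  have hpos : ∀ v ∈ S', 0 < v.ord σs := by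
    intro v hv
    obtain ⟨hv1, hne⟩ := (hS'mem v).mp hv
    have : 0 ≤ v.ord σs := ffp_ord_nonneg_of_mem v (hv1 s)
    omega
  set g₀ := f / σ with hg₀
  have hg₀reg : ∀ v ∈ S', v.adicValuation g₀ ≤ 1 := by
    intro v hv
    obtain ⟨hv1, _⟩ := (hS'mem v).mp hv
    have hv0 : v ∉ chartSet (K := K) (F := F) B₀ := notMem_chartSet_of_ord_pos S (hpos v hv)
    rw [v.adicValuation_le_one_iff]
    rcases eq_or_ne f 0 with hf0 | hf0
    · left; rw [hg₀, hf0, zero_div]
    · right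
      have h1 := ((mem_lat_iff_ord.mp hf) v hv1).resolve_left hf0
      rw [hg₀, div_eq_mul_inv, v.ord_mul hf0 (inv_ne_zero hσ0), v.ord_inv, hord v hv0]
      omega
  obtain ⟨b', hb1, hb2⟩ := strong_approx_place (K := K) (B := B₁) S'
    (fun v hv => ((hS'mem v).mp hv).1) (fun _ => g₀) (fun v => -v.ord σs)
  -- `b'` is regular on `U₁`
  have hb' : b' ∈ lat (chartSet (K := K) (F := F) B₁) 0 := by
    intro v hv
    rw [Finsupp.zero_apply, exp_zero]
    by_cases hvS : v ∈ S'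
    · have h1 := hb1 v hvS
      have h2 : v.adicValuation (b' - g₀) ≤ 1 := by
        refine h1.trans ?_
        rw [← exp_zero, exp_le_exp]
        have := hpos v hvS
        omega
      have h3 : b' = (b' - g₀) + g₀ := by ring
      rw [h3]
      exact (Valuation.map_add _ _ _).trans (max_le h2 (hg₀reg v hvS))
    · exact hb2 v hv hvS
  obtain ⟨b, hb⟩ := mem_lat_chartSet_zero_iff.mp hb'
  refine ⟨b, (f - b' * σ) / σs, ?_, ?_⟩
  · -- `(f - b' σ) / s ∈ lat U₁ D`
    intro v hv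
    rw [map_div₀, div_le_iff₀ (by rw [pos_iff_ne_zero]; exact v.adicValuation_ne_zero hs0)]
    by_cases hvS : v ∈ S'
    · have h1 := hb1 v hvS
      have e : f - b' * σ = -(σ * (b' - g₀)) := by
        rw [hg₀]; field_simp; ring
      rw [e, Valuation.map_neg, map_mul, v.adicValuation_eq_exp_neg_ord hs0]
      exact mul_le_mul' (hσ v hv) h1
    · have hord0 : v.ord σs = 0 := by
        by_contra hne
        exact hvS ((hS'mem v).mpr ⟨hv, hne⟩)
      rw [v.adicValuation_eq_exp_neg_ord hs0, hord0, neg_zero, exp_zero, mul_one]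
      have hb'v : v.adicValuation b' ≤ 1 := by
        have := hb' v hv
        rwa [Finsupp.zero_apply, exp_zero] at this
      refine (Valuation.map_sub _ _ _).trans (max_le (hf v hv) ?_)
      rw [map_mul]
      exact (mul_le_of_le_one_left' hb'v).trans (hσ v hv)
  · rw [hb]
    field_simp
    ring

/-- `NoZeroInf` for `O(D)`: `B₁ σ + s · M1 = M1` in `M1 = latMod B₁ D`. -/
theorem span_sup_smul_eq_top (S : IsSetting K F t s B₀₁) (D : Divisor K F) {σ : F}
    (hσ0 : σ ≠ 0) (hσ : σ ∈ lat (chartSet (K := K) (F := F) B₁) D)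
    (hord : ∀ v : Place K F, v ∉ chartSet (K := K) (F := F) B₀ → v.ord σ = -D v) :
    Submodule.span B₁ {(⟨σ, mem_latMod_iff.mpr hσ⟩ : ↥(latMod B₁ D))} ⊔
      (s • ⊤ : Submodule B₁ ↥(latMod B₁ D)) = ⊤ := by
  rw [eq_top_iff]
  rintro ⟨f, hf⟩ -
  obtain ⟨b, g, hg, hfg⟩ := exists_decomp_of_ord_eq S D hσ0 hσ hord (mem_latMod_iff.mp hf)
  rw [Submodule.mem_sup]
  refine ⟨b • (⟨σ, mem_latMod_iff.mpr hσ⟩ : ↥(latMod B₁ D)),
    Submodule.smul_mem _ _ (Submodule.mem_span_singleton_self _),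
    s • (⟨g, mem_latMod_iff.mpr hg⟩ : ↥(latMod B₁ D)),
    Submodule.smul_mem_pointwise_smul _ _ _ Submodule.mem_top, ?_⟩
  apply Subtype.ext
  change b • σ + s • g = f
  rw [Algebra.smul_def, Algebra.smul_def, hfg]

/-- `NoZeroInf` for `O(D)` in helper46's form (`Hilb/NoZeroInf46`): with the ideal `(s)`. -/
theorem span_sup_idealSpan_smul_eq_top (S : IsSetting K F t s B₀₁) (D : Divisor K F) {σ : F}
    (hσ0 : σ ≠ 0) (hσ : σ ∈ lat (chartSet (K := K) (F := F) B₁) D)
    (hord : ∀ v : Place K F, v ∉ chartSet (K := K) (F := F) B₀ → v.ord σ = -D v) :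
    Submodule.span B₁ {(⟨σ, mem_latMod_iff.mpr hσ⟩ : ↥(latMod B₁ D))} ⊔
      Ideal.span {s} • (⊤ : Submodule B₁ ↥(latMod B₁ D)) = ⊤ := by
  rw [Submodule.ideal_span_singleton_smul]
  exact span_sup_smul_eq_top S D hσ0 hσ hord

/-- The exact-order condition at infinity from `h⁰(D - v) = 0` (the output shape of
`RatPlaces67.exists_translate_ratPlaces_core`). -/
theorem ord_eq_neg_of_h0n_sub_single_eq_zero
    (T : TwoChart (chartSet (K := K) (F := F) B₀) (chartSet (K := K) (F := F) B₁))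
    (hvan : ∃ E : Divisor K F,
      h1n (chartSet (K := K) (F := F) B₀) (chartSet (K := K) (F := F) B₁) E = 0)
    {D : Divisor K F} {v : Place K F}
    (h : h0n (chartSet (K := K) (F := F) B₀) (chartSet (K := K) (F := F) B₁)
      (D - Finsupp.single v 1) = 0) {σ : F}
    (hσ0 : σ ≠ 0) (hσ₀ : σ ∈ lat (chartSet (K := K) (F := F) B₀) D)
    (hσ₁ : σ ∈ lat (chartSet (K := K) (F := F) B₁) D) : v.ord σ = -D v := by
  have H := Bridge67.twoChartHyp T hvan
  rw [← Bridge67.h0_eq] at h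
  exact CurveLikeSub67.ord_eq_neg_of_h0_sub_single_eq_zero H h ⟨hσ₀, hσ₁⟩ hσ0

end Fermat.Agent.JAC.Fibre.GoodDiv67
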