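/-
Programme JAC (S25), (Cov)/(Abel) bridge, helper67: IDEAL DIAGRAMS AS LATTICE DIAGRAMS.

In helper38's common setting (`DiagOfDiv38.IsSetting`): if the ideals `Z0 ⊆ B₀`, `Z1 ⊆ B₁` (with the
same extension to `B₀₁`) are the lattices of a divisor `D` on the two charts (`IsLatOf`), then
helper46's `SectionDiv46.idealDiag Z0 Z1` is isomorphic to helper38's `lineDiagOfDiv S D`
(`idealDiagIso`).  For the kernel of a `K`-point `Φ` the divisor is `-[placeOfAlgHom Φ]`
(`isLatOf_ker`), so the ideal diagram of a `K`-point `Φ` of the overlap is `O(-[Φ])` (`pointIso`,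
`cls_pointDiag`): this is the dictionary "cls (idealDiag of a K-point) ↦ -[point]" used by the
covering theorem (Cov) and by the Abel map.
-/
import Mathlib
import Fermat.Agent.JAC.Fibre.DiagExists38
import Fermat.Agent.JAC.Fibre.DiagChi38
import Fermat.Agent.JAC.Fibre.RatPlaces67
import Fermat.Agent.JAC.Hilb.SectionDiv46

set_option autoImplicit false
set_option linter.unusedSectionVars false

open AlgebraicCurve IsDedekindDomain Polynomial

namespace Fermat.Agent.JAC.Fibre.PointDiag67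

open Fermat.Agent.JAC.Fibre.Lat38 Fermat.Agent.JAC.Fibre.Chart38 Fermat.Agent.JAC.Fibre.Setting38
  Fermat.Agent.JAC.Fibre.DiagOfDiv38 Fermat.Agent.JAC.Fibre.DiagExists38
  Fermat.Agent.JAC.Fibre.RatPlaces67 Fermat.Agent.JAC.Core.Defs36
  Fermat.Agent.JAC.Hilb.SectionDiv46 Fermat.Agent.X0.FFDedekind

universe u

variable {K F : Type u} [Field K] [Field F] [Algebra K F]

/-! ### One chart -/

section OneChart

variable {B : Type u} [CommRing B] [IsDedekindDomain B] [Algebra B F] [IsFractionRing B F]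
  [Algebra K B] [IsScalarTower K B F]

/-- The ideal `Z` of `B` is the lattice of the divisor `D` on the chart `B`:
`latMod B D = algebraMap B F '' Z`. -/
def IsLatOf (Z : Ideal B) (D : Divisor K F) : Prop :=
  ∀ f : F, f ∈ latMod B D ↔ ∃ b ∈ Z, algebraMap B F b = f

/-- `Z ≃ latMod B D` when `Z` is the lattice of `D`. -/
noncomputable def idealEquivLatMod {Z : Ideal B} {D : Divisor K F} (h : IsLatOf Z D) :
    ↥Z ≃ₗ[B] ↥(latMod B D) :=
  LinearEquiv.ofBijective
    { toFun := fun b => ⟨algebraMap B F b, (h _).mpr ⟨b, b.2, rfl⟩⟩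
      map_add' := fun a b => by apply Subtype.ext; simp
      map_smul' := fun a b => by
        apply Subtype.ext
        simp only [RingHom.id_apply]
        change algebraMap B F (a * (b : B)) = a • algebraMap B F (b : B)
        rw [map_mul, Algebra.smul_def] }
    ⟨fun a b hab => Subtype.ext (IsFractionRing.injective B F (congrArg Subtype.val hab)),
      fun f => by
        obtain ⟨b, hb, hbf⟩ := (h _).mp f.2
        exact ⟨⟨b, hb⟩, Subtype.ext hbf⟩⟩

@[simp] theorem coe_idealEquivLatMod {Z : Ideal B} {D : Divisor K F} (h : IsLatOf Z D) (b : Z) :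
    ((idealEquivLatMod h b : ↥(latMod B D)) : F) = algebraMap B F (b : B) := rfl

/-- The unit ideal is the lattice of `0`. -/
theorem isLatOf_top : IsLatOf (⊤ : Ideal B) (0 : Divisor K F) := by
  intro f
  rw [mem_latMod_iff, mem_lat_chartSet_zero_iff]
  exact ⟨fun ⟨b, hb⟩ => ⟨b, trivial, hb⟩, fun ⟨b, _, hb⟩ => ⟨b, hb⟩⟩

/-- Only the values of the divisor on the chart matter. -/
theorem IsLatOf.congr {Z : Ideal B} {D D' : Divisor K F} (h : IsLatOf Z D)
    (hD : ∀ v ∈ chartSet (K := K) (F := F) B, D v = D' v) : IsLatOf Z D' := by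
  intro f
  rw [← latMod_congr hD]
  exact h f

/-- **The kernel of a `K`-point `Φ` is the lattice of `-[Φ]`.** -/
theorem isLatOf_ker (hB : ¬ IsField B) (Φ : B →ₐ[K] K) :
    IsLatOf (RingHom.ker (Φ : B →+* K))
      (-Finsupp.single (placeOfAlgHom F hB Φ) (1 : ℤ) : Divisor K F) := by
  classical
  have hvmem : placeOfAlgHom F hB Φ ∈ chartSet (K := K) (F := F) B :=
    placeOfAlgHom_mem_chartSet hB Φ
  intro f
  rw [mem_latMod_iff, mem_lat_iff_ord]
  constructor
  · intro hf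
    have h0 : f ∈ lat (chartSet (K := K) (F := F) B) 0 := by
      rw [mem_lat_iff_ord]
      intro w hw
      rcases hf w hw with h | h
      · exact Or.inl h
      · right
        rw [Finsupp.neg_apply, neg_neg, Finsupp.single_apply] at h
        rw [Finsupp.zero_apply, neg_zero]
        split_ifs at h <;> omega
    obtain ⟨b, rfl⟩ := mem_lat_chartSet_zero_iff.mp h0
    refine ⟨b, ?_, rfl⟩
    rw [RingHom.mem_ker]
    rcases eq_or_ne b 0 with rfl | hb
    · exact map_zero _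
    have hfv := hf (placeOfAlgHom F hB Φ) hvmem
    have hne : algebraMap B F b ≠ 0 :=
      (map_ne_zero_iff _ (IsFractionRing.injective B F)).mpr hb
    have h1 := hfv.resolve_left hne
    rw [Finsupp.neg_apply, neg_neg, Finsupp.single_eq_same] at h1
    exact (ord_placeOfAlgHom_pos_iff (F := F) hB Φ hb).mp (by omega)
  · rintro ⟨b, hb, rfl⟩ w hw
    rcases eq_or_ne b 0 with rfl | hb0
    · left; exact map_zero _
    right
    rw [Finsupp.neg_apply, neg_neg, Finsupp.single_apply]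
    split_ifs with hvw
    · subst hvw
      have := (ord_placeOfAlgHom_pos_iff (F := F) hB Φ hb0).mpr hb
      omega
    · exact Fermat.Agent.X0.FF.ffp_ord_nonneg_of_mem w (hw b)

end OneChart

/-! ### Two charts -/

section TwoCharts

variable {B₀ : Type u} [CommRing B₀] [IsDedekindDomain B₀] [Algebra B₀ F] [IsFractionRing B₀ F]
  [Algebra K B₀] [IsScalarTower K B₀ F]
  {B₁ : Type u} [CommRing B₁] [IsDedekindDomain B₁] [Algebra B₁ F] [IsFractionRing B₁ F]
  [Algebra K B₁] [IsScalarTower K B₁ F]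
  {B₀₁ : Type u} [CommRing B₀₁] [IsDedekindDomain B₀₁] [Algebra B₀₁ F] [IsFractionRing B₀₁ F]
  [Algebra K B₀₁] [IsScalarTower K B₀₁ F]
  [Algebra B₀ B₀₁] [Algebra B₁ B₀₁] [IsScalarTower B₀ B₀₁ F] [IsScalarTower B₁ B₀₁ F]
  {t : B₀} {s : B₁}

/-- The extension to the overlap of the lattice of `D` is the lattice of `D`. -/
theorem IsLatOf.map (S : IsSetting K F t s B₀₁) {Z0 : Ideal B₀} {D : Divisor K F}
    (h0 : IsLatOf Z0 D) : IsLatOf (Z0.map (algebraMap B₀ B₀₁)) D := by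
  have := S.away₀
  let L : Submodule B₀₁ F :=
    Submodule.map (Algebra.linearMap B₀₁ F) (Z0.map (algebraMap B₀ B₀₁))
  have hL : latMod B₀₁ D = L := by
    refine latMod_overlap_eq S D L ?_ ?_
    · intro f hf
      obtain ⟨b, hb, rfl⟩ := (h0 f).mp hf
      refine ⟨algebraMap B₀ B₀₁ b, Ideal.mem_map_of_mem _ hb, ?_⟩
      exact (IsScalarTower.algebraMap_apply B₀ B₀₁ F b).symm
    · rintro _ ⟨x, hx, rfl⟩
      obtain ⟨⟨⟨b, hb⟩, ⟨_, n, rfl⟩⟩, hxb⟩ :=
        (IsLocalization.mem_map_algebraMap_iff (Submonoid.powers t) B₀₁).mp hx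
      simp only at hxb
      refine ⟨n, (h0 _).mpr ⟨b, hb, ?_⟩⟩
      rw [IsScalarTower.algebraMap_apply B₀ B₀₁ F b, ← hxb, map_mul, mul_comm, Algebra.linearMap_apply,
        ← IsScalarTower.algebraMap_apply B₀ B₀₁ F, map_pow]
  intro f
  rw [hL]
  constructor
  · rintro ⟨x, hx, rfl⟩
    exact ⟨x, hx, rfl⟩
  · rintro ⟨x, hx, rfl⟩
    exact ⟨x, hx, rfl⟩

variable [IsLocalization.Away t B₀₁] [IsLocalization.Away s B₀₁]

/-- **Ideal diagrams are lattice diagrams**: if `Z0`, `Z1` are the lattices of `D` on the two charts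
then `idealDiag Z0 Z1 ≅ O(D)`. -/
noncomputable def idealDiagIso (S : IsSetting K F t s B₀₁) (Z0 : Ideal B₀) (Z1 : Ideal B₁)
    (h : Ideal.map (algebraMap B₀ B₀₁) Z0 = Ideal.map (algebraMap B₁ B₀₁) Z1)
    [Module.Invertible B₀ Z0] [Module.Invertible B₁ Z1] (D : Divisor K F)
    (h0 : IsLatOf Z0 D) (h1 : IsLatOf Z1 D) :
    LineDiag.Iso (idealDiag t s Z0 Z1 h) (lineDiagOfDiv S D) where
  e0 := idealEquivLatMod h0
  e1 := idealEquivLatMod h1
  e01 := idealEquivLatMod (h0.map S)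
  comm0 := by
    intro (x : ↥Z0)
    apply Subtype.ext
    exact (IsScalarTower.algebraMap_apply B₀ B₀₁ F (x : B₀)).symm
  comm1 := by
    intro (y : ↥Z1)
    apply Subtype.ext
    exact (IsScalarTower.algebraMap_apply B₁ B₀₁ F (y : B₁)).symm

end TwoCharts

/-! ### The ideal diagram of a `K`-point of the overlap -/

section Point

variable {B₀ : Type u} [CommRing B₀] [IsDedekindDomain B₀] [Algebra B₀ F] [IsFractionRing B₀ F]
  [Algebra K B₀] [IsScalarTower K B₀ F]
  {B₁ : Type u} [CommRing B₁] [IsDedekindDomain B₁] [Algebra B₁ F] [IsFractionRing B₁ F]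
  [Algebra K B₁] [IsScalarTower K B₁ F]
  {B₀₁ : Type u} [CommRing B₀₁] [IsDedekindDomain B₀₁] [Algebra B₀₁ F] [IsFractionRing B₀₁ F]
  [Algebra K B₀₁] [IsScalarTower K B₀₁ F]
  [Algebra B₀ B₀₁] [Algebra B₁ B₀₁] [IsScalarTower B₀ B₀₁ F] [IsScalarTower B₁ B₀₁ F]
  [IsScalarTower K B₀ B₀₁] [IsScalarTower K B₁ B₀₁]
  {t : B₀} {s : B₁}

/-- The kernel of a `K`-point of a Dedekind chart is an invertible module. -/
theorem invertible_ker {B : Type u} [CommRing B] [IsDedekindDomain B] [Algebra B F]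
    [IsFractionRing B F] [Algebra K B] [IsScalarTower K B F] (hB : ¬ IsField B) (Φ : B →ₐ[K] K) :
    Module.Invertible B ↥(RingHom.ker (Φ : B →+* K)) :=
  Module.Invertible.congr (idealEquivLatMod (isLatOf_ker (F := F) hB Φ)).symm

variable (B₀) in
/-- The ideal on the chart `B₀` of a `K`-point `Φ` of the overlap `B₀₁`. -/
def pointIdeal (Φ : B₀₁ →ₐ[K] K) : Ideal B₀ :=
  RingHom.ker ((Φ.comp (IsScalarTower.toAlgHom K B₀ B₀₁) : B₀ →ₐ[K] K) : B₀ →+* K)

theorem mem_pointIdeal {Φ : B₀₁ →ₐ[K] K} {b : B₀} :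
    b ∈ pointIdeal B₀ Φ ↔ Φ (algebraMap B₀ B₀₁ b) = 0 := by
  unfold pointIdeal
  rw [RingHom.mem_ker]
  rfl

theorem pointIdeal_eq_comap (Φ : B₀₁ →ₐ[K] K) :
    pointIdeal B₀ Φ = (RingHom.ker (Φ : B₀₁ →+* K)).comap (algebraMap B₀ B₀₁) := by
  ext b
  rw [mem_pointIdeal, Ideal.mem_comap, RingHom.mem_ker]
  rfl

/-- The point ideal on a chart extends to the kernel of the point on the overlap. -/
theorem map_pointIdeal (t : B₀) [IsLocalization.Away t B₀₁] (Φ : B₀₁ →ₐ[K] K) :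
    Ideal.map (algebraMap B₀ B₀₁) (pointIdeal B₀ Φ) = RingHom.ker (Φ : B₀₁ →+* K) := by
  rw [pointIdeal_eq_comap]
  exact IsLocalization.map_under (Submonoid.powers t) B₀₁ _

theorem map_pointIdeal_eq (t : B₀) (s : B₁) [IsLocalization.Away t B₀₁]
    [IsLocalization.Away s B₀₁] (Φ : B₀₁ →ₐ[K] K) :
    Ideal.map (algebraMap B₀ B₀₁) (pointIdeal B₀ Φ) =
      Ideal.map (algebraMap B₁ B₀₁) (pointIdeal B₁ Φ) := by
  rw [map_pointIdeal t Φ, map_pointIdeal s Φ]

/-- The point ideal on a chart is the lattice of `-[Φ]`. -/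
theorem isLatOf_pointIdeal (hB0 : ¬ IsField B₀) (hB01 : ¬ IsField B₀₁) (Φ : B₀₁ →ₐ[K] K) :
    IsLatOf (pointIdeal B₀ Φ)
      (-Finsupp.single (placeOfAlgHom F hB01 Φ) (1 : ℤ) : Divisor K F) := by
  rw [placeOfAlgHom_comp hB0 hB01 Φ]
  exact isLatOf_ker hB0 _

include F in
theorem invertible_pointIdeal (hB0 : ¬ IsField B₀) (Φ : B₀₁ →ₐ[K] K) :
    Module.Invertible B₀ ↥(pointIdeal B₀ Φ) :=
  invertible_ker (F := F) hB0 _

variable [IsLocalization.Away t B₀₁] [IsLocalization.Away s B₀₁]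

/-- **The ideal diagram of a `K`-point `Φ` of the overlap is `O(-[Φ])`.** -/
noncomputable def pointIso (S : IsSetting K F t s B₀₁) (hB0 : ¬ IsField B₀) (hB1 : ¬ IsField B₁)
    (hB01 : ¬ IsField B₀₁) (Φ : B₀₁ →ₐ[K] K)
    [Module.Invertible B₀ ↥(pointIdeal B₀ Φ)] [Module.Invertible B₁ ↥(pointIdeal B₁ Φ)]
    (h : Ideal.map (algebraMap B₀ B₀₁) (pointIdeal B₀ Φ) =
      Ideal.map (algebraMap B₁ B₀₁) (pointIdeal B₁ Φ)) :
    LineDiag.Iso (idealDiag t s (pointIdeal B₀ Φ) (pointIdeal B₁ Φ) h)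
      (lineDiagOfDiv S (-Finsupp.single (placeOfAlgHom F hB01 Φ) (1 : ℤ))) :=
  idealDiagIso S _ _ h _ (isLatOf_pointIdeal hB0 hB01 Φ) (isLatOf_pointIdeal hB1 hB01 Φ)

end Point

end Fermat.Agent.JAC.Fibre.PointDiag67
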