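/-
Programme JAC (S25), (Cov) wiring, helper67: the covering hypothesis `cov` of helper24's chart
theorem (report #684 (d1)) for the CURVE block over an algebraically closed field `k`, for ANY
field `K` over `k`.

Twists: `J := ℤ × List (A01 →ₐ[k] k) × List (A01 →ₐ[k] k)`,
`lam (m, l, l') := [O(e)]^m * Π_{q' ∈ l'} [O(q')] * (Π_{q ∈ l} [O(q)])⁻¹` over `k ⊗[k] A_i`, where
`[O(q)] := (cls (idealDiag (point ideals of q)))⁻¹`.
-/
import Mathlib
import Fermat.Agent.JAC.Fibre.ConstExt37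
import Fermat.Agent.JAC.Fibre.RatPlaces67
import Fermat.Agent.JAC.Fibre.PointDiag67
import Fermat.Agent.JAC.Fibre.GoodDiv67
import Fermat.Agent.JAC.Fibre.DiagOps38
import Fermat.Agent.JAC.Hilb.DivBaseChange46
import Fermat.Agent.JAC.Core.AlgAtlas36
import Fermat.Agent.JAC.Hilb.GenSection46

set_option autoImplicit false
set_option linter.unusedSectionVars false

open AlgebraicCurve IsDedekindDomain Polynomial

namespace Fermat.Agent.JAC.Fibre.CovWire67

open scoped TensorProduct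
open scoped Fermat.Agent.JAC.Core.ConstFamily36
open Fermat.Agent.JAC.Core.ConstFamily36 Fermat.Agent.JAC.Core.Defs36
  Fermat.Agent.JAC.Core.AlgAtlas36 Fermat.Agent.JAC.Fibre.ConstExt37
  Fermat.Agent.JAC.Fibre.Chart38 Fermat.Agent.JAC.Fibre.Core38
  Fermat.Agent.JAC.Fibre.DiagOfDiv38 Fermat.Agent.JAC.Fibre.RatPlaces67
  Fermat.Agent.JAC.Fibre.PointDiag67

universe u

/-! ### Auxiliary algebra -/

section Aux

variable {K : Type u} [Field K] {A : Type u} [CommRing A] [Algebra K A] {a : A} {n : ℕ}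
  {b : Fin n → A}

/-- If `A` has coordinates over `K[a]` and is nontrivial, `a` is transcendental over `K`. -/
theorem transcendental_of_coords [Nontrivial A]
    (hb : Function.Bijective (fun p : Fin n → K[X] => ∑ j, aeval a (p j) * b j)) :
    Transcendental K a := by
  intro halg
  obtain ⟨P, hP0, hP⟩ := halg
  obtain ⟨q, hq⟩ := hb.2 1
  simp only at hq
  have h0 : (fun p : Fin n → K[X] => ∑ j, aeval a (p j) * b j) (fun j => P * q j) =
      (fun p : Fin n → K[X] => ∑ j, aeval a (p j) * b j) 0 := by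
    simp only [Pi.zero_apply, map_zero, zero_mul, Finset.sum_const_zero, map_mul, mul_assoc]
    rw [← Finset.mul_sum, hq, hP, zero_mul]
  have h1 := hb.1 h0
  have hq0 : q = 0 := by
    funext j
    have := congrFun h1 j
    simp only [Pi.zero_apply, mul_eq_zero] at this
    exact this.resolve_left hP0
  rw [hq0] at hq
  simp at hq

/-- `aeval a p ≡ p(c)` modulo `a - c`. -/
theorem aeval_sub_eval_mem (p : K[X]) (c : K) :
    aeval a p - algebraMap K A (p.eval c) ∈ Ideal.span {a - algebraMap K A c} := by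
  rw [Ideal.mem_span_singleton]
  have h := Polynomial.sub_dvd_eval_sub a (algebraMap K A c) (p.map (algebraMap K A))
  rwa [Polynomial.eval_map_algebraMap, Polynomial.eval_map_algebraMap, aeval_algebraMap_apply,
    Polynomial.coe_aeval_eq_eval] at h

/-- `A ⧸ (a - c)` is finite over `K` when `A` is spanned over `K[a]` by finitely many elements. -/
theorem finite_quotient_of_coords
    (hb : Function.Surjective (fun p : Fin n → K[X] => ∑ j, aeval a (p j) * b j)) (c : K) :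
    Module.Finite K (A ⧸ Ideal.span {a - algebraMap K A c}) := by
  set I := Ideal.span {a - algebraMap K A c} with hI
  let f : (Fin n → K) →ₗ[K] A ⧸ I :=
    Fintype.linearCombination K (fun j => Ideal.Quotient.mk I (b j))
  refine Module.Finite.of_surjective f ?_
  intro x
  obtain ⟨y, rfl⟩ := Ideal.Quotient.mk_surjective x
  obtain ⟨p, rfl⟩ := hb y
  refine ⟨fun j => (p j).eval c, ?_⟩
  simp only [f, Fintype.linearCombination_apply, map_sum, map_mul]
  refine Finset.sum_congr rfl fun j _ => ?_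
  have h := aeval_sub_eval_mem (a := a) (p j) c
  rw [← hI, ← Ideal.Quotient.eq_zero_iff_mem, map_sub, sub_eq_zero] at h
  rw [h, Algebra.smul_def]
  rfl

end Aux

/-- A domain with coordinates over `K[a]` is not a field. -/
theorem not_isField_of_coords {K : Type u} [Field K] {A : Type u} [CommRing A] [IsDomain A]
    [Algebra K A] {a : A} {n : ℕ} {b : Fin n → A}
    (hb : Function.Bijective (fun p : Fin n → K[X] => ∑ j, aeval a (p j) * b j)) :
    ¬ IsField A := by
  intro hA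
  have htr := transcendental_of_coords hb
  have hint : (aeval a : K[X] →ₐ[K] A).toRingHom.IsIntegral :=
    Fermat.Agent.JAC.Fibre.SettingFrame38.isIntegral_of_spanning (K := K) a b hb.2
  let _ : Algebra K[X] A := (aeval a : K[X] →ₐ[K] A).toRingHom.toAlgebra
  have hint' : Algebra.IsIntegral K[X] A := ⟨hint⟩
  have hinj : Function.Injective (algebraMap K[X] A) :=
    transcendental_iff_injective.mp htr
  exact Polynomial.not_isField K (isField_of_isIntegral_of_isField hinj hA)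

/-- `K ⊗[k] A` is not a field when `A` has coordinates over `k[a]`. -/
theorem not_isField_tensor {k : Type u} [Field k] (K : Type u) [Field K] [Algebra k K]
    {A : Type u} [CommRing A] [Algebra k A] [IsDomain (K ⊗[k] A)] {a : A} {n : ℕ}
    {b : Fin n → A}
    (hb : Function.Bijective (fun p : Fin n → k[X] => ∑ j, aeval a (p j) * b j)) :
    ¬ IsField (K ⊗[k] A) :=
  not_isField_of_coords (bijective_coords K hb)

/-! ### Point classes -/

section Main

variable {k : Type u} [Field k] {A0 A1 A01 : Type u} [CommRing A0] [CommRing A1] [CommRing A01]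
  [Algebra k A0] [Algebra k A1] [Algebra k A01] [Algebra A0 A01] [Algebra A1 A01]
  [IsScalarTower k A0 A01] [IsScalarTower k A1 A01] (t : A0) (s : A1)
  [IsLocalization.Away t A01] [IsLocalization.Away s A01]

section OneField

variable (K : Type u) [Field K] [Algebra k K]
  [IsDedekindDomain (K ⊗[k] A0)] [IsDedekindDomain (K ⊗[k] A1)] [IsDedekindDomain (K ⊗[k] A01)]
  [IsFractionRing (K ⊗[k] A0) (FF k A01 K)] [IsFractionRing (K ⊗[k] A1) (FF k A01 K)]

/-- The class of `O(q)` over `K ⊗[k] A_i`, for a `k`-point `q` of the overlap. -/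
noncomputable def ptClass (hB0 : ¬ IsField (K ⊗[k] A0)) (hB1 : ¬ IsField (K ⊗[k] A1))
    (q : A01 →ₐ[k] k) : Cl k A0 A1 A01 t s K :=
  haveI := invertible_pointIdeal (F := FF k A01 K) (B₀ := K ⊗[k] A0) (B₀₁ := K ⊗[k] A01) hB0
    (rigHom K q)
  haveI := invertible_pointIdeal (F := FF k A01 K) (B₀ := K ⊗[k] A1) (B₀₁ := K ⊗[k] A01) hB1
    (rigHom K q)
  (Fermat.Agent.JAC.Grp.Diag33.cls (Fermat.Agent.JAC.Hilb.SectionDiv46.idealDiag
    ((1 : K) ⊗ₜ[k] t) ((1 : K) ⊗ₜ[k] s)
    (pointIdeal (K ⊗[k] A0) (rigHom K q)) (pointIdeal (K ⊗[k] A1) (rigHom K q))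
    (map_pointIdeal_eq ((1 : K) ⊗ₜ[k] t) ((1 : K) ⊗ₜ[k] s) (rigHom K q))))⁻¹

omit [IsLocalization.Away t A01] [IsLocalization.Away s A01] in
/-- The common setting of `DiagOfDiv38` for the constant extension `K ⊗[k] A_i`. -/
theorem isSetting [IsLocalization.Away t A01] [IsLocalization.Away s A01]
    (hts : algebraMap A0 A01 t * algebraMap A1 A01 s = 1)
    {n0 n1 : ℕ} {a0 : Fin n0 → A0} {a1 : Fin n1 → A1}
    (ha0 : Function.Bijective (fun p : Fin n0 → k[X] => ∑ j, aeval t (p j) * a0 j))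
    (ha1 : Function.Bijective (fun p : Fin n1 → k[X] => ∑ j, aeval s (p j) * a1 j)) :
    IsSetting K (FF k A01 K) ((1 : K) ⊗ₜ[k] t) ((1 : K) ⊗ₜ[k] s) (K ⊗[k] A01) :=
  ⟨inferInstance, inferInstance, hts_FF t s K hts, isIntegral_aeval K ha0, isIntegral_aeval K ha1⟩

/-- `[O(q)]` is the class of the lattice diagram of the divisor `[q]`. -/
theorem ptClass_eq (S : IsSetting K (FF k A01 K) ((1 : K) ⊗ₜ[k] t) ((1 : K) ⊗ₜ[k] s)
      (K ⊗[k] A01))
    (hB0 : ¬ IsField (K ⊗[k] A0)) (hB1 : ¬ IsField (K ⊗[k] A1)) (hB01 : ¬ IsField (K ⊗[k] A01))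
    (q : A01 →ₐ[k] k) :
    ptClass t s K hB0 hB1 q = Fermat.Agent.JAC.Fibre.DiagOps38.clsOfDiv S
      (Multiplicative.ofAdd (Finsupp.single (ratPlace (FF k A01 K) hB01 q) (1 : ℤ))) := by
  haveI := invertible_pointIdeal (F := FF k A01 K) (B₀ := K ⊗[k] A0) (B₀₁ := K ⊗[k] A01) hB0
    (rigHom K q)
  haveI := invertible_pointIdeal (F := FF k A01 K) (B₀ := K ⊗[k] A1) (B₀₁ := K ⊗[k] A01) hB1
    (rigHom K q)
  have iso := pointIso S hB0 hB1 hB01 (rigHom K q)
    (map_pointIdeal_eq ((1 : K) ⊗ₜ[k] t) ((1 : K) ⊗ₜ[k] s) (rigHom K q))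
  have h := Fermat.Agent.JAC.Grp.Diag33.cls_eq_iff.mpr ⟨iso⟩
  unfold ptClass
  rw [Fermat.Agent.JAC.Fibre.DiagOps38.clsOfDiv_apply, h,
    Fermat.Agent.JAC.Fibre.DiagOps38.cls_lineDiagOfDiv_neg, inv_inv]
  rfl

end OneField

/-! ### Base change of point classes from `k` to `K` -/

section BaseChange

variable (K : Type u) [Field K] [Algebra k K]

section Ker

variable {A : Type u} [CommRing A] [Algebra k A]

omit [IsLocalization.Away t A01] [IsLocalization.Away s A01] in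
/-- Naturality of the evaluation at a `k`-point. -/
theorem rigHom_bcMap (φ : A →ₐ[k] k) (x : k ⊗[k] A) :
    rigHom K φ (bcMap (Algebra.ofId k K) A A x) = algebraMap k K (rigHom k φ x) := by
  induction x using TensorProduct.induction_on with
  | zero => simp
  | tmul c a =>
    rw [bcMap_tmul, rigHom_tmul, rigHom_tmul, map_mul]
    rfl
  | add x y hx hy => rw [map_add, map_add, map_add, map_add, hx, hy]

omit [IsLocalization.Away t A01] [IsLocalization.Away s A01] in
/-- The ideal of a `k`-point over `K` is the extension of its ideal over `k`. -/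
theorem map_ker_rigHom (φ : A →ₐ[k] k) :
    Ideal.map (bcMap (Algebra.ofId k K) A A) (RingHom.ker (rigHom k φ : k ⊗[k] A →+* k)) =
      RingHom.ker (rigHom K φ : K ⊗[k] A →+* K) := by
  apply le_antisymm
  · rw [Ideal.map_le_iff_le_comap]
    intro x hx
    rw [RingHom.mem_ker] at hx
    rw [Ideal.mem_comap, RingHom.mem_ker]
    change rigHom K φ (bcMap (Algebra.ofId k K) A A x) = 0
    have hx' : rigHom k φ x = 0 := hx
    rw [rigHom_bcMap, hx', map_zero]
  · intro x hx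
    rw [RingHom.mem_ker] at hx
    have hx' : rigHom K φ x = 0 := hx
    have h := sub_rigHom_mem (K := K) φ
      (Ideal.map (bcMap (Algebra.ofId k K) A A) (RingHom.ker (rigHom k φ : k ⊗[k] A →+* k)))
      (fun a => ?_) x
    · rwa [hx', map_zero, sub_zero] at h
    · have e : ((1 : K) ⊗ₜ[k] (a - algebraMap k A (φ a)) : K ⊗[k] A) =
          bcMap (Algebra.ofId k K) A A ((1 : k) ⊗ₜ[k] (a - algebraMap k A (φ a))) := by
        rw [bcMap_tmul, map_one]
        rfl
      rw [e]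
      refine Ideal.mem_map_of_mem _ ?_
      rw [RingHom.mem_ker]
      change rigHom k φ ((1 : k) ⊗ₜ[k] (a - algebraMap k A (φ a))) = 0
      rw [rigHom_tmul, map_sub, AlgHom.commutes, one_mul]
      simp

end Ker

omit [IsLocalization.Away t A01] [IsLocalization.Away s A01] in
/-- The point ideal on a chart, as the kernel of the restricted point. -/
theorem pointIdeal_rigHom {A : Type u} [CommRing A] [Algebra k A] [Algebra A A01]
    [IsScalarTower k A A01] (q : A01 →ₐ[k] k) :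
    pointIdeal (K ⊗[k] A) (rigHom K q) =
      RingHom.ker (rigHom K (q.comp (IsScalarTower.toAlgHom k A A01)) : K ⊗[k] A →+* K) := by
  unfold pointIdeal
  rw [rigHom_comp_tensor]

omit [IsLocalization.Away t A01] [IsLocalization.Away s A01] in
/-- The point ideal over `K` is the extension of the point ideal over `k`. -/
theorem map_pointIdeal_bcMap {A : Type u} [CommRing A] [Algebra k A] [Algebra A A01]
    [IsScalarTower k A A01] (q : A01 →ₐ[k] k) :
    Ideal.map (bcMap (Algebra.ofId k K) A A) (pointIdeal (k ⊗[k] A) (rigHom k q)) =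
      pointIdeal (K ⊗[k] A) (rigHom K q) := by
  rw [pointIdeal_rigHom, pointIdeal_rigHom, map_ker_rigHom]

variable
  [IsDedekindDomain (K ⊗[k] A0)] [IsDedekindDomain (K ⊗[k] A1)] [IsDedekindDomain (K ⊗[k] A01)]
  [IsFractionRing (K ⊗[k] A0) (FF k A01 K)] [IsFractionRing (K ⊗[k] A1) (FF k A01 K)]
  [IsDedekindDomain (k ⊗[k] A0)] [IsDedekindDomain (k ⊗[k] A1)] [IsDedekindDomain (k ⊗[k] A01)]
  [IsFractionRing (k ⊗[k] A0) (FF k A01 k)] [IsFractionRing (k ⊗[k] A1) (FF k A01 k)]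

/-- **Base change of point classes**: `bc [O(q)]_k = [O(q)]_K`. -/
theorem bc_ptClass (hb0 : ¬ IsField (k ⊗[k] A0)) (hb1 : ¬ IsField (k ⊗[k] A1))
    (hB0 : ¬ IsField (K ⊗[k] A0)) (hB1 : ¬ IsField (K ⊗[k] A1)) (q : A01 →ₐ[k] k) :
    bc (Algebra.ofId k K) (ptClass t s k hb0 hb1 q) = ptClass t s K hB0 hB1 q := by
  haveI := invertible_pointIdeal (F := FF k A01 k) (B₀ := k ⊗[k] A0) (B₀₁ := k ⊗[k] A01) hb0
    (rigHom k q)
  haveI := invertible_pointIdeal (F := FF k A01 k) (B₀ := k ⊗[k] A1) (B₀₁ := k ⊗[k] A01) hb1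
    (rigHom k q)
  haveI := invertible_pointIdeal (F := FF k A01 K) (B₀ := K ⊗[k] A0) (B₀₁ := K ⊗[k] A01) hB0
    (rigHom K q)
  haveI := invertible_pointIdeal (F := FF k A01 K) (B₀ := K ⊗[k] A1) (B₀₁ := K ⊗[k] A01) hB1
    (rigHom K q)
  obtain ⟨i0, i1, e⟩ := Fermat.Agent.JAC.Hilb.DivBaseChange46.bc_cls_idealDiag (t := t) (s := s)
    (Algebra.ofId k K) (pointIdeal (k ⊗[k] A0) (rigHom k q)) (pointIdeal (k ⊗[k] A1) (rigHom k q))
    (map_pointIdeal_eq ((1 : k) ⊗ₜ[k] t) ((1 : k) ⊗ₜ[k] s) (rigHom k q))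
  unfold ptClass
  rw [map_inv, e]
  congr 1
  exact Fermat.Agent.JAC.Grp.Diag33.cls_eq_iff.mpr
    ⟨Fermat.Agent.JAC.Hilb.IdealDiagBC46.idealDiagCongr (map_pointIdeal_bcMap K q)
      (map_pointIdeal_bcMap K q) _ _⟩

end BaseChange

/-! ### Twists and the covering theorem -/

section Twist

variable (K : Type u) [Field K] [Algebra k K]
  [IsDedekindDomain (K ⊗[k] A0)] [IsDedekindDomain (K ⊗[k] A1)] [IsDedekindDomain (K ⊗[k] A01)]
  [IsFractionRing (K ⊗[k] A0) (FF k A01 K)] [IsFractionRing (K ⊗[k] A1) (FF k A01 K)]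

/-- The twist `[O(e)]^m * Π_{q' ∈ l'} [O(q')] * (Π_{q ∈ l} [O(q)])⁻¹` over `K`, for
`j = (m, l, l')`. -/
noncomputable def twist (hB0 : ¬ IsField (K ⊗[k] A0)) (hB1 : ¬ IsField (K ⊗[k] A1))
    (e : A01 →ₐ[k] k) (j : ℤ × List (A01 →ₐ[k] k) × List (A01 →ₐ[k] k)) :
    Cl k A0 A1 A01 t s K :=
  ptClass t s K hB0 hB1 e ^ j.1 * (j.2.2.map (ptClass t s K hB0 hB1)).prod *
    ((j.2.1.map (ptClass t s K hB0 hB1)).prod)⁻¹

/-- The product of point classes is the class of the divisor of the points. -/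
theorem prod_ptClass_eq (S : IsSetting K (FF k A01 K) ((1 : K) ⊗ₜ[k] t) ((1 : K) ⊗ₜ[k] s)
      (K ⊗[k] A01))
    (hB0 : ¬ IsField (K ⊗[k] A0)) (hB1 : ¬ IsField (K ⊗[k] A1)) (hB01 : ¬ IsField (K ⊗[k] A01))
    (l : List (A01 →ₐ[k] k)) :
    (l.map (ptClass t s K hB0 hB1)).prod = Fermat.Agent.JAC.Fibre.DiagOps38.clsOfDiv S
      (Multiplicative.ofAdd (divOfPoints (F := FF k A01 K) hB01 l)) := by
  induction l with
  | nil =>
    simp only [List.map_nil, List.prod_nil, divOfPoints, List.sum_nil]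
    exact (map_one _).symm
  | cons q l ih =>
    rw [List.map_cons, List.prod_cons, ih, ptClass_eq t s K S hB0 hB1 hB01 q, ← map_mul,
      ← ofAdd_add]
    rfl

/-- The twist over `K` is the class of the divisor `m [e] + Σ l' - Σ l`. -/
theorem twist_eq (S : IsSetting K (FF k A01 K) ((1 : K) ⊗ₜ[k] t) ((1 : K) ⊗ₜ[k] s)
      (K ⊗[k] A01))
    (hB0 : ¬ IsField (K ⊗[k] A0)) (hB1 : ¬ IsField (K ⊗[k] A1)) (hB01 : ¬ IsField (K ⊗[k] A01))
    (e : A01 →ₐ[k] k) (j : ℤ × List (A01 →ₐ[k] k) × List (A01 →ₐ[k] k)) :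
    twist t s K hB0 hB1 e j = Fermat.Agent.JAC.Fibre.DiagOps38.clsOfDiv S
      (Multiplicative.ofAdd (j.1 • Finsupp.single (ratPlace (FF k A01 K) hB01 e) (1 : ℤ) +
        divOfPoints (F := FF k A01 K) hB01 j.2.2 - divOfPoints (F := FF k A01 K) hB01 j.2.1)) := by
  unfold twist
  rw [prod_ptClass_eq t s K S hB0 hB1 hB01, prod_ptClass_eq t s K S hB0 hB1 hB01,
    ptClass_eq t s K S hB0 hB1 hB01 e, ← map_zpow, ← map_mul, ← map_inv, ← map_mul]
  congr 1
  rw [ofAdd_sub, ofAdd_add, ofAdd_zsmul, div_eq_mul_inv]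

end Twist

section TwistBaseChange

variable (K : Type u) [Field K] [Algebra k K]
  [IsDedekindDomain (K ⊗[k] A0)] [IsDedekindDomain (K ⊗[k] A1)] [IsDedekindDomain (K ⊗[k] A01)]
  [IsFractionRing (K ⊗[k] A0) (FF k A01 K)] [IsFractionRing (K ⊗[k] A1) (FF k A01 K)]
  [IsDedekindDomain (k ⊗[k] A0)] [IsDedekindDomain (k ⊗[k] A1)] [IsDedekindDomain (k ⊗[k] A01)]
  [IsFractionRing (k ⊗[k] A0) (FF k A01 k)] [IsFractionRing (k ⊗[k] A1) (FF k A01 k)]

/-- **Base change of twists**: `bc (twist over k) = twist over K`. -/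
theorem bc_twist (hb0 : ¬ IsField (k ⊗[k] A0)) (hb1 : ¬ IsField (k ⊗[k] A1))
    (hB0 : ¬ IsField (K ⊗[k] A0)) (hB1 : ¬ IsField (K ⊗[k] A1)) (e : A01 →ₐ[k] k)
    (j : ℤ × List (A01 →ₐ[k] k) × List (A01 →ₐ[k] k)) :
    bc (Algebra.ofId k K) (twist t s k hb0 hb1 e j) = twist t s K hB0 hB1 e j := by
  have hp : ∀ l : List (A01 →ₐ[k] k),
      bc (A0 := A0) (A1 := A1) (A01 := A01) (t := t) (s := s) (Algebra.ofId k K)
        ((l.map (ptClass t s k hb0 hb1)).prod) = (l.map (ptClass t s K hB0 hB1)).prod := by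
    intro l
    induction l with
    | nil => simp
    | cons q l ih =>
      rw [List.map_cons, List.prod_cons, map_mul, ih, bc_ptClass t s K hb0 hb1 hB0 hB1 q,
        List.map_cons, List.prod_cons]
  unfold twist
  rw [map_mul, map_mul, map_inv, map_zpow, hp, hp, bc_ptClass t s K hb0 hb1 hB0 hB1 e]

end TwistBaseChange

/-! ### The covering theorem -/

section Cov

variable (K : Type u) [Field K] [Algebra k K]
  [IsDedekindDomain (K ⊗[k] A0)] [IsDedekindDomain (K ⊗[k] A1)] [IsDedekindDomain (K ⊗[k] A01)]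
  [IsFractionRing (K ⊗[k] A0) (FF k A01 K)] [IsFractionRing (K ⊗[k] A1) (FF k A01 K)]
  (hts : algebraMap A0 A01 t * algebraMap A1 A01 s = 1)
  {n0 n1 : ℕ} {a0 : Fin n0 → A0} {a1 : Fin n1 → A1}
  (ha0 : Function.Bijective (fun p : Fin n0 → k[X] => ∑ j, aeval t (p j) * a0 j))
  (ha1 : Function.Bijective (fun p : Fin n1 → k[X] => ∑ j, aeval s (p j) * a1 j))

include ha0 in
omit [IsLocalization.Away s A01] [IsDedekindDomain (K ⊗[k] A1)]
  [IsFractionRing (K ⊗[k] A1) (FF k A01 K)] in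
/-- `1 ⊗ t` is transcendental over `K` in the function field. -/
theorem transcendental_tau :
    Transcendental K (algebraMap (K ⊗[k] A0) (FF k A01 K) ((1 : K) ⊗ₜ[k] t)) := by
  rw [transcendental_algebraMap_iff (IsFractionRing.injective (K ⊗[k] A0) (FF k A01 K))]
  exact transcendental_of_coords (bijective_coords K ha0)

include ha0 in
omit [IsLocalization.Away s A01] [IsDedekindDomain (K ⊗[k] A1)]
  [IsFractionRing (K ⊗[k] A1) (FF k A01 K)] in
/-- The overlap ring `K ⊗[k] A01` is not a field (it has a `K`-point and a transcendental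
element). -/
theorem not_isField_tensor₀₁ (e : A01 →ₐ[k] k) : ¬ IsField (K ⊗[k] A01) := by
  intro hF
  have htr := transcendental_tau (A01 := A01) t K ha0
  rw [IsScalarTower.algebraMap_apply (K ⊗[k] A0) (K ⊗[k] A01) (FF k A01 K),
    transcendental_algebraMap_iff (IsFractionRing.injective (K ⊗[k] A01) (FF k A01 K))] at htr
  apply htr
  set b := algebraMap (K ⊗[k] A0) (K ⊗[k] A01) ((1 : K) ⊗ₜ[k] t) with hb
  have hker : RingHom.ker (rigHom K e : K ⊗[k] A01 →+* K) = ⊥ := by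
    letI := hF.toField
    exact (RingHom.injective_iff_ker_eq_bot _).mp (RingHom.injective _)
  have h1 : b - algebraMap K (K ⊗[k] A01) (rigHom K e b) ∈
      RingHom.ker (rigHom K e : K ⊗[k] A01 →+* K) := by
    rw [RingHom.mem_ker]
    change rigHom K e (b - algebraMap K (K ⊗[k] A01) (rigHom K e b)) = 0
    rw [map_sub, AlgHom.commutes]
    simp
  rw [hker, Ideal.mem_bot, sub_eq_zero] at h1
  rw [h1]
  exact isAlgebraic_algebraMap _

variable [IsAlgClosed k]
  [IsDedekindDomain (k ⊗[k] A0)] [IsDedekindDomain (k ⊗[k] A1)] [IsDedekindDomain (k ⊗[k] A01)]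
  [IsFractionRing (k ⊗[k] A0) (FF k A01 k)] [IsFractionRing (k ⊗[k] A1) (FF k A01 k)]

include hts ha0 ha1 in
/-- **(Cov), divisor form.**  For EVERY field `K` over the algebraically closed field `k` and EVERY
class `ξ` of line diagrams over `K ⊗[k] A_i` there is a twist index `j = (m, l, l')` (defined over
`k`) such that `ξ * bc (twist over k) = [O(D')]` with `h¹(D') = 0`, `h⁰(D') = 1` and no zero at
infinity. -/
theorem exists_good_translate (e : A01 →ₐ[k] k) (ξ : Cl k A0 A1 A01 t s K) :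
    ∃ (j : ℤ × List (A01 →ₐ[k] k) × List (A01 →ₐ[k] k))
      (S : IsSetting K (FF k A01 K) ((1 : K) ⊗ₜ[k] t) ((1 : K) ⊗ₜ[k] s) (K ⊗[k] A01))
      (T : TwoChart (chartSet (K := K) (F := FF k A01 K) (K ⊗[k] A0))
        (chartSet (K := K) (F := FF k A01 K) (K ⊗[k] A1)))
      (_ : ∃ E : Divisor K (FF k A01 K), h1n (chartSet (K := K) (F := FF k A01 K) (K ⊗[k] A0))
        (chartSet (K := K) (F := FF k A01 K) (K ⊗[k] A1)) E = 0)
      (D' : Divisor K (FF k A01 K)),
      ξ * bc (Algebra.ofId k K) (twist t s k (not_isField_tensor k ha0)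
        (not_isField_tensor k ha1) e j) =
        Fermat.Agent.JAC.Grp.Diag33.cls (lineDiagOfDiv S D') ∧
      h1n (chartSet (K := K) (F := FF k A01 K) (K ⊗[k] A0))
        (chartSet (K := K) (F := FF k A01 K) (K ⊗[k] A1)) D' = 0 ∧
      h0n (chartSet (K := K) (F := FF k A01 K) (K ⊗[k] A0))
        (chartSet (K := K) (F := FF k A01 K) (K ⊗[k] A1)) D' = 1 ∧
      ∀ v : Place K (FF k A01 K), v ∉ chartSet (K := K) (F := FF k A01 K) (K ⊗[k] A0) →
        h0n (chartSet (K := K) (F := FF k A01 K) (K ⊗[k] A0))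
          (chartSet (K := K) (F := FF k A01 K) (K ⊗[k] A1)) (D' - Finsupp.single v 1) = 0 := by
  have S := isSetting t s K hts ha0 ha1
  have hB0 := not_isField_tensor K ha0
  have hB1 := not_isField_tensor K ha1
  have hB01 := not_isField_tensor₀₁ t K ha0 e
  obtain ⟨T, m₀, hm₀⟩ := exists_twoChart t s K hts ha0 ha1
  have hvan : ∃ E : Divisor K (FF k A01 K),
      h1n (chartSet (K := K) (F := FF k A01 K) (K ⊗[k] A0))
        (chartSet (K := K) (F := FF k A01 K) (K ⊗[k] A1)) E = 0 := ⟨_, hm₀ m₀ le_rfl⟩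
  obtain ⟨Dm, hDm⟩ := Fermat.Agent.JAC.Fibre.DiagOps38.clsOfDiv_surjective S ξ
  set D : Divisor K (FF k A01 K) := Multiplicative.toAdd Dm with hD
  set ve := ratPlace (FF k A01 K) hB01 e with hve
  set m : ℤ := 1 - chi (chartSet (K := K) (F := FF k A01 K) (K ⊗[k] A0))
    (chartSet (K := K) (F := FF k A01 K) (K ⊗[k] A1)) D with hm
  set D0 : Divisor K (FF k A01 K) := D + m • Finsupp.single ve (1 : ℤ) with hD0
  have hchi : chi (chartSet (K := K) (F := FF k A01 K) (K ⊗[k] A0))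
      (chartSet (K := K) (F := FF k A01 K) (K ⊗[k] A1)) D0 = 1 := by
    rw [T.riemann D0, hD0, map_add, map_zsmul, Divisor.degree_single, deg_ratPlace, hm,
      T.riemann D]
    simp
    ring
  have hfin0 : ∀ c : k, Module.Finite k (A0 ⧸ Ideal.span {t - algebraMap k A0 c}) :=
    fun c => finite_quotient_of_coords ha0.2 c
  have hfin1 : Module.Finite k (A1 ⧸ Ideal.span {s}) := by
    have := finite_quotient_of_coords ha1.2 (0 : k)
    rwa [map_zero, sub_zero] at this
  obtain ⟨l, l', -, -, h1', h0', hI⟩ := exists_translate_ratPlaces_core hB0 hB1 hB01 t s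
    (hts_FF t s K hts) (isIntegral_aeval K ha0) (transcendental_tau (A01 := A01) t K ha0) hfin0 hfin1 T hvan
    D0 hchi
  refine ⟨(m, l, l'), S, T, hvan, D0 + divOfPoints hB01 l' - divOfPoints hB01 l, ?_, h1', h0', hI⟩
  rw [bc_twist t s K (not_isField_tensor k ha0) (not_isField_tensor k ha1) hB0 hB1 e,
    twist_eq t s K S hB0 hB1 hB01 e, ← hDm, ← map_mul,
    ← Fermat.Agent.JAC.Fibre.DiagOps38.clsOfDiv_apply]
  congr 1
  change Dm * _ = Multiplicative.ofAdd (D + m • Finsupp.single ve (1 : ℤ) + _ - _)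
  rw [show Dm = Multiplicative.ofAdd D from rfl, ← ofAdd_add]
  congr 1
  abel

end Cov

/-! ### The covering theorem, diagram form (`GoodAt` of helper24, unfolded) -/

section Good

variable (K : Type u) [Field K] [Algebra k K]
  [IsDedekindDomain (K ⊗[k] A0)] [IsDedekindDomain (K ⊗[k] A1)] [IsDedekindDomain (K ⊗[k] A01)]
  [IsFractionRing (K ⊗[k] A0) (FF k A01 K)] [IsFractionRing (K ⊗[k] A1) (FF k A01 K)]

omit [IsLocalization.Away t A01] [IsLocalization.Away s A01] in
/-- The three `GoodAt` conditions for `O(D')` from the divisor conditions. -/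
theorem good_lineDiagOfDiv
    (S : IsSetting K (FF k A01 K) ((1 : K) ⊗ₜ[k] t) ((1 : K) ⊗ₜ[k] s) (K ⊗[k] A01))
    (T : TwoChart (chartSet (K := K) (F := FF k A01 K) (K ⊗[k] A0))
      (chartSet (K := K) (F := FF k A01 K) (K ⊗[k] A1)))
    (hvan : ∃ E : Divisor K (FF k A01 K),
      h1n (chartSet (K := K) (F := FF k A01 K) (K ⊗[k] A0))
        (chartSet (K := K) (F := FF k A01 K) (K ⊗[k] A1)) E = 0)
    (D' : Divisor K (FF k A01 K))
    (h1 : h1n (chartSet (K := K) (F := FF k A01 K) (K ⊗[k] A0))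
      (chartSet (K := K) (F := FF k A01 K) (K ⊗[k] A1)) D' = 0)
    (h0 : h0n (chartSet (K := K) (F := FF k A01 K) (K ⊗[k] A0))
      (chartSet (K := K) (F := FF k A01 K) (K ⊗[k] A1)) D' = 1)
    (hI : ∀ v : Place K (FF k A01 K), v ∉ chartSet (K := K) (F := FF k A01 K) (K ⊗[k] A0) →
      h0n (chartSet (K := K) (F := FF k A01 K) (K ⊗[k] A0))
        (chartSet (K := K) (F := FF k A01 K) (K ⊗[k] A1)) (D' - Finsupp.single v 1) = 0) :
    ∃ (σ0 : (lineDiagOfDiv S D').M0) (σ1 : (lineDiagOfDiv S D').M1),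
      (∀ z : (lineDiagOfDiv S D').M01, ∃ (x : (lineDiagOfDiv S D').M0)
        (y : (lineDiagOfDiv S D').M1),
        (lineDiagOfDiv S D').rho0 x - (lineDiagOfDiv S D').rho1 y = z) ∧
      Fermat.Agent.JAC.Hilb.GenSection46.Generates K (lineDiagOfDiv S D') σ0 σ1 ∧
      Fermat.Agent.JAC.Hilb.GenSection46.IsFaithfulSection K (lineDiagOfDiv S D') σ0 σ1 ∧
      Submodule.span (K ⊗[k] A1) {σ1} ⊔
        Ideal.span {(1 : K) ⊗ₜ[k] s} • (⊤ : Submodule (K ⊗[k] A1) (lineDiagOfDiv S D').M1) = ⊤ := by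
  obtain ⟨σ, hσ0, hσU0, hσU1, huniq⟩ := GoodDiv67.exists_generator_of_h0n_eq_one D' h0
  have hord : ∀ v : Place K (FF k A01 K),
      v ∉ chartSet (K := K) (F := FF k A01 K) (K ⊗[k] A0) → v.ord σ = -D' v := fun v hv =>
    GoodDiv67.ord_eq_neg_of_h0n_sub_single_eq_zero T hvan (hI v hv) hσ0 hσU0 hσU1
  refine ⟨(⟨σ, mem_latMod_iff.mpr hσU0⟩ : ↥(latMod (K ⊗[k] A0) D')),
    (⟨σ, mem_latMod_iff.mpr hσU1⟩ : ↥(latMod (K ⊗[k] A1) D')),
    GoodDiv67.h1Zero_of_h1n_eq_zero S T D' h1, ⟨?_, ?_⟩, ?_,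
    GoodDiv67.span_sup_idealSpan_smul_eq_top S D' hσ0 hσU1 hord⟩
  · exact Subtype.ext rfl
  · intro x y hxy
    obtain ⟨x, hx⟩ : ↥(latMod (K ⊗[k] A0) D') := x
    obtain ⟨y, hy⟩ : ↥(latMod (K ⊗[k] A1) D') := y
    have hxy' : x = y := congrArg Subtype.val hxy
    obtain ⟨c, hc, -⟩ := huniq x (mem_latMod_iff.mp hx) (hxy' ▸ mem_latMod_iff.mp hy)
    refine ⟨c, ?_, ?_⟩
    · apply Subtype.ext
      change x = algebraMap K (K ⊗[k] A0) c • σ
      rw [Algebra.smul_def, ← IsScalarTower.algebraMap_apply K (K ⊗[k] A0) (FF k A01 K)]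
      exact hc
    · apply Subtype.ext
      change y = algebraMap K (K ⊗[k] A1) c • σ
      rw [Algebra.smul_def, ← IsScalarTower.algebraMap_apply K (K ⊗[k] A1) (FF k A01 K), ← hxy']
      exact hc
  · intro c hc _
    have h := congrArg Subtype.val hc
    change algebraMap K (K ⊗[k] A0) c • σ = 0 at h
    rw [Algebra.smul_def, ← IsScalarTower.algebraMap_apply K (K ⊗[k] A0) (FF k A01 K)] at h
    rcases mul_eq_zero.mp h with h | h
    · exact (map_eq_zero_iff _ (algebraMap K (FF k A01 K)).injective).mp h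
    · exact absurd h hσ0

variable (hts : algebraMap A0 A01 t * algebraMap A1 A01 s = 1)
  {n0 n1 : ℕ} {a0 : Fin n0 → A0} {a1 : Fin n1 → A1}
  (ha0 : Function.Bijective (fun p : Fin n0 → k[X] => ∑ j, aeval t (p j) * a0 j))
  (ha1 : Function.Bijective (fun p : Fin n1 → k[X] => ∑ j, aeval s (p j) * a1 j))
  [IsAlgClosed k]
  [IsDedekindDomain (k ⊗[k] A0)] [IsDedekindDomain (k ⊗[k] A1)] [IsDedekindDomain (k ⊗[k] A01)]
  [IsFractionRing (k ⊗[k] A0) (FF k A01 k)] [IsFractionRing (k ⊗[k] A1) (FF k A01 k)]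

include hts ha0 ha1 in
/-- **(Cov), diagram form** = the covering hypothesis `cov` of helper24's chart theorem
(report #684 (d1)), with `GoodAt` unfolded: for EVERY field `K` over `k` and EVERY class `ξ` over
`K` there are a twist index `j` (defined over `k`) and a line diagram `N` in the class
`ξ * bc (twist j)` with `H¹ = 0`, a generating faithful section, not vanishing at infinity. -/
theorem exists_good_diagram (e : A01 →ₐ[k] k) (ξ : Cl k A0 A1 A01 t s K) :
    ∃ (j : ℤ × List (A01 →ₐ[k] k) × List (A01 →ₐ[k] k))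
      (N : LineDiag ((1 : K) ⊗ₜ[k] t) ((1 : K) ⊗ₜ[k] s) (K ⊗[k] A01)) (σ0 : N.M0) (σ1 : N.M1),
      Fermat.Agent.JAC.Grp.Diag33.cls N = ξ * bc (Algebra.ofId k K)
        (twist t s k (not_isField_tensor k ha0) (not_isField_tensor k ha1) e j) ∧
      (∀ z : N.M01, ∃ (x : N.M0) (y : N.M1), N.rho0 x - N.rho1 y = z) ∧
      Fermat.Agent.JAC.Hilb.GenSection46.Generates K N σ0 σ1 ∧
      Fermat.Agent.JAC.Hilb.GenSection46.IsFaithfulSection K N σ0 σ1 ∧
      Submodule.span (K ⊗[k] A1) {σ1} ⊔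
        Ideal.span {(1 : K) ⊗ₜ[k] s} • (⊤ : Submodule (K ⊗[k] A1) N.M1) = ⊤ := by
  obtain ⟨j, S, T, hvan, D', hcls, h1, h0, hI⟩ :=
    exists_good_translate t s K hts ha0 ha1 e ξ
  obtain ⟨σ0, σ1, hH1, hgen, hfaith, hinf⟩ := good_lineDiagOfDiv t s K S T hvan D' h1 h0 hI
  exact ⟨j, lineDiagOfDiv S D', σ0, σ1, hcls.symm, hH1, hgen, hfaith, hinf⟩

end Good

end Main

end Fermat.Agent.JAC.Fibre.CovWire67
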