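/-
Programme JAC: `hadd` of COORD #6 for the geometric fibres of the S25 curve
(`D : TwoChartData c` of work package B2): the degree of classes of line diagrams over
`K ⊗[k] A_i` is additive, for every field `K` over `k`.
-/
import Fermat.Agent.JAC.B2.FibreSetting37
import Fermat.Agent.JAC.Fibre.DegAdd38

set_option autoImplicit false
set_option linter.unusedSectionVars false
set_option linter.style.haveILetI false

open AlgebraicGeometry CategoryTheory TopologicalSpace Opposite Polynomial TensorProduct
open scoped Fermat.Agent.JAC.Core.ConstFamily36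

namespace Fermat.Agent.JAC.Fibre.DegAddFibre38

open Fermat.Agent.JAC.B2 Charts37 Domain37 Valuative37 TwoChart37 Export37 CurveBlock37 HGeom37
  FibreSetting37
open Fermat.Agent.JAC.Core.AlgAtlas36 Fermat.Agent.JAC.Core.Degree36
  Fermat.Agent.JAC.Fibre.DegAdd38 Fermat.Agent.JAC.Grp.Diag33

universe u

variable {k : Type u} [Field k] {C : Scheme.{u}} {c : C ⟶ Spec (.of k)} (D : TwoChartData c)

attribute [local instance] algK₀ algK₁ algK₀₁ alg₀ alg₁

variable [IsAlgClosed k] [SmoothOfRelativeDimension 1 c] (K : Type u) [Field K] [Algebra k K]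

/-- **`hadd`** for the S25 curve: additivity of the degree on the fibre over any field `K`. -/
theorem degClass_mul_fibre (x y : Cl k (A₀ D) (A₁ D) (A₀₁ D) D.t D.s K) :
    degClass K (x * y) = degClass K x + degClass K y := by
  haveI := isDedekindDomain_baseChange₀ D K
  haveI := isDedekindDomain_baseChange₁ D K
  haveI := isDedekindDomain_baseChange₀₁ D K
  obtain ⟨n0, a0, ha0⟩ := exists_coords₀ D
  obtain ⟨n1, a1, ha1⟩ := exists_coords₁ D
  exact degClass_mul_constExt D.t D.s K (hts D) ha0 ha1 x y

theorem degClass_one_fibre : degClass K (1 : Cl k (A₀ D) (A₁ D) (A₀₁ D) D.t D.s K) = 0 := by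
  haveI := isDedekindDomain_baseChange₀ D K
  haveI := isDedekindDomain_baseChange₁ D K
  haveI := isDedekindDomain_baseChange₀₁ D K
  obtain ⟨n0, a0, ha0⟩ := exists_coords₀ D
  obtain ⟨n1, a1, ha1⟩ := exists_coords₁ D
  exact degClass_one_constExt D.t D.s K (hts D) ha0 ha1

theorem degClass_inv_fibre (x : Cl k (A₀ D) (A₁ D) (A₀₁ D) D.t D.s K) :
    degClass K x⁻¹ = -degClass K x := by
  haveI := isDedekindDomain_baseChange₀ D K
  haveI := isDedekindDomain_baseChange₁ D K
  haveI := isDedekindDomain_baseChange₀₁ D K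
  obtain ⟨n0, a0, ha0⟩ := exists_coords₀ D
  obtain ⟨n1, a1, ha1⟩ := exists_coords₁ D
  exact degClass_inv_constExt D.t D.s K (hts D) ha0 ha1 x

end Fermat.Agent.JAC.Fibre.DegAddFibre38
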