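/-
Programme JAC (S25), chapter Fibre: the genus does not depend on the field of constants.
Owner: helper67.

For CURVE data `(A0 → A01 ← A1; t, s)` over a field `k` and ANY field `K` over `k`, the Euler
characteristic `χ(O)` of the fibre curve over `K` (in the sense of `Core38`) is the Euler
characteristic of the Čech pair `k ⊗ A0 → k ⊗ A01 ← k ⊗ A1` over `k`:

  `Core38.chi (chartSet (K ⊗[k] A0)) (chartSet (K ⊗[k] A1)) 0 = h0k - genus`,

with `genus := dim_k H¹`, `h0k := dim_k H⁰` computed over `k` (so the SAME numbers for every `K`),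
and `h0k = 1` as soon as `H⁰(C, O) = k`.  This is the input `hchi`/`hg` of `Abel/JacobiInv57` and
`Abel/Surj57` with a genus that does not depend on `K`.
-/
import Mathlib
import Fermat.Agent.JAC.Fibre.DegAdd38
import Fermat.Agent.JAC.Fibre.DiagChi38
import Fermat.Agent.JAC.Frame.DegFamily65
import Fermat.Agent.JAC.Cech.FlatBC67

set_option autoImplicit false
set_option linter.unusedSectionVars false
set_option linter.style.haveILetI false

universe u

namespace Fermat.Agent.JAC.Fibre.GenusConst67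

open scoped TensorProduct Polynomial
open scoped Fermat.Agent.JAC.Core.ConstFamily36
open Fermat.Agent.JAC.Core.Defs36 Fermat.Agent.JAC.Core.Cart36 Fermat.Agent.JAC.Core.ConstFamily36
  Fermat.Agent.JAC.Core.AlgAtlas36 Fermat.Agent.JAC.Cech
  Fermat.Agent.JAC.Frame.DegFamily65 Fermat.Agent.JAC.Fibre.ConstExt37
  Fermat.Agent.JAC.Fibre.Chart38 Fermat.Agent.JAC.Fibre.DiagOfDiv38
  AlgebraicCurve Polynomial

variable (k : Type u) [Field k] (A0 A1 A01 : Type u) [CommRing A0] [CommRing A1] [CommRing A01]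
  [Algebra k A0] [Algebra k A1] [Algebra k A01] [Algebra A0 A01] [Algebra A1 A01]
  [IsScalarTower k A0 A01] [IsScalarTower k A1 A01] (t : A0) (s : A1)
  [IsLocalization.Away t A01] [IsLocalization.Away s A01]

/-- The structure sheaf over `k`, as a line diagram over the constant family `k ⊗[k] A_i`. -/
noncomputable abbrev unitK : LineDiag ((1 : k) ⊗ₜ[k] t) ((1 : k) ⊗ₜ[k] s) (k ⊗[k] A01) :=
  LineDiag.unit ((1 : k) ⊗ₜ[k] t) ((1 : k) ⊗ₜ[k] s) (k ⊗[k] A01)

/-- `dim_k H⁰(C, O)`, computed over `k`. -/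
noncomputable def h0k : ℕ :=
  letI := moduleB0 k (unitK k A0 A1 A01 t s)
  letI := moduleB1 k (unitK k A0 A1 A01 t s)
  letI := moduleB01 k (unitK k A0 A1 A01 t s)
  Module.finrank k (H0 (rho0B k (unitK k A0 A1 A01 t s)) (rho1B k (unitK k A0 A1 A01 t s)))

/-- **The genus** `dim_k H¹(C, O) = dim_k A01 / (A0 + A1)`, computed over `k`. -/
noncomputable def genus : ℕ :=
  letI := moduleB0 k (unitK k A0 A1 A01 t s)
  letI := moduleB1 k (unitK k A0 A1 A01 t s)
  letI := moduleB01 k (unitK k A0 A1 A01 t s)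
  Module.finrank k (H1 (rho0B k (unitK k A0 A1 A01 t s)) (rho1B k (unitK k A0 A1 A01 t s)))

variable {k A0 A1 A01}

/-- The Euler characteristic of the fibre of the structure sheaf at any field-valued point of
`Spec k` is `h0k - genus`. -/
theorem chiAt_unitK (K : Type u) [Field K] [Algebra k K] :
    chiAt k (unitK k A0 A1 A01 t s) K = (h0k k A0 A1 A01 t s : ℤ) - (genus k A0 A1 A01 t s : ℤ) := by
  letI := moduleB0 k (unitK k A0 A1 A01 t s)
  letI := moduleB1 k (unitK k A0 A1 A01 t s)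
  letI := moduleB01 k (unitK k A0 A1 A01 t s)
  unfold chiAt Fermat.Agent.JAC.Frame.GoodTwist65.chi h0k genus
  rw [Fermat.Agent.JAC.Cech.FlatBC67.finrank_H0_baseChange,
    Fermat.Agent.JAC.Cech.FlatBC67.finrank_H1_baseChange]

/-- The Euler characteristic (in the sense of `Core/Degree36`) of the structure sheaf of the
constant extension to `K` is `h0k - genus`. -/
theorem chi_unit (K : Type u) [Field K] [Algebra k K] :
    Fermat.Agent.JAC.Core.Degree36.chi K
        (LineDiag.unit ((1 : K) ⊗ₜ[k] t) ((1 : K) ⊗ₜ[k] s) (K ⊗[k] A01)) =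
      (h0k k A0 A1 A01 t s : ℤ) - (genus k A0 A1 A01 t s : ℤ) := by
  obtain ⟨c⟩ := Fermat.Agent.JAC.Grp.Cart33.cartHom_unit
    (familyHom (A01 := A01) (Algebra.ofId k K) t s)
  rw [← chiAt_unitK t s K]
  exact chi_eq_chiAt_of_cartHom (familyHom (A01 := A01) (Algebra.ofId k K) t s) c
    (isPushoutSquare_tensor (k := k) (B := k) (K := K) A0 _ (fun b a => rfl))
    (isPushoutSquare_tensor (k := k) (B := k) (K := K) A1 _ (fun b a => rfl))
    (isPushoutSquare_tensor (k := k) (B := k) (K := K) A01 _ (fun b a => rfl))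

omit [IsLocalization.Away t A01] [IsLocalization.Away s A01] in
/-- every element of `k ⊗[k] A` is a pure tensor `1 ⊗ a` -/
theorem exists_one_tmul_eq {A : Type u} [CommRing A] [Algebra k A] (x : k ⊗[k] A) :
    ∃ a : A, (1 : k) ⊗ₜ[k] a = x :=
  ⟨Algebra.TensorProduct.lid k A x, by
    rw [← Algebra.TensorProduct.lid_symm_apply, AlgEquiv.symm_apply_apply]⟩

/-- **`h⁰(C, O) = 1`** (over `k`) as soon as `H⁰(C, O) = k`. -/
theorem h0k_eq_one [Nontrivial A0]
    (hH0 : ∀ (a0 : A0) (a1 : A1), algebraMap A0 A01 a0 = algebraMap A1 A01 a1 →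
      ∃ c : k, a0 = algebraMap k A0 c ∧ a1 = algebraMap k A1 c) :
    h0k k A0 A1 A01 t s = 1 := by
  letI := moduleB0 k (unitK k A0 A1 A01 t s)
  letI := moduleB1 k (unitK k A0 A1 A01 t s)
  letI := moduleB01 k (unitK k A0 A1 A01 t s)
  unfold h0k
  have hmem : (((1 : k ⊗[k] A0), (1 : k ⊗[k] A1)) :
      (unitK k A0 A1 A01 t s).M0 × (unitK k A0 A1 A01 t s).M1) ∈
      H0 (rho0B k (unitK k A0 A1 A01 t s)) (rho1B k (unitK k A0 A1 A01 t s)) := by
    refine (mem_H0 _ _ _).mpr ?_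
    show algebraMap (k ⊗[k] A0) (k ⊗[k] A01) 1 = algebraMap (k ⊗[k] A1) (k ⊗[k] A01) 1
    rw [map_one, map_one]
  haveI : Nontrivial (k ⊗[k] A0) := (Algebra.TensorProduct.lid k A0).toEquiv.nontrivial
  have hne : (⟨_, hmem⟩ : H0 (rho0B k (unitK k A0 A1 A01 t s))
      (rho1B k (unitK k A0 A1 A01 t s))) ≠ 0 := by
    intro h
    have h1 : ((1 : k ⊗[k] A0), (1 : k ⊗[k] A1)) = 0 := congrArg Subtype.val h
    exact one_ne_zero (congrArg Prod.fst h1)
  rw [finrank_eq_one_iff_of_nonzero' _ hne]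
  rintro ⟨⟨x, y⟩, hxy⟩
  have hxy := (mem_H0 _ _ _).mp hxy
  obtain ⟨a0, rfl⟩ := exists_one_tmul_eq (A := A0) x
  obtain ⟨a1, rfl⟩ := exists_one_tmul_eq (A := A1) y
  have hxy' : (1 : k) ⊗ₜ[k] algebraMap A0 A01 a0 = (1 : k) ⊗ₜ[k] algebraMap A1 A01 a1 := hxy
  have hxy'' : algebraMap A0 A01 a0 = algebraMap A1 A01 a1 := by
    have := congrArg (Algebra.TensorProduct.lid k A01) hxy'
    simpa using this
  obtain ⟨c, rfl, rfl⟩ := hH0 a0 a1 hxy''
  refine ⟨c, Subtype.ext (Prod.ext ?_ ?_)⟩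
  · show algebraMap k (k ⊗[k] A0) c • (1 : k ⊗[k] A0) = (1 : k) ⊗ₜ[k] algebraMap k A0 c
    rw [smul_eq_mul, mul_one, Algebra.TensorProduct.algebraMap_apply, Algebra.algebraMap_self_apply,
      Algebra.algebraMap_eq_smul_one, TensorProduct.tmul_smul, TensorProduct.smul_tmul', smul_eq_mul,
      mul_one]
  · show algebraMap k (k ⊗[k] A1) c • (1 : k ⊗[k] A1) = (1 : k) ⊗ₜ[k] algebraMap k A1 c
    rw [smul_eq_mul, mul_one, Algebra.TensorProduct.algebraMap_apply, Algebra.algebraMap_self_apply,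
      Algebra.algebraMap_eq_smul_one, TensorProduct.tmul_smul, TensorProduct.smul_tmul', smul_eq_mul,
      mul_one]

section Fibre

variable (K : Type u) [Field K] [Algebra k K]
  [IsDedekindDomain (K ⊗[k] A0)] [IsDedekindDomain (K ⊗[k] A1)] [IsDedekindDomain (K ⊗[k] A01)]
  (hts : algebraMap A0 A01 t * algebraMap A1 A01 s = 1)
  {n0 n1 : ℕ} {a0 : Fin n0 → A0} {a1 : Fin n1 → A1}
  (ha0 : Function.Bijective (fun p : Fin n0 → k[X] => ∑ j, aeval t (p j) * a0 j))
  (ha1 : Function.Bijective (fun p : Fin n1 → k[X] => ∑ j, aeval s (p j) * a1 j))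

include hts ha0 ha1 in
/-- **`χ(O)` of the fibre over `K` does not depend on `K`.** -/
theorem chi_zero_eq :
    Fermat.Agent.JAC.Fibre.Core38.chi
        (chartSet (K := K) (F := FF k A01 K) (K ⊗[k] A0))
        (chartSet (K := K) (F := FF k A01 K) (K ⊗[k] A1)) 0 =
      (h0k k A0 A1 A01 t s : ℤ) - (genus k A0 A1 A01 t s : ℤ) := by
  haveI := isFractionRing₀ (k := k) (A01 := A01) t K
  haveI := isFractionRing₁ (k := k) (A01 := A01) s K
  have S := Fermat.Agent.JAC.Fibre.DegAdd38.isSetting_constExt t s K hts ha0 ha1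
  rw [← Fermat.Agent.JAC.Fibre.DiagChi38.chi_lineDiagOfDiv S 0,
    ← Fermat.Agent.JAC.Core.Degree36.chi_congr K
      (Fermat.Agent.JAC.Fibre.DiagChi38.unitIso S)]
  exact chi_unit t s K

include hts ha0 ha1 in
/-- **`χ(O) = 1 - g`** for the fibre over every field `K` over `k`, with the SAME genus
`g = genus k A0 A1 A01 t s` for every `K`: the hypothesis `hchi` of `Abel/JacobiInv57` and `hg` of
`Abel/Surj57`. -/
theorem chi_zero_eq_one_sub_genus
    (hH0 : ∀ (a0 : A0) (a1 : A1), algebraMap A0 A01 a0 = algebraMap A1 A01 a1 →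
      ∃ c : k, a0 = algebraMap k A0 c ∧ a1 = algebraMap k A1 c) :
    Fermat.Agent.JAC.Fibre.Core38.chi
        (chartSet (K := K) (F := FF k A01 K) (K ⊗[k] A0))
        (chartSet (K := K) (F := FF k A01 K) (K ⊗[k] A1)) 0 =
      1 - (genus k A0 A1 A01 t s : ℤ) := by
  haveI : Nontrivial A0 := by
    by_contra h
    rw [not_nontrivial_iff_subsingleton] at h
    have h1 : (1 : K ⊗[k] A0) = 0 := by
      rw [Algebra.TensorProduct.one_def, Subsingleton.elim (1 : A0) 0, TensorProduct.tmul_zero]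
    exact one_ne_zero h1
  rw [chi_zero_eq t s K hts ha0 ha1, h0k_eq_one t s hH0]
  rfl

end Fibre

end Fermat.Agent.JAC.Fibre.GenusConst67
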