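/-
Programme JAC (S25), chapter Fibre (helper37): additivity of the degree on classes of line
diagrams over the constant extension `K ⊗[k] A_*` (input `hadd` of the final wiring map).

Via helper38's adapter (every line diagram over a two-chart Dedekind setting is `O(D)`,
`O(D) ⊗ O(D') = O(D + D')`, `deg O(D) = deg D`) and the instantiation `ConstExt37` of the
setting for `B_i := K ⊗[k] A_i`.
-/
import Fermat.Agent.JAC.Fibre.ConstExt37
import Fermat.Agent.JAC.Fibre.DiagPrin38
import Fermat.Agent.JAC.Fibre.DiagOps38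
import Fermat.Agent.JAC.Core.AlgAtlas36

set_option autoImplicit false
set_option linter.unusedSectionVars false
set_option linter.style.haveILetI false

open scoped TensorProduct
open scoped Fermat.Agent.JAC.Core.ConstFamily36
open Polynomial AlgebraicCurve

namespace Fermat.Agent.JAC.Fibre.DegAddConst37

open Fermat.Agent.JAC.Fibre.Core38 Fermat.Agent.JAC.Fibre.Chart38
  Fermat.Agent.JAC.Fibre.Setting38 Fermat.Agent.JAC.Fibre.ConstExt37
  Fermat.Agent.JAC.Fibre.DiagOfDiv38 Fermat.Agent.JAC.Fibre.DiagOps38
  Fermat.Agent.JAC.Fibre.DiagPrin38 Fermat.Agent.JAC.Core.Defs36 Fermat.Agent.JAC.Grp.Diag33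
  Fermat.Agent.JAC.Core.Degree36 Fermat.Agent.JAC.Core.AlgAtlas36

universe u

variable {k : Type u} [Field k] {A0 A1 A01 : Type u} [CommRing A0] [CommRing A1] [CommRing A01]
  [Algebra k A0] [Algebra k A1] [Algebra k A01] [Algebra A0 A01] [Algebra A1 A01]
  [IsScalarTower k A0 A01] [IsScalarTower k A1 A01] (t : A0) (s : A1)
  [IsLocalization.Away t A01] [IsLocalization.Away s A01]
  (K : Type u) [Field K] [Algebra k K]
  [IsDedekindDomain (K ⊗[k] A0)] [IsDedekindDomain (K ⊗[k] A1)] [IsDedekindDomain (K ⊗[k] A01)]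
  (hts : algebraMap A0 A01 t * algebraMap A1 A01 s = 1)
  {n0 n1 : ℕ} {a0 : Fin n0 → A0} {a1 : Fin n1 → A1}
  (ha0 : Function.Bijective (fun p : Fin n0 → k[X] => ∑ j, aeval t (p j) * a0 j))
  (ha1 : Function.Bijective (fun p : Fin n1 → k[X] => ∑ j, aeval s (p j) * a1 j))

include hts ha0 ha1 in
/-- **The constant extension `K ⊗[k] A_*` is a setting** in the sense of `DiagOfDiv38`. -/
theorem isSetting_constExt :
    haveI := isFractionRing₀ (k := k) (A01 := A01) t K
    haveI := isFractionRing₁ (k := k) (A01 := A01) s K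
    IsSetting K (FF k A01 K) ((1 : K) ⊗ₜ[k] t) ((1 : K) ⊗ₜ[k] s) (K ⊗[k] A01) := by
  haveI := isFractionRing₀ (k := k) (A01 := A01) t K
  haveI := isFractionRing₁ (k := k) (A01 := A01) s K
  exact
    { away₀ := inferInstance
      away₁ := inferInstance
      hts := hts_FF t s K hts
      hint₀ := isIntegral_aeval K ha0
      hint₁ := isIntegral_aeval K ha1 }

include hts ha0 ha1 in
/-- **Additivity of the degree** on classes of line diagrams over `K ⊗[k] A_*`. -/
theorem degClass_mul (x y : Cl k A0 A1 A01 t s K) :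
    degClass K (x * y) = degClass K x + degClass K y := by
  haveI := isFractionRing₀ (k := k) (A01 := A01) t K
  haveI := isFractionRing₁ (k := k) (A01 := A01) s K
  have S := isSetting_constExt t s K hts ha0 ha1
  obtain ⟨T, -⟩ := exists_twoChart t s K hts ha0 ha1
  obtain ⟨D, rfl⟩ := clsOfDiv_surjective S x
  obtain ⟨D', rfl⟩ := clsOfDiv_surjective S y
  rw [← map_mul]
  change degClass K (cls (lineDiagOfDiv S (Multiplicative.toAdd (D * D')))) =
    degClass K (cls (lineDiagOfDiv S (Multiplicative.toAdd D))) +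
      degClass K (cls (lineDiagOfDiv S (Multiplicative.toAdd D')))
  rw [degClass_cls_lineDiagOfDiv S T, degClass_cls_lineDiagOfDiv S T,
    degClass_cls_lineDiagOfDiv S T, toAdd_mul, map_add]

include hts ha0 ha1 in
/-- the degree of the trivial class is zero -/
theorem degClass_one : degClass K (1 : Cl k A0 A1 A01 t s K) = 0 := by
  have h := degClass_mul t s K hts ha0 ha1 1 1
  rw [mul_one] at h
  omega

include hts ha0 ha1 in
/-- the degree of the inverse class -/
theorem degClass_inv (x : Cl k A0 A1 A01 t s K) : degClass K x⁻¹ = -degClass K x := by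
  have h := degClass_mul t s K hts ha0 ha1 x x⁻¹
  rw [mul_inv_cancel, degClass_one t s K hts ha0 ha1] at h
  omega

include hts ha0 ha1 in
/-- the degree as a group homomorphism -/
theorem degClass_div (x y : Cl k A0 A1 A01 t s K) :
    degClass K (x / y) = degClass K x - degClass K y := by
  rw [div_eq_mul_inv, degClass_mul t s K hts ha0 ha1, degClass_inv t s K hts ha0 ha1]
  ring

end Fermat.Agent.JAC.Fibre.DegAddConst37
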