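/-
Programme JAC, work package A2 (fibre curve theory): strong approximation in a Dedekind domain,
in the language of the adic valuations on the fraction field.  Mathlib only.
-/
import Mathlib

set_option autoImplicit false

open IsDedekindDomain WithZero

namespace Fermat.Agent.JAC.Fibre.Approx38

variable {B : Type*} [CommRing B] [IsDedekindDomain B]
variable {F : Type*} [Field F] [Algebra B F] [IsFractionRing B F]

/-- A nonzero element of `ℤᵐ⁰` which is `≤ 1` is `exp (-k)` for a natural number `k`. -/
theorem exists_nat_eq_exp_neg {x : ℤᵐ⁰} (hx0 : x ≠ 0) (hx1 : x ≤ 1) :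
    ∃ k : ℕ, x = exp (-(k : ℤ)) := by
  have h1 : x = exp (log x) := (exp_log hx0).symm
  have h2 : log x ≤ 0 := by
    rw [h1, ← exp_zero, exp_le_exp] at hx1
    exact hx1
  refine ⟨(-log x).toNat, ?_⟩
  rw [Int.toNat_of_nonneg (by omega), neg_neg]
  exact h1

/-- **Strong approximation** in a Dedekind domain `B` with fraction field `F`: given a finite
set `S` of primes, targets `g w ∈ F` and exponents `e w`, there is `f ∈ F` which is close to
`g w` at each `w ∈ S` and integral at all other primes. -/
theorem strong_approx (S : Finset (HeightOneSpectrum B)) (g : HeightOneSpectrum B → F)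
    (e : HeightOneSpectrum B → ℤ) :
    ∃ f : F, (∀ w ∈ S, w.valuation F (f - g w) ≤ exp (e w)) ∧
      ∀ w : HeightOneSpectrum B, w ∉ S → w.valuation F f ≤ 1 := by
  classical
  -- common denominator
  obtain ⟨⟨d, hd⟩, hdS⟩ := IsLocalization.exist_integer_multiples_of_finset (nonZeroDivisors B)
    (S.image g)
  have hd0 : d ≠ 0 := nonZeroDivisors.ne_zero hd
  have hdF : algebraMap B F d ≠ 0 := by
    rw [Ne, IsFractionRing.to_map_eq_zero_iff]; exact hd0
  have hnum : ∀ w ∈ S, ∃ a : B, algebraMap B F a = algebraMap B F d * g w := by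
    intro w hw
    obtain ⟨a, ha⟩ := hdS (g w) (Finset.mem_image_of_mem g hw)
    exact ⟨a, by rw [ha, Algebra.smul_def]⟩
  choose! a ha using hnum
  -- the primes dividing `d`
  have hfin : {w : HeightOneSpectrum B | w.asIdeal ∣ Ideal.span {d}}.Finite := by
    apply Ideal.finite_factors
    simpa only [Submodule.zero_eq_bot, ne_eq, Ideal.span_singleton_eq_bot]
  set T : Finset (HeightOneSpectrum B) := S ∪ hfin.toFinset with hT
  -- exponent of `d` at each prime
  have hk : ∀ w : HeightOneSpectrum B, ∃ k : ℕ, w.intValuation d = exp (-(k : ℤ)) := fun w =>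
    exists_nat_eq_exp_neg (w.intValuation_ne_zero d hd0) (w.intValuation_le_one d)
  choose k hk using hk
  -- CRT
  obtain ⟨y, hy⟩ := IsDedekindDomain.exists_forall_sub_mem_ideal (s := T)
    (fun w => w.asIdeal) (fun w => if w ∈ S then ((k w : ℤ) - e w).toNat else k w)
    (fun w _ => w.prime) (fun w _ w' _ hne h => hne (HeightOneSpectrum.ext h))
    (fun w => if (w : HeightOneSpectrum B) ∈ S then a w else 0)
  refine ⟨algebraMap B F y / algebraMap B F d, fun w hw => ?_, fun w hw => ?_⟩
  · have hwT : w ∈ T := Finset.mem_union_left _ hw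
    have h1 := hy w hwT
    simp only [hw, if_true] at h1
    rw [← HeightOneSpectrum.intValuation_le_pow_iff_mem] at h1
    have h2 : algebraMap B F y / algebraMap B F d - g w =
        algebraMap B F (y - a w) / algebraMap B F d := by
      rw [map_sub, ha w hw]; field_simp
    rw [h2, map_div₀, HeightOneSpectrum.valuation_of_algebraMap,
      HeightOneSpectrum.valuation_of_algebraMap, hk w]
    rw [div_le_iff₀ (by exact exp_pos)]
    refine h1.trans ?_
    rw [← exp_add, exp_le_exp]
    have := Int.self_le_toNat ((k w : ℤ) - e w)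
    omega
  · rw [map_div₀, HeightOneSpectrum.valuation_of_algebraMap,
      HeightOneSpectrum.valuation_of_algebraMap, hk w]
    rw [div_le_iff₀ (by exact exp_pos), one_mul]
    by_cases hwT : w ∈ T
    · have h1 := hy w hwT
      simp only [hw, if_false, sub_zero] at h1
      rwa [← HeightOneSpectrum.intValuation_le_pow_iff_mem] at h1
    · -- `d` is a unit at `w`
      have hwd : ¬ w.asIdeal ∣ Ideal.span {d} := by
        intro h
        exact hwT (Finset.mem_union_right _ (hfin.mem_toFinset.mpr h))
      have h1 : w.intValuation d = 1 := by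
        have := w.intValuation_lt_one_iff_dvd d
        exact le_antisymm (w.intValuation_le_one d) (not_lt.mp (fun h => hwd (this.mp h)))
      rw [← hk w, h1]
      exact w.intValuation_le_one y

end Fermat.Agent.JAC.Fibre.Approx38
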