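/-
Programme JAC, work package A2 (fibre curve theory), brick (d): a Dedekind `K`-algebra `B` with
fraction field `F` gives a chart `chartSet B` (the places whose valuation ring contains `B`)
satisfying the interface `IsChart` of `Core38`.
-/
import Mathlib
import Fermat.Prelude.Def_AlgebraicCurve_Repartitions
import Fermat.Agent.X0.FFDedekind
import Fermat.Agent.JAC.Fibre.Core38
import Fermat.Agent.JAC.Fibre.Approx38

set_option autoImplicit false

open AlgebraicCurve IsDedekindDomain WithZero IsLocalRing

namespace Fermat.Agent.JAC.Fibre.Chart38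

open Fermat.Agent.JAC.Fibre.RelRank38 Fermat.Agent.JAC.Fibre.Lat38 Fermat.Agent.JAC.Fibre.Core38
  Fermat.Agent.JAC.Fibre.Approx38 Fermat.Agent.X0.FFDedekind Fermat.Agent.X0.FF

universe u v w

variable {K : Type u} {F : Type v} [Field K] [Field F] [Algebra K F]

/-! ### Generalities on places -/

theorem mem_iff_adicValuation_le_one (v : Place K F) {f : F} :
    f ∈ v.toValuationSubring ↔ v.adicValuation f ≤ 1 := by
  constructor
  · exact v.adicValuation_le_one_of_mem
  · intro h
    rcases v.adicValuation_le_one_iff.mp h with rfl | h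
    · exact zero_mem _
    · exact ffp_mem_of_ord_nonneg v h

theorem lt_one_iff_le_exp_neg_one {x : ℤᵐ⁰} : x < 1 ↔ x ≤ exp (-1 : ℤ) := by
  rcases eq_or_ne x 0 with rfl | hx
  · simp
  · rw [← exp_log hx, ← exp_zero, exp_lt_exp, exp_le_exp]
    omega

theorem mem_maximalIdeal_iff (v : Place K F) (a : v.toValuationSubring) :
    a ∈ maximalIdeal v.toValuationSubring ↔ v.adicValuation (a : F) ≤ exp (-1 : ℤ) := by
  rw [v.adicValuation_coe, ← lt_one_iff_le_exp_neg_one,
    HeightOneSpectrum.intValuation_lt_one_iff_mem, Place.heightOneSpectrum_asIdeal]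

/-- An element of `F` of valuation `exp (-n)` at `v`. -/
theorem exists_adicValuation_eq_exp (v : Place K F) (n : ℤ) :
    ∃ z : F, z ≠ 0 ∧ v.adicValuation z = exp (-n) := by
  obtain ⟨π, hπ⟩ := IsDiscreteValuationRing.exists_irreducible v.toValuationSubring
  have hπ0 : (π : F) ≠ 0 := by
    simpa [ne_eq, ZeroMemClass.coe_eq_zero] using hπ.ne_zero
  refine ⟨(π : F) ^ n, zpow_ne_zero n hπ0, ?_⟩
  rw [map_zpow₀, v.adicValuation_coe_irreducible hπ, ← exp_zsmul, smul_eq_mul, mul_neg, mul_one]

/-! ### The chart of a Dedekind domain -/

section Chart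

variable (B : Type w) [CommRing B] [IsDedekindDomain B] [Algebra B F] [IsFractionRing B F]
  [Algebra K B] [IsScalarTower K B F]

/-- The places of `F/K` centred on `B`. -/
def chartSet : Set (Place K F) := {v | ∀ b : B, algebraMap B F b ∈ v.toValuationSubring}

variable {B}

theorem ofHeightOneSpectrum_mem_chartSet (w : HeightOneSpectrum B) :
    Place.ofHeightOneSpectrum (K := K) (F := F) w ∈ chartSet (K := K) (F := F) B :=
  algebraMap_mem_ofHeightOneSpectrum w

theorem adicValuation_ofHeightOneSpectrum (w : HeightOneSpectrum B) (f : F) :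
    (Place.ofHeightOneSpectrum (K := K) (F := F) w).adicValuation f = w.valuation F f := by
  rcases eq_or_ne f 0 with rfl | hf
  · simp
  have h := ord_ofHeightOneSpectrum (K := K) w f
  unfold Place.ord at h
  have h1 : (Place.ofHeightOneSpectrum (K := K) (F := F) w).adicValuation f ≠ 0 :=
    Place.adicValuation_ne_zero _ hf
  have h2 : w.valuation F f ≠ 0 := (Valuation.ne_zero_iff _).mpr hf
  rw [← WithZero.exp_log h1, ← WithZero.exp_log h2]
  congr 1
  omega

theorem adicValuation_eq_centreSpec (v : Place K F) (hv : v ∈ chartSet (K := K) (F := F) B)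
    (f : F) : v.adicValuation f = (centreSpec v hv).valuation F f := by
  have := adicValuation_ofHeightOneSpectrum (K := K) (centreSpec v hv) f
  rwa [ofHeightOneSpectrum_centreSpec v hv] at this

/-- **Strong approximation** on a chart, in place language. -/
theorem strong_approx_place (S : Finset (Place K F))
    (hS : ∀ v ∈ S, v ∈ chartSet (K := K) (F := F) B) (g : Place K F → F) (e : Place K F → ℤ) :
    ∃ f : F, (∀ v ∈ S, v.adicValuation (f - g v) ≤ exp (e v)) ∧
      ∀ v ∈ chartSet (K := K) (F := F) B, v ∉ S → v.adicValuation f ≤ 1 := by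
  classical
  set S' : Finset (HeightOneSpectrum B) :=
    S.preimage (Place.ofHeightOneSpectrum (K := K) (F := F) (R := B))
      (ofHeightOneSpectrum_injective (K := K) (F := F) (B := B)).injOn with hS'
  obtain ⟨f, hf1, hf2⟩ := strong_approx (F := F) S'
    (fun w => g (Place.ofHeightOneSpectrum (K := K) (F := F) w))
    (fun w => e (Place.ofHeightOneSpectrum (K := K) (F := F) w))
  refine ⟨f, fun v hv => ?_, fun v hv hvS => ?_⟩
  · have hvB := hS v hv
    have hw : centreSpec v hvB ∈ S' := by
      rw [hS', Finset.mem_preimage, ofHeightOneSpectrum_centreSpec v hvB]; exact hv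
    have := hf1 _ hw
    simp only [ofHeightOneSpectrum_centreSpec v hvB] at this
    rwa [adicValuation_eq_centreSpec v hvB]
  · have hw : centreSpec v hv ∉ S' := by
      rw [hS', Finset.mem_preimage, ofHeightOneSpectrum_centreSpec v hv]; exact hvS
    rw [adicValuation_eq_centreSpec v hv]
    exact hf2 _ hw

/-! ### The local quotient `lat U (D + P) / lat U D` is the residue field of `P` -/

/-- The map `f ↦ f * z` from `lat U (D + P)` to the valuation ring of `P`, where `z` has
valuation `exp (-(D P + 1))` at `P`. -/
noncomputable def mulToRing (U : Set (Place K F)) (D : Divisor K F) (P : Place K F) (hP : P ∈ U)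
    (z : F) (hz : P.adicValuation z = exp (-(D P + 1))) :
    ↥(lat U (D + Finsupp.single P 1)) →ₗ[K] P.toValuationSubring where
  toFun f := ⟨(f : F) * z, by
    rw [mem_iff_adicValuation_le_one, map_mul, hz]
    have h := f.2 P hP
    simp only [Finsupp.add_apply, Finsupp.single_eq_same] at h
    calc P.adicValuation (f : F) * exp (-(D P + 1)) ≤ exp (D P + 1) * exp (-(D P + 1)) :=
          mul_le_mul' h le_rfl
      _ = 1 := by rw [← exp_add, add_neg_cancel, exp_zero]⟩
  map_add' f g := by
    apply Subtype.ext
    simp [add_mul]
  map_smul' c f := by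
    apply Subtype.ext
    simp only [Submodule.coe_smul, RingHom.id_apply]
    rw [Algebra.smul_def, Algebra.smul_def]
    simp only [MulMemClass.coe_mul, Place.coe_algebraMap]
    ring

theorem coe_mulToRing (U : Set (Place K F)) (D : Divisor K F) (P : Place K F) (hP : P ∈ U)
    (z : F) (hz : P.adicValuation z = exp (-(D P + 1)))
    (f : ↥(lat U (D + Finsupp.single P 1))) :
    ((mulToRing U D P hP z hz f : P.toValuationSubring) : F) = (f : F) * z := rfl

/-- The residue map of the valuation ring of `P`, as a `K`-linear map. -/
noncomputable def residueLin (P : Place K F) : P.toValuationSubring →ₗ[K] P.ResidueField :=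
  (IsScalarTower.toAlgHom K P.toValuationSubring P.ResidueField).toLinearMap

theorem residueLin_apply (P : Place K F) (a : P.toValuationSubring) :
    residueLin P a = residue P.toValuationSubring a := rfl

/-- **A Dedekind chart satisfies the chart interface.** -/
theorem isChart_chartSet : IsChart (chartSet (K := K) (F := F) B) := by
  classical
  refine ⟨fun D P hP => ?_⟩
  set U := chartSet (K := K) (F := F) B with hU
  obtain ⟨z, hz0, hz⟩ := exists_adicValuation_eq_exp P (D P + 1)
  set φ : ↥(lat U (D + Finsupp.single P 1)) →ₗ[K] P.ResidueField :=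
    (residueLin P).comp (mulToRing U D P hP z hz) with hφ
  -- kernel
  have hker : LinearMap.ker φ = (lat U D).submoduleOf (lat U (D + Finsupp.single P 1)) := by
    ext f
    rw [LinearMap.mem_ker, hφ, LinearMap.comp_apply, residueLin_apply, residue_eq_zero_iff,
      mem_maximalIdeal_iff, coe_mulToRing, map_mul, hz]
    have key : P.adicValuation (f : F) * exp (-(D P + 1)) ≤ exp (-1 : ℤ) ↔
        P.adicValuation (f : F) ≤ exp (D P) := by
      have hpos : (0 : ℤᵐ⁰) < exp (D P + 1) := exp_pos
      rw [← mul_le_mul_iff_of_pos_right hpos, mul_assoc, ← exp_add, neg_add_cancel, exp_zero,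
        mul_one, ← exp_add]
      have : (-1 : ℤ) + (D P + 1) = D P := by ring
      rw [this]
    rw [key]
    constructor
    · intro h
      exact mem_lat_of_mem_add_single f.2 h
    · intro h
      exact h P hP
  -- surjectivity
  have hsurj : Function.Surjective φ := by
    intro r
    obtain ⟨a, rfl⟩ := residue_surjective r
    -- approximate `a / z` to one more order at `P`, keeping the conditions elsewhere
    set S : Finset (Place K F) := insert P (D.support.filter (fun v => v ∈ U)) with hS
    have hSU : ∀ v ∈ S, v ∈ U := by
      intro v hv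
      rcases Finset.mem_insert.mp hv with rfl | hv
      · exact hP
      · exact (Finset.mem_filter.mp hv).2
    obtain ⟨f, hf1, hf2⟩ := strong_approx_place (B := B) S hSU
      (fun v => if v = P then (a : F) / z else 0) (fun v => D v)
    have hfP : P.adicValuation (f - (a : F) / z) ≤ exp (D P) := by
      have := hf1 P (Finset.mem_insert_self _ _)
      simpa using this
    have haz : P.adicValuation ((a : F) / z) ≤ exp (D P + 1) := by
      rw [map_div₀, hz, div_le_iff₀ (by exact exp_pos), ← exp_add, add_neg_cancel, exp_zero]
      exact P.adicValuation_le_one_of_mem a.2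
    have hfmem : f ∈ lat U (D + Finsupp.single P 1) := by
      intro v hv
      by_cases hvP : v = P
      · subst hvP
        simp only [Finsupp.add_apply, Finsupp.single_eq_same]
        have h3 : f = (f - (a : F) / z) + (a : F) / z := by ring
        rw [h3]
        refine (Valuation.map_add _ _ _).trans (max_le (hfP.trans ?_) haz)
        rw [exp_le_exp]; omega
      · simp only [Finsupp.add_apply, Finsupp.single_apply, if_neg (Ne.symm hvP), add_zero]
        by_cases hvS : v ∈ S
        · have := hf1 v hvS
          simpa [hvP] using this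
        · have h4 := hf2 v hv hvS
          have hD : D v = 0 := by
            by_contra hD
            exact hvS (Finset.mem_insert_of_mem
              (Finset.mem_filter.mpr ⟨Finsupp.mem_support_iff.mpr hD, hv⟩))
          rw [hD, exp_zero]; exact h4
    refine ⟨⟨f, hfmem⟩, ?_⟩
    rw [hφ, LinearMap.comp_apply, residueLin_apply, ← sub_eq_zero, ← map_sub,
      residue_eq_zero_iff, mem_maximalIdeal_iff]
    have h5 : (((mulToRing U D P hP z hz ⟨f, hfmem⟩ - a : P.toValuationSubring)) : F) =
        (f - (a : F) / z) * z := by
      rw [AddSubgroupClass.coe_sub, coe_mulToRing]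
      field_simp
    rw [h5, map_mul, hz]
    calc P.adicValuation (f - (a : F) / z) * exp (-(D P + 1))
        ≤ exp (D P) * exp (-(D P + 1)) := mul_le_mul' hfP le_rfl
      _ = exp (-1 : ℤ) := by rw [← exp_add]; congr 1; ring
  -- conclusion
  unfold relrank
  rw [← hker]
  exact (φ.quotKerEquivOfSurjective hsurj).rank_eq

end Chart

end Fermat.Agent.JAC.Fibre.Chart38
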