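/-
Programme JAC, S27 track, brick C5b: `Pic0` of the function field of the fibre of the curve over
a field `K` is the group `picZero hdeg e K` of rigid classes of degree zero of `Final/RelModel33`
(the `K`-points of the Jacobian); torsion counts and divisibility transfer.  First for the
constant extension of CURVE data, then for the S25 curve `D : TwoChartData c` of B2.
-/
import Mathlib
import Fermat.Prelude.Def_AlgebraicCurve_Repartitions
import Fermat.Agent.JAC.Fibre.PicZero38
import Fermat.Agent.JAC.Final.RelModel33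
import Fermat.Agent.JAC.Frame.DegFamily65
import Fermat.Agent.JAC.Grp.RigidifyBc33
import Fermat.Agent.JAC.B2.FibreSetting37

set_option autoImplicit false
set_option linter.unusedSectionVars false
set_option linter.style.haveILetI false

open AlgebraicCurve Polynomial TensorProduct

namespace Fermat.Agent.JAC.Fibre.PicZeroFibre38

open Fermat.Agent.JAC.Fibre.PicZero38 Fermat.Agent.JAC.Fibre.ConstExt37
  Fermat.Agent.JAC.Core.AlgAtlas36 Fermat.Agent.JAC.Core.Degree36
  Fermat.Agent.JAC.Final.RelModel33 Fermat.Agent.JAC.Grp.Diag33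
open scoped Fermat.Agent.JAC.Core.ConstFamily36

universe u

/-! ### The constant extension of CURVE data -/

section ConstExt

variable {k : Type u} [Field k] {A0 A1 A01 : Type u} [CommRing A0] [CommRing A1] [CommRing A01]
  [Algebra k A0] [Algebra k A1] [Algebra k A01] [Algebra A0 A01] [Algebra A1 A01]
  [IsScalarTower k A0 A01] [IsScalarTower k A1 A01] (t : A0) (s : A1)
  [IsLocalization.Away t A01] [IsLocalization.Away s A01]
  (K : Type u) [Field K] [Algebra k K]
  (hts : algebraMap A0 A01 t * algebraMap A1 A01 s = 1)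
  {n0 n1 : ℕ} {a0 : Fin n0 → A0} {a1 : Fin n1 → A1}
  (ha0 : Function.Bijective (fun p : Fin n0 → k[X] => ∑ j, aeval t (p j) * a0 j))
  (ha1 : Function.Bijective (fun p : Fin n1 → k[X] => ∑ j, aeval s (p j) * a1 j))
  (hdeg : DegAdditive k A0 A1 A01 t s) (e : A01 →ₐ[k] k)

include hts ha0 ha1 in
/-- Over a field, the rigid classes of degree zero are the classes of degree zero. -/
theorem mem_picZero_iff_degClass (x : Cl k A0 A1 A01 t s K) :
    x ∈ picZero hdeg e K ↔ degClass K x = 0 := by
  rw [mem_picZero]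
  constructor
  · intro h
    exact (Fermat.Agent.JAC.Frame.DegFamily65.isDegZero_field_iff hts a0 ha0 a1 ha1 x).1 h.2
  · intro h
    exact ⟨Fermat.Agent.JAC.Grp.RigidifyBc33.isRigidCl_of_subsingleton_pic e x,
      (Fermat.Agent.JAC.Frame.DegFamily65.isDegZero_field_iff hts a0 ha0 a1 ha1 x).2 h⟩

variable [IsDedekindDomain (K ⊗[k] A0)] [IsDedekindDomain (K ⊗[k] A1)]
  [IsDedekindDomain (K ⊗[k] A01)]

include hts ha0 ha1 in
/-- **C5b**: `Pic0` of the function field of the fibre over `K` is `picZero hdeg e K`. -/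
theorem nonempty_pic0_addEquiv_picZero :
    haveI := isFractionRing₀ (k := k) (A01 := A01) t K
    haveI := isFractionRing₁ (k := k) (A01 := A01) s K
    Nonempty (AlgebraicCurve.Pic0 K (FF k A01 K) ≃+ Additive ↥(picZero hdeg e K)) :=
  nonempty_pic0_addEquiv t s K hts ha0 ha1 (picZero hdeg e K)
    (mem_picZero_iff_degClass t s K hts ha0 ha1 hdeg e)

include hts ha0 ha1 in
theorem natCard_torsion_picZero (n : ℕ) :
    haveI := isFractionRing₀ (k := k) (A01 := A01) t K
    haveI := isFractionRing₁ (k := k) (A01 := A01) s K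
    Nat.card (Pic0.torsion K (FF k A01 K) n) =
      Nat.card {x : ↥(picZero hdeg e K) // x ^ n = 1} :=
  natCard_torsion_constExt t s K hts ha0 ha1 (picZero hdeg e K)
    (mem_picZero_iff_degClass t s K hts ha0 ha1 hdeg e) n

include hts ha0 ha1 in
theorem pic0_divisible_picZero (n : ℕ)
    (hdiv : ∀ x : ↥(picZero hdeg e K), ∃ y : ↥(picZero hdeg e K), y ^ n = x) :
    haveI := isFractionRing₀ (k := k) (A01 := A01) t K
    haveI := isFractionRing₁ (k := k) (A01 := A01) s K
    ∀ x : AlgebraicCurve.Pic0 K (FF k A01 K),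
      ∃ y : AlgebraicCurve.Pic0 K (FF k A01 K), n • y = x :=
  pic0_divisible_constExt t s K hts ha0 ha1 (picZero hdeg e K)
    (mem_picZero_iff_degClass t s K hts ha0 ha1 hdeg e) n hdiv

end ConstExt

/-! ### The S25 curve -/

section Curve

open AlgebraicGeometry CategoryTheory
open Fermat.Agent.JAC.B2 Charts37 Domain37 Valuative37 TwoChart37 Export37 CurveBlock37 HGeom37
  FibreSetting37

variable {k : Type u} [Field k] {C : Scheme.{u}} {c : C ⟶ Spec (.of k)} (D : TwoChartData c)

attribute [local instance] algK₀ algK₁ algK₀₁ alg₀ alg₁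

variable [IsAlgClosed k] [SmoothOfRelativeDimension 1 c] (K : Type u) [Field K] [Algebra k K]
  (hdeg : DegAdditive k (A₀ D) (A₁ D) (A₀₁ D) D.t D.s) (e : A₀₁ D →ₐ[k] k)

theorem mem_picZero_iff_degClass_fibre (x : Cl k (A₀ D) (A₁ D) (A₀₁ D) D.t D.s K) :
    x ∈ picZero hdeg e K ↔ degClass K x = 0 := by
  obtain ⟨n0, a0, ha0⟩ := exists_coords₀ D
  obtain ⟨n1, a1, ha1⟩ := exists_coords₁ D
  exact mem_picZero_iff_degClass D.t D.s K (hts D) ha0 ha1 hdeg e x

/-- **C5b for the S25 curve**: `Pic0` of the function field of the fibre over `K` is the group of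
`K`-points `picZero hdeg e K` of the Jacobian. -/
theorem nonempty_pic0_addEquiv_fibre :
    haveI := isDedekindDomain_baseChange₀ D K
    haveI := isDedekindDomain_baseChange₁ D K
    haveI := isDedekindDomain_baseChange₀₁ D K
    haveI := isFractionRing₀ (k := k) (A01 := A₀₁ D) D.t K
    haveI := isFractionRing₁ (k := k) (A01 := A₀₁ D) D.s K
    Nonempty (AlgebraicCurve.Pic0 K (FF k (A₀₁ D) K) ≃+ Additive ↥(picZero hdeg e K)) := by
  haveI := isDedekindDomain_baseChange₀ D K
  haveI := isDedekindDomain_baseChange₁ D K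
  haveI := isDedekindDomain_baseChange₀₁ D K
  obtain ⟨n0, a0, ha0⟩ := exists_coords₀ D
  obtain ⟨n1, a1, ha1⟩ := exists_coords₁ D
  exact nonempty_pic0_addEquiv_picZero D.t D.s K (hts D) ha0 ha1 hdeg e

theorem natCard_torsion_fibre (n : ℕ) :
    haveI := isDedekindDomain_baseChange₀ D K
    haveI := isDedekindDomain_baseChange₁ D K
    haveI := isDedekindDomain_baseChange₀₁ D K
    haveI := isFractionRing₀ (k := k) (A01 := A₀₁ D) D.t K
    haveI := isFractionRing₁ (k := k) (A01 := A₀₁ D) D.s K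
    Nat.card (Pic0.torsion K (FF k (A₀₁ D) K) n) =
      Nat.card {x : ↥(picZero hdeg e K) // x ^ n = 1} := by
  haveI := isDedekindDomain_baseChange₀ D K
  haveI := isDedekindDomain_baseChange₁ D K
  haveI := isDedekindDomain_baseChange₀₁ D K
  obtain ⟨n0, a0, ha0⟩ := exists_coords₀ D
  obtain ⟨n1, a1, ha1⟩ := exists_coords₁ D
  exact natCard_torsion_picZero D.t D.s K (hts D) ha0 ha1 hdeg e n

theorem pic0_divisible_fibre (n : ℕ)
    (hdiv : ∀ x : ↥(picZero hdeg e K), ∃ y : ↥(picZero hdeg e K), y ^ n = x) :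
    haveI := isDedekindDomain_baseChange₀ D K
    haveI := isDedekindDomain_baseChange₁ D K
    haveI := isDedekindDomain_baseChange₀₁ D K
    haveI := isFractionRing₀ (k := k) (A01 := A₀₁ D) D.t K
    haveI := isFractionRing₁ (k := k) (A01 := A₀₁ D) D.s K
    ∀ x : AlgebraicCurve.Pic0 K (FF k (A₀₁ D) K),
      ∃ y : AlgebraicCurve.Pic0 K (FF k (A₀₁ D) K), n • y = x := by
  haveI := isDedekindDomain_baseChange₀ D K
  haveI := isDedekindDomain_baseChange₁ D K
  haveI := isDedekindDomain_baseChange₀₁ D K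
  obtain ⟨n0, a0, ha0⟩ := exists_coords₀ D
  obtain ⟨n1, a1, ha1⟩ := exists_coords₁ D
  exact pic0_divisible_picZero D.t D.s K (hts D) ha0 ha1 hdeg e n hdiv

/-! ### The function field of the fibre over `k` is the function field of the curve -/

section FunctionField

variable [IsIntegral C]

theorem nonempty₀₁ : Nonempty ↥(D.U₀ ⊓ D.U₁).toScheme := by
  by_contra h
  have : Subsingleton Γ(C, D.U₀ ⊓ D.U₁) := by
    have hbot : D.U₀ ⊓ D.U₁ = ⊥ := by
      ext x
      simp only [TopologicalSpace.Opens.coe_bot, Set.mem_empty_iff_false, iff_false]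
      exact fun hx => h ⟨⟨x, hx⟩⟩
    rw [hbot]
    infer_instance
  have := D.dedekind₀₁
  exact not_subsingleton Γ(C, D.U₀ ⊓ D.U₁) ‹_›

/-- `Frac (k ⊗[k] A₀₁) ≃ K(C)`. -/
noncomputable def ffEquiv : FF k (A₀₁ D) k ≃+* C.functionField :=
  haveI := nonempty₀₁ D
  haveI : IsFractionRing (A₀₁ D) C.functionField :=
    functionField_isFractionRing_of_isAffineOpen C (D.U₀ ⊓ D.U₁) (isAffineOpen_inf D)
  IsFractionRing.ringEquivOfRingEquiv (Algebra.TensorProduct.lid k (A₀₁ D)).toRingEquiv

/-- `ffEquiv` is compatible with the structure maps from `k`. -/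
theorem ffEquiv_algebraMap (a : k) :
    ffEquiv D (algebraMap k (FF k (A₀₁ D) k) a) = structureHomF c a := by
  haveI := nonempty₀₁ D
  haveI : IsFractionRing (A₀₁ D) C.functionField :=
    functionField_isFractionRing_of_isAffineOpen C (D.U₀ ⊓ D.U₁) (isAffineOpen_inf D)
  rw [IsScalarTower.algebraMap_apply k (k ⊗[k] A₀₁ D) (FF k (A₀₁ D) k)]
  unfold ffEquiv
  rw [IsFractionRing.ringEquivOfRingEquiv_algebraMap]
  have h1 : (Algebra.TensorProduct.lid k (A₀₁ D)).toRingEquiv
      (algebraMap k (k ⊗[k] A₀₁ D) a) = algebraMap k (A₀₁ D) a := by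
    rw [Algebra.TensorProduct.algebraMap_apply]
    show (Algebra.TensorProduct.lid k (A₀₁ D)) (algebraMap k k a ⊗ₜ[k] (1 : A₀₁ D)) = _
    rw [Algebra.TensorProduct.lid_tmul]
    show a • (1 : A₀₁ D) = _
    exact (Algebra.algebraMap_eq_smul_one a).symm
  rw [h1, algebraMap_k₀₁]
  exact germToFunctionField_structureHom c (D.U₀ ⊓ D.U₁) a

/-- `Frac (k ⊗[k] A₀₁) ≃ₐ[k] K(C)` for the `k`-algebra structure `structureHomF c` on `K(C)`. -/
noncomputable def ffAlgEquiv :
    letI : Algebra k C.functionField := (structureHomF c).toAlgebra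
    FF k (A₀₁ D) k ≃ₐ[k] C.functionField :=
  letI : Algebra k C.functionField := (structureHomF c).toAlgebra
  { ffEquiv D with commutes' := ffEquiv_algebraMap D }

end FunctionField

end Curve

end Fermat.Agent.JAC.Fibre.PicZeroFibre38
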